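import Fermat.Agent.ES.Ring.Galois
import Mathlib.RingTheory.HahnSeries.Multiplication

/-!
# Automorphisms of `ℂ` acting on `BSub M` through expansions

If `σ ζ = ζ^a` then `σ` of the expansion at `γ` of a function is the expansion at `γ'` of another
function, where `diag(1,a) γ' ≡ γ diag(1,a) (mod M)`.
-/

set_option autoImplicit false

open UpperHalfPlane CongruenceSubgroup
open scoped MatrixGroups

noncomputable section

namespace FermatAgent.ES

/-- Surjectivity of the reduction `SL(2,ℤ) → SL(2,ℤ/M)`. -/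
theorem exists_lift_modMat {M : ℕ} [NeZero M] {a b c d : ZMod M} (hdet : a * d - b * c = 1) :
    ∃ γ : SL(2, ℤ), modMat M γ = !![a, b; c, d] := by
  obtain ⟨c0, hc0⟩ := ZMod.intCast_surjective c
  obtain ⟨d0, hd0⟩ := ZMod.intCast_surjective d
  obtain ⟨c1, hc1, hc1ne⟩ : ∃ c1 : ℤ, (c1 : ZMod M) = c ∧ c1 ≠ 0 := by
    by_cases h : c0 = 0
    · exact ⟨M, by rw [← hc0, h]; simp, by simp [NeZero.ne M]⟩
    · exact ⟨c0, hc0, h⟩
  classical
  set P := c1.natAbs.primeFactors.filter (fun p : ℕ => ¬ (p : ℤ) ∣ d0) with hP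
  set k : ℕ := ∏ p ∈ P, p with hk
  set d1 : ℤ := d0 + k * M with hd1
  have hd1c : (d1 : ZMod M) = d := by rw [hd1]; simp [hd0]
  have hcop : IsCoprime c1 d1 := by
    rw [Int.isCoprime_iff_nat_coprime]
    refine Nat.coprime_of_dvd fun p hp hpc hpd => ?_
    have hpc' : (p : ℤ) ∣ c1 := Int.natCast_dvd.mpr hpc
    have hpd' : (p : ℤ) ∣ d1 := Int.natCast_dvd.mpr hpd
    by_cases hd : (p : ℤ) ∣ d0
    · have hkM : (p : ℤ) ∣ ((k * M : ℕ) : ℤ) := by
        have := Int.dvd_sub hpd' hd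
        rw [hd1, add_sub_cancel_left] at this
        exact_mod_cast this
      rcases (Nat.Prime.dvd_mul hp).mp (Int.natCast_dvd_natCast.mp hkM) with h | h
      · rw [hk, hp.prime.dvd_finsetProd_iff] at h
        obtain ⟨q, hq, hpq⟩ := h
        rw [hP, Finset.mem_filter] at hq
        rw [(Nat.prime_dvd_prime_iff_eq hp (Nat.prime_of_mem_primeFactors hq.1)).mp hpq] at hd
        exact hq.2 hd
      · have hcast : ∀ x : ℤ, (p : ℤ) ∣ x → ZMod.castHom h (ZMod p) (x : ZMod M) = 0 :=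
          fun x hx => by
          rw [map_intCast, ZMod.intCast_zmod_eq_zero_iff_dvd]; exact hx
        have h1 := congrArg (ZMod.castHom h (ZMod p)) hdet
        rw [← hd1c, ← hc1, map_sub, map_mul, map_mul, hcast _ hpd', hcast _ hpc', map_one] at h1
        have : Fact p.Prime := ⟨hp⟩
        simp at h1
    · have hpk : p ∣ k := by
        rw [hk]
        refine Finset.dvd_prod_of_mem _ ?_
        rw [hP, Finset.mem_filter]
        exact ⟨Nat.mem_primeFactors.mpr ⟨hp, hpc, by simpa using hc1ne⟩, hd⟩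
      have : (p : ℤ) ∣ (k : ℤ) * M := (Int.natCast_dvd_natCast.mpr hpk).mul_right _
      exact hd (by rw [show d0 = d1 - k * M by rw [hd1]; ring]; exact Int.dvd_sub hpd' this)
  obtain ⟨g, hg⟩ := hcop.exists_SL2_row 1
  obtain ⟨hg0, hg1⟩ := hg
  have hdet' : (g 0 0 : ZMod M) * d - (g 0 1 : ZMod M) * c = 1 := by
    have h := congrArg (Int.cast : ℤ → ZMod M) (Matrix.SpecialLinearGroup.det_coe g)
    rw [Matrix.det_fin_two] at h
    push_cast at h
    rw [hg0, hg1, hc1, hd1c] at h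
    linear_combination h
  obtain ⟨x, hx⟩ := ZMod.intCast_surjective (a * (g 0 1 : ZMod M) * (-1) + b * (g 0 0 : ZMod M))
  refine ⟨ModularGroup.T ^ x * g, ?_⟩
  rw [modMat_mul]
  ext i j
  fin_cases i <;> fin_cases j <;>
    simp [modMat, Matrix.mul_apply, Fin.sum_univ_two, ModularGroup.coe_T_zpow, hx, hg0, hg1, hc1,
      hd1c]
  · linear_combination a * hdet' - (g 0 0 : ZMod M) * hdet
  · linear_combination b * hdet' - (g 0 1 : ZMod M) * hdet

/-- Apply a ring homomorphism to every coefficient. -/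
def mapSer {K L : Type*} [Field K] [Field L] (σ : K →+* L) :
    LaurentSeries K →+* LaurentSeries L where
  toFun s := s.map σ
  map_one' := by ext n; simp [HahnSeries.coeff_one, apply_ite σ]
  map_mul' x y := HahnSeries.map_mul σ.toNonUnitalRingHom
  map_zero' := by ext n; simp
  map_add' x y := by ext n; simp

/-- `mapSer` acts coefficientwise. -/
@[simp] theorem coeff_mapSer {K L : Type*} [Field K] [Field L] (σ : K →+* L) (s : LaurentSeries K)
    (n : ℤ) : (mapSer σ s).coeff n = σ (s.coeff n) := rfl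

/-- `mapSer` of a constant. -/
theorem mapSer_C {K L : Type*} [Field K] [Field L] (σ : K →+* L) (x : K) :
    mapSer σ (HahnSeries.C x) = HahnSeries.C (σ x) := by
  ext n
  rcases eq_or_ne n 0 with rfl | h
  · simp
  · simp [HahnSeries.C_apply, HahnSeries.coeff_single_of_ne h]

/-- `mapSer` of the series of a difference applies the map to the root of unity. -/
theorem mapSer_difLaurent {K L : Type*} [Field K] [Field L] (σ : K →+* L) (M : ℕ) (ζ : K)
    (v w : Fin 2 → ZMod M) : mapSer σ (difLaurent M ζ v w) = difLaurent M (σ ζ) v w := by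
  ext n
  rw [coeff_mapSer]
  rcases le_or_gt 0 n with h0 | h0
  · lift n to ℕ using h0
    simp [difLaurent, HahnSeries.ofPowerSeries_apply_coeff, difSeries, map_divCoeff]
  · rw [difLaurent, difLaurent, HahnSeries.ofPowerSeries_apply, HahnSeries.ofPowerSeries_apply,
      HahnSeries.embDomain_of_notMem_range, HahnSeries.embDomain_of_notMem_range, map_zero] <;>
    · rintro ⟨k, hk⟩; simp at hk; omega

variable {M : ℕ}

/-- Scale the second coordinate. -/
def scaleVec (a : ZMod M) (v : Fin 2 → ZMod M) : Fin 2 → ZMod M := ![v 0, a * v 1]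

/-- `diag(1,a) γ' ≡ γ diag(1,a)` modulo `M`. -/
def GalRel (a : ZMod M) (γ γ' : SL(2, ℤ)) : Prop :=
  !![1, 0; 0, a] * modMat M γ' = modMat M γ * !![1, 0; 0, a]

theorem scaleVec_eq (a : ZMod M) (v : Fin 2 → ZMod M) :
    scaleVec a v = Matrix.vecMul v !![1, 0; 0, a] := by
  funext i
  fin_cases i <;> simp [scaleVec, Matrix.vecMul, dotProduct, Fin.sum_univ_two, mul_comm]

/-- Related matrices commute with scaling the second coordinate. -/
theorem GalRel.vmul_scaleVec {a : ZMod M} {γ γ' : SL(2, ℤ)} (h : GalRel a γ γ')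
    (v : Fin 2 → ZMod M) : vmul M (scaleVec a v) γ' = scaleVec a (vmul M v γ) := by
  simp only [vmul, scaleVec_eq, Matrix.vecMul_vecMul]
  rw [h]

/-- The identity is related to itself. -/
theorem GalRel.one (a : ZMod M) : GalRel a 1 1 := by simp [GalRel, modMat_one]

/-- The relation is multiplicative. -/
theorem GalRel.mul {a : ZMod M} {γ γ' δ δ' : SL(2, ℤ)} (h : GalRel a γ γ') (h' : GalRel a δ δ') :
    GalRel a (γ * δ) (γ' * δ') := by
  rw [GalRel, modMat_mul, modMat_mul, ← mul_assoc, h, mul_assoc, h', mul_assoc]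

/-- The relation commutes with negation. -/
theorem GalRel.neg {a : ZMod M} {γ γ' : SL(2, ℤ)} (h : GalRel a γ γ') :
    GalRel a (-γ) (-γ') := by
  have hn : ∀ g : SL(2, ℤ), modMat M (-g) = -modMat M g := fun g => by ext i j; simp [modMat]
  rw [GalRel, hn, hn, mul_neg, neg_mul, h]

/-- The entries of related matrices modulo `M`. -/
theorem GalRel.entries {a : ZMod M} {γ γ' : SL(2, ℤ)} (h : GalRel a γ γ') :
    (γ' 0 0 : ZMod M) = γ 0 0 ∧ (γ' 0 1 : ZMod M) = γ 0 1 * a ∧
      a * γ' 1 0 = (γ 1 0 : ZMod M) ∧ a * γ' 1 1 = (γ 1 1 : ZMod M) * a := by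
  have e := fun i j => congrFun (congrFun h i) j
  have h00 := e 0 0
  have h01 := e 0 1
  have h10 := e 1 0
  have h11 := e 1 1
  simp [modMat, Matrix.mul_apply, Fin.sum_univ_two] at h00 h01 h10 h11
  exact ⟨h00, h01, h10, h11⟩

/-- Related matrices lie in `Γ(M)` together. -/
theorem GalRel.mem_Gamma {a : ZMod M} (ha : IsUnit a) {γ γ' : SL(2, ℤ)} (h : GalRel a γ γ') :
    γ ∈ Gamma M ↔ γ' ∈ Gamma M := by
  obtain ⟨h00, h01, h10, h11⟩ := h.entries
  rw [mul_comm (γ 1 1 : ZMod M) a, ha.mul_right_inj] at h11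
  rw [Gamma_mem, Gamma_mem, h00, h11, h01, ← h10, ha.mul_right_eq_zero, ha.mul_left_eq_zero]

/-- Related matrices lie in `Γ₀(M)` together. -/
theorem GalRel.mem_Gamma0 {a : ZMod M} (ha : IsUnit a) {γ γ' : SL(2, ℤ)} (h : GalRel a γ γ') :
    γ ∈ Gamma0 M ↔ γ' ∈ Gamma0 M := by
  obtain ⟨-, -, h10, -⟩ := h.entries
  rw [Gamma0_mem, Gamma0_mem, ← h10, ha.mul_right_eq_zero]

/-- Raising the root of unity to the power `a` scales the vector. -/
theorem divCoeff_pow_root {K : Type*} [Field K] {ζ : K} (hζ : ζ ^ M = 1) (a : ℕ)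
    (v : Fin 2 → ZMod M) (e : ℕ) :
    divCoeff M (ζ ^ a) v e = divCoeff M ζ (scaleVec (a : ZMod M) v) e := by
  have hpow : ∀ (x : ZMod M) (r : ℕ), (ζ ^ a) ^ (x.val * r) = ζ ^ (((a : ZMod M) * x).val * r) := by
    intro x r
    rw [← pow_mul, ← mul_assoc, pow_eq_pow_mod _ hζ, pow_eq_pow_mod (((a : ZMod M) * x).val * r) hζ]
    congr 1
    rw [ZMod.val_mul, ZMod.val_natCast]
    simp [Nat.mul_mod]
  have h1 := fun x => hpow x 1
  simp only [mul_one] at h1
  simp only [divCoeff, scaleVec, Matrix.cons_val_zero, Matrix.cons_val_one, h1, hpow, mul_neg]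

theorem scaleVec_injective {a : ZMod M} (ha : IsUnit a) : Function.Injective (scaleVec a) := by
  intro v w h
  funext i
  fin_cases i
  · simpa [scaleVec] using congrFun h 0
  · exact ha.mul_left_cancel (by simpa [scaleVec] using congrFun h 1)

/-- Scaling by a unit preserves admissibility. -/
theorem Adm.scale {a : ZMod M} (ha : IsUnit a) {v w : Fin 2 → ZMod M} (h : Adm M v w) :
    Adm M (scaleVec a v) (scaleVec a w) := by
  have hn : scaleVec a (-w) = -scaleVec a w := by funext i; fin_cases i <;> simp [scaleVec]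
  have h0 : scaleVec a (0 : Fin 2 → ZMod M) = 0 := by funext i; fin_cases i <;> simp [scaleVec]
  exact ⟨fun e => h.left (scaleVec_injective ha (e.trans h0.symm)),
    fun e => h.right (scaleVec_injective ha (e.trans h0.symm)),
    fun e => h.ne (scaleVec_injective ha e),
    fun e => h.ne_neg (scaleVec_injective ha (e.trans hn.symm))⟩

/-- Scaling by a unit preserves being nonzero. -/
theorem scaleVec_ne_zero {a : ZMod M} (ha : IsUnit a) {v : Fin 2 → ZMod M} (hv : v ≠ 0) :
    scaleVec a v ≠ 0 := fun e => hv (scaleVec_injective ha (e.trans (by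
      funext i; fin_cases i <;> simp [scaleVec])))

variable [NeZero M]

/-- Every matrix is related to some matrix on the right. -/
theorem GalRel.exists_right {a : ZMod M} (ha : IsUnit a) (γ : SL(2, ℤ)) : ∃ γ', GalRel a γ γ' := by
  obtain ⟨u, rfl⟩ := ha
  have hdet := congrArg (Int.cast : ℤ → ZMod M) (Matrix.SpecialLinearGroup.det_coe γ)
  rw [Matrix.det_fin_two] at hdet
  push_cast at hdet
  obtain ⟨γ', hγ'⟩ := exists_lift_modMat (M := M) (a := (γ 0 0 : ZMod M))
    (b := (γ 0 1 : ZMod M) * u) (c := ↑u⁻¹ * (γ 1 0 : ZMod M)) (d := (γ 1 1 : ZMod M))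
    (by linear_combination hdet - (γ 0 1 : ZMod M) * (γ 1 0 : ZMod M) * u.mul_inv)
  refine ⟨γ', ?_⟩
  rw [GalRel, hγ']
  ext i j
  fin_cases i <;> fin_cases j <;> simp [modMat, Matrix.mul_apply, Fin.sum_univ_two, mul_comm]

/-- Every matrix is related to some matrix on the left. -/
theorem GalRel.exists_left {a : ZMod M} (ha : IsUnit a) (γ' : SL(2, ℤ)) : ∃ γ, GalRel a γ γ' := by
  obtain ⟨u, rfl⟩ := ha
  have hdet := congrArg (Int.cast : ℤ → ZMod M) (Matrix.SpecialLinearGroup.det_coe γ')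
  rw [Matrix.det_fin_two] at hdet
  push_cast at hdet
  obtain ⟨γ, hγ⟩ := exists_lift_modMat (M := M) (a := (γ' 0 0 : ZMod M))
    (b := (γ' 0 1 : ZMod M) * ↑u⁻¹) (c := u * (γ' 1 0 : ZMod M)) (d := (γ' 1 1 : ZMod M))
    (by linear_combination hdet - (γ' 0 1 : ZMod M) * (γ' 1 0 : ZMod M) * u.inv_mul)
  refine ⟨γ, ?_⟩
  rw [GalRel, hγ]
  ext i j
  fin_cases i <;> fin_cases j <;>
    simp [modMat, Matrix.mul_apply, Fin.sum_univ_two, mul_comm, mul_left_comm]

/-- `mapSer` of the series of a ratio scales the vectors. -/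
theorem mapSer_ratioSeries {σ : ℂ →+* ℂ} {a : ℕ}
    (hσ : σ (zetaC M) = zetaC M ^ a) (v w v' w' : Fin 2 → ZMod M) :
    mapSer σ (ratioSeries M (zetaC M) v w v' w') =
      ratioSeries M (zetaC M) (scaleVec (a : ZMod M) v) (scaleVec (a : ZMod M) w)
        (scaleVec (a : ZMod M) v') (scaleVec (a : ZMod M) w') := by
  have hd : ∀ v w : Fin 2 → ZMod M, difLaurent M (zetaC M ^ a) v w =
      difLaurent M (zetaC M) (scaleVec (a : ZMod M) v) (scaleVec (a : ZMod M) w) := fun v w => by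
    simp only [difLaurent, difSeries, divCoeff_pow_root (zetaC_isPrimitiveRoot M).pow_eq_one a]
  simp only [ratioSeries, map_div₀, mapSer_difLaurent, hσ, hd]

variable {m : ℕ} (haux : AuxLevel M m)
include haux

/-- The conjugate of a modular function. -/
theorem exists_conj {σ : ℂ →+* ℂ} {a : ℕ} (ha : IsUnit (a : ZMod M))
    (hσ : σ (zetaC M) = zetaC M ^ a) {f : ℍ → ℂ} (hf : f ∈ BSub M) :
    ∃ f' ∈ BSub M, ∀ γ γ', GalRel (a : ZMod M) γ γ' →
      lexp M γ' f' = mapSer σ (lexp M γ f) := by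
  have hmem : f ∈ Subring.closure (ratioGens M (⊤ : Subring ℂ)) :=
    BRing_le_closure haux zetaC_goodRoot_top (mem_BRing_top.mpr hf)
  suffices H : f ∈ BSub M ∧ ∃ f' ∈ BSub M, ∀ γ γ', GalRel (a : ZMod M) γ γ' →
      lexp M γ' f' = mapSer σ (lexp M γ f) from H.2
  have expB : ∀ {g : ℍ → ℂ} (hg : g ∈ BSub M) (γ : SL(2, ℤ)),
      expHom γ ⟨g, hg⟩ = lexp M γ g := fun _ _ => rfl
  clear hf
  induction hmem using Subring.closure_induction with
  | mem g hg =>
    rcases hg with ⟨c, -, rfl⟩ | ⟨v, w, v', w', hv, hw, h', rfl⟩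
    · refine ⟨(BSub M).algebraMap_mem c, fun _ => σ c, (BSub M).algebraMap_mem _, fun γ γ' _ => ?_⟩
      rw [lexp_eq (γ := γ') (HasLExp.const (σ c)), lexp_eq (γ := γ) (HasLExp.const c), mapSer_C]
    · refine ⟨ratio_mem hv hw h', ratio M (scaleVec (a : ZMod M) v) (scaleVec (a : ZMod M) w)
        (scaleVec (a : ZMod M) v') (scaleVec (a : ZMod M) w'),
        ratio_mem (scaleVec_ne_zero ha hv) (scaleVec_ne_zero ha hw) (h'.scale ha),
        fun γ γ' h => ?_⟩
      rw [lexp_ratio (scaleVec_ne_zero ha hv) (scaleVec_ne_zero ha hw) (h'.scale ha),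
        lexp_ratio hv hw h', mapSer_ratioSeries hσ]
      simp only [h.vmul_scaleVec]
  | zero =>
    refine ⟨zero_mem _, 0, zero_mem _, fun γ γ' _ => ?_⟩
    rw [lexp_eq (γ := γ') HasLExp.zero, lexp_eq (γ := γ) HasLExp.zero, map_zero]
  | one =>
    refine ⟨one_mem _, 1, one_mem _, fun γ γ' _ => ?_⟩
    rw [lexp_eq (γ := γ') HasLExp.one, lexp_eq (γ := γ) HasLExp.one, map_one]
  | add g h _ _ hg hh =>
    obtain ⟨hgB, g', hg', hgeq⟩ := hg
    obtain ⟨hhB, h', hh', hheq⟩ := hh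
    refine ⟨add_mem hgB hhB, g' + h', add_mem hg' hh', fun γ γ' hr => ?_⟩
    have e1 := (expHom (M := M) γ').map_add ⟨g', hg'⟩ ⟨h', hh'⟩
    have e2 := (expHom (M := M) γ).map_add ⟨g, hgB⟩ ⟨h, hhB⟩
    simp only [AddMemClass.mk_add_mk, expB] at e1 e2
    rw [e1, e2, map_add, hgeq γ γ' hr, hheq γ γ' hr]
  | neg g _ hg =>
    obtain ⟨hgB, g', hg', hgeq⟩ := hg
    refine ⟨neg_mem hgB, -g', neg_mem hg', fun γ γ' hr => ?_⟩
    rw [lexp_eq (γ := γ') (f := -g') (hasLExp_lexp hg' γ').neg,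
      lexp_eq (γ := γ) (f := -g) (hasLExp_lexp hgB γ).neg, map_neg, hgeq γ γ' hr]
  | mul g h _ _ hg hh =>
    obtain ⟨hgB, g', hg', hgeq⟩ := hg
    obtain ⟨hhB, h', hh', hheq⟩ := hh
    refine ⟨mul_mem hgB hhB, g' * h', mul_mem hg' hh', fun γ γ' hr => ?_⟩
    have e1 := (expHom (M := M) γ').map_mul ⟨g', hg'⟩ ⟨h', hh'⟩
    have e2 := (expHom (M := M) γ).map_mul ⟨g, hgB⟩ ⟨h, hhB⟩
    simp only [MulMemClass.mk_mul_mk, expB] at e1 e2
    rw [e1, e2, map_mul, hgeq γ γ' hr, hheq γ γ' hr]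

end FermatAgent.ES
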