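import Fermat.Agent.ES.Ring.Haupt
import Mathlib.NumberTheory.ModularForms.Derivative
import Mathlib.Analysis.Complex.Liouville

/-!
# The Hauptmodul has nowhere vanishing derivative

`D t` divided by a product of differences of weight `2` is a bounded modular function.
-/

set_option autoImplicit false

open Filter Topology UpperHalfPlane CongruenceSubgroup
open scoped MatrixGroups Manifold ModularForm

noncomputable section

namespace FermatAgent.ES

local notation "Dq" => Derivative.normalizedDerivOfComplex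

/-- The derivative of a holomorphic function bounded at infinity is bounded there. -/
theorem isBounded_deriv {g : ℍ → ℂ} (hg : MDiff g) (hb : IsBoundedAtImInfty g) :
    IsBoundedAtImInfty (Dq g) := by
  rw [UpperHalfPlane.isBoundedAtImInfty_iff] at hb ⊢
  obtain ⟨B, A, hAB⟩ := hb
  refine ⟨‖(2 * (Real.pi : ℂ) * Complex.I)⁻¹‖ * B, max A 0 + 2, fun z hz => ?_⟩
  have hd := UpperHalfPlane.mdifferentiable_iff.mp hg
  have hsub : Metric.closedBall (z : ℂ) 1 ⊆ {w : ℂ | max A 0 + 1 ≤ w.im} := fun w hw => by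
    rw [Metric.mem_closedBall, dist_eq_norm] at hw
    have h := (Complex.abs_im_le_norm (w - z)).trans hw
    rw [Complex.sub_im, abs_le] at h
    have hzim : (z : ℂ).im = z.im := rfl
    simp only [Set.mem_ofPred_eq]
    linarith [h.1]
  have hpos : ∀ w ∈ Metric.closedBall (z : ℂ) 1, 0 < w.im := fun w hw => by
    have h := hsub hw
    simp only [Set.mem_ofPred_eq] at h
    linarith [le_max_right A 0]
  have hcl : DiffContOnCl ℂ (g ∘ ofComplex) (Metric.ball (z : ℂ) 1) :=
    DifferentiableOn.diffContOnCl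
      (hd.mono (fun w hw => hpos w (Metric.closure_ball_subset_closedBall hw)))
  have hbd : ∀ w ∈ Metric.sphere (z : ℂ) 1, ‖(g ∘ ofComplex) w‖ ≤ B := fun w hw => by
    have h := hsub (Metric.sphere_subset_closedBall hw)
    have hp := hpos w (Metric.sphere_subset_closedBall hw)
    simp only [Set.mem_ofPred_eq] at h
    rw [Function.comp_apply, ofComplex_apply_of_im_pos hp]
    exact hAB _ (show A ≤ w.im by linarith [le_max_left A 0])
  have h := Complex.norm_deriv_le_of_forall_mem_sphere_norm_le one_pos hcl hbd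
  rw [div_one] at h
  rw [Derivative.normalizedDerivOfComplex, norm_mul]
  exact mul_le_mul_of_nonneg_left h (norm_nonneg _)

/-- The derivative of a power of `q ^ (1/M)`. -/
theorem hasDerivAt_qm_zpow (M : ℕ) (k : ℤ) (z : ℂ) :
    HasDerivAt (fun w : ℂ => Complex.exp (2 * Real.pi * Complex.I * w / M) ^ k)
      (2 * Real.pi * Complex.I * k / M * Complex.exp (2 * Real.pi * Complex.I * z / M) ^ k) z := by
  have e : ∀ w : ℂ, Complex.exp (2 * Real.pi * Complex.I * w / M) ^ k =
      Complex.exp (2 * Real.pi * Complex.I * k / M * w) := fun w => by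
    rw [← Complex.exp_int_mul]; congr 1; ring
  simp only [e]
  have h := ((hasDerivAt_id z).const_mul (2 * Real.pi * Complex.I * k / M)).cexp
  simpa [mul_comm] using h

/-- The derivative of a power of `q ^ (1/M)` times a function. -/
theorem deriv_qm_zpow_mul {M : ℕ} (k : ℤ) {g : ℍ → ℂ} (hg : MDiff g) (τ : ℍ) :
    Dq (fun σ => qm M σ ^ k * g σ) τ = qm M τ ^ k * ((k : ℂ) / M * g τ + Dq g τ) := by
  have hπ : (2 : ℂ) * Real.pi * Complex.I ≠ 0 :=
    mul_ne_zero (mul_ne_zero two_ne_zero (by exact_mod_cast Real.pi_ne_zero)) Complex.I_ne_zero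
  have hd := (UpperHalfPlane.mdifferentiableAt_iff.mp (hg τ)).hasDerivAt
  have h := (hasDerivAt_qm_zpow M k (τ : ℂ)).mul hd
  have hev : ((fun σ => qm M σ ^ k * g σ) ∘ ofComplex) =ᶠ[𝓝 (τ : ℂ)]
      ((fun w : ℂ => Complex.exp (2 * Real.pi * Complex.I * w / M) ^ k) * (g ∘ ofComplex)) := by
    filter_upwards [isOpen_upperHalfPlaneSet.mem_nhds τ.im_pos] with w hw
    simp [ofComplex_apply_of_im_pos hw, qm_eq]
  rw [Derivative.normalizedDerivOfComplex, hev.deriv_eq, h.deriv]
  simp only [Derivative.normalizedDerivOfComplex, Function.comp_apply, ofComplex_apply, qm_eq]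
  field_simp

/-- A difference of weight two is a power of `q ^ (1/M)` times a function with nonzero limit. -/
theorem exists_dif_unit {M : ℕ} [NeZero M] {v w : Fin 2 → ZMod M} (h : Adm M v w) :
    ∃ u : ℍ → ℂ, MDiff u ∧ (∃ a : ℂ, a ≠ 0 ∧ Tendsto u atImInfty (𝓝 a)) ∧
      ∀ τ, dif M v w τ = qm M τ ^ pairIdx v w * u τ := by
  obtain ⟨-, hz, hu⟩ := difSeries_lead (zetaC_goodRoot_top (M := M)) h.left h.right h.ne h.ne_neg
  obtain ⟨d, hd⟩ := PowerSeries.X_pow_dvd_iff.mpr hz
  have hexp := (hasExp_dif M h.left h.right).div_qm hd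
  refine ⟨_, hexp.mdifferentiable, ⟨PowerSeries.constantCoeff d, ?_, hexp.tendsto_atImInfty⟩,
    fun τ => ?_⟩
  · intro h0
    have h1 := hu.1
    rw [hd, PowerSeries.coeff_X_pow_mul', if_pos le_rfl, Nat.sub_self,
      PowerSeries.coeff_zero_eq_constantCoeff_apply, h0] at h1
    exact h1 rfl
  · rw [pairIdx, zpow_natCast, mul_div_cancel₀ _ (pow_ne_zero _ (qm_ne_zero M τ))]

variable {M m : ℕ} [NeZero M]

/-- The weight-two product `d(a,b) d(c,e) / d(f,g)`. -/
def wProd (x : Fin 6 → Fin 2 → ZMod M) : ℍ → ℂ :=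
  fun τ => dif M (x 0) (x 1) τ * dif M (x 2) (x 3) τ / dif M (x 4) (x 5) τ

/-- Its order at infinity. -/
def wIdx (x : Fin 6 → Fin 2 → ZMod M) : ℤ :=
  pairIdx (x 0) (x 1) + pairIdx (x 2) (x 3) - pairIdx (x 4) (x 5)

theorem isBounded_deriv_ratio_div {x : Fin 6 → Fin 2 → ZMod M} (hx1 : Adm M (x 0) (x 1))
    (hx2 : Adm M (x 2) (x 3)) (hx3 : Adm M (x 4) (x 5)) {v w v' w' : Fin 2 → ZMod M}
    (h : Adm M v w) (h' : Adm M v' w') (hidx : pairIdx v w - pairIdx v' w' = wIdx x) :
    IsBoundedAtImInfty (fun τ => Dq (ratio M v w v' w') τ / wProd x τ) := by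
  obtain ⟨u, hu, ⟨a, -, hua⟩, hdu⟩ := exists_dif_unit h
  obtain ⟨u', hu', ⟨a', ha', hua'⟩, hdu'⟩ := exists_dif_unit h'
  obtain ⟨u1, hu1, ⟨a1, ha1, hua1⟩, hd1⟩ := exists_dif_unit hx1
  obtain ⟨u2, hu2, ⟨a2, ha2, hua2⟩, hd2⟩ := exists_dif_unit hx2
  obtain ⟨u3, hu3, ⟨a3, ha3, hua3⟩, hd3⟩ := exists_dif_unit hx3
  have hne' : ∀ τ, u' τ ≠ 0 := fun τ h0 => h'.dif_ne_zero τ (by rw [hdu', h0, mul_zero])
  set k := wIdx x with hk
  set g : ℍ → ℂ := fun τ => u τ / u' τ with hg
  have hgd : MDiff g := by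
    rw [UpperHalfPlane.mdifferentiable_iff] at hu hu' ⊢
    exact (hu.div hu' fun z _ => hne' _).congr fun z _ => rfl
  have hR : ratio M v w v' w' = fun τ => qm M τ ^ k * g τ := by
    funext τ
    rw [ratio, hdu, hdu', ← hidx, zpow_sub₀ (qm_ne_zero M τ), hg]
    field_simp
  have hW : ∀ τ, wProd x τ = qm M τ ^ k * (u1 τ * u2 τ / u3 τ) := fun τ => by
    rw [wProd, hd1, hd2, hd3, hk, wIdx, zpow_sub₀ (qm_ne_zero M τ), zpow_add₀ (qm_ne_zero M τ)]
    field_simp
  have e : (fun τ => Dq (ratio M v w v' w') τ / wProd x τ) =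
      (fun τ => ((k : ℂ) / M * g τ + Dq g τ) * (u3 τ / (u1 τ * u2 τ))) := by
    funext τ
    rw [hR, deriv_qm_zpow_mul k hgd, hW,
      mul_div_mul_left _ _ (zpow_ne_zero _ (qm_ne_zero M τ))]
    rw [div_div_eq_mul_div, mul_div_assoc]
  rw [e]
  have hgb : IsBoundedAtImInfty g := (hua.div hua' ha').isBigO_one ℝ
  have hwb : IsBoundedAtImInfty (fun τ => u3 τ / (u1 τ * u2 τ)) :=
    (hua3.div (hua1.mul hua2) (mul_ne_zero ha1 ha2)).isBigO_one ℝ
  exact (BoundedAtFilter.add ((const_boundedAtFilter _ ((k : ℂ) / M)).mul hgb)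
    (isBounded_deriv hgd hgb)).mul hwb

/-- The vectors of the weight-two product for level `m`. -/
def wIndex (m : ℕ) : Fin 6 → ℕ :=
  if m = 3 then ![1, 3, 1, 2, 2, 3] else ![1, 2, 0, 1, 0, 2]

/-- The same as vectors at level `M`. -/
def wVec (h : m ∣ M) : Fin 6 → Fin 2 → ZMod M := fun i => embVec h (baseVec m (wIndex m i))

variable (haux : AuxLevel M m)
include haux

theorem adm_wVec : Adm M (wVec haux.dvd 0) (wVec haux.dvd 1) ∧
    Adm M (wVec haux.dvd 2) (wVec haux.dvd 3) ∧ Adm M (wVec haux.dvd 4) (wVec haux.dvd 5) := by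
  rcases haux.small with rfl | rfl <;>
    exact ⟨adm_embVec haux.dvd ⟨by decide, by decide, by decide, by decide⟩,
      adm_embVec haux.dvd ⟨by decide, by decide, by decide, by decide⟩,
      adm_embVec haux.dvd ⟨by decide, by decide, by decide, by decide⟩⟩

theorem wProd_smul (γ : SL(2, ℤ)) (τ : ℍ) : wProd (wVec haux.dvd) (γ • τ) =
    UpperHalfPlane.denom γ τ ^ 2 * wProd (fun i => vmul M (wVec haux.dvd i) γ) τ := by
  have := UpperHalfPlane.denom_ne_zero (γ : GL (Fin 2) ℝ) τ
  simp only [wProd, dif_smul]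
  field_simp

theorem wProd_ne_zero (τ : ℍ) : wProd (wVec haux.dvd) τ ≠ 0 :=
  div_ne_zero (mul_ne_zero ((adm_wVec haux).1.dif_ne_zero τ) ((adm_wVec haux).2.1.dif_ne_zero τ))
    ((adm_wVec haux).2.2.dif_ne_zero τ)

/-- `D t / W`. -/
def derivQuot : ℍ → ℂ := fun τ => Dq (haupt haux.dvd) τ / wProd (wVec haux.dvd) τ

theorem act_derivQuot (γ : SL(2, ℤ)) : act γ (derivQuot haux) =
    fun τ => Dq (act γ (haupt haux.dvd)) τ / wProd (fun i => vmul M (wVec haux.dvd i) γ) τ := by
  funext τ
  have hmd : MDiff (haupt haux.dvd) :=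
    mdifferentiable_of_mem (polFun_mem_BSub haux 1 (one_le haux))
  have h := congrFun (Derivative.normalizedDerivOfComplex_SL_slash (k := 0) hmd (γ := γ)) τ
  rw [slash_zero_eq_act] at h
  simp only [Pi.sub_apply, ModularForm.SL_slash_apply] at h
  simp only [act_apply, derivQuot, wProd_smul haux]
  rw [h]
  have := UpperHalfPlane.denom_ne_zero (γ : GL (Fin 2) ℝ) τ
  simp only [Int.cast_zero, zero_mul, sub_zero, zero_add, zpow_neg, zpow_ofNat]
  field_simp

/-- `D t / W` is invariant under the level `m` subgroup. -/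
private theorem act_derivQuot_of_mem {δ : SL(2, ℤ)} (hδ : δ ∈ Gamma m) :
    act δ (derivQuot haux) = derivQuot haux := by
  have := haux.neZero
  rw [act_derivQuot haux, haupt, act_polFun haux hδ]
  funext σ
  simp only [derivQuot, haupt, wVec, ← embVec_vmul, vmul_of_mem hδ]
  rfl

/-- `D t / W` is holomorphic. -/
private theorem mdifferentiable_derivQuot : MDiff (derivQuot haux) := by
  have := haux.neZero
  have hmd : MDiff (haupt haux.dvd) :=
    mdifferentiable_of_mem (polFun_mem_BSub haux 1 (one_le haux))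
  have h1 := Derivative.normalizedDerivOfComplex_mdifferentiable hmd
  have hdif : ∀ {v w : Fin 2 → ZMod M}, Adm M v w → MDiff (dif M v w) := fun h =>
    (hasExp_dif M h.left h.right).mdifferentiable
  rw [UpperHalfPlane.mdifferentiable_iff] at h1 ⊢
  have d1 := UpperHalfPlane.mdifferentiable_iff.mp (hdif (adm_wVec haux).1)
  have d2 := UpperHalfPlane.mdifferentiable_iff.mp (hdif (adm_wVec haux).2.1)
  have d3 := UpperHalfPlane.mdifferentiable_iff.mp (hdif (adm_wVec haux).2.2)
  exact (h1.div ((d1.mul d2).div d3 fun z _ => (adm_wVec haux).2.2.dif_ne_zero _)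
    fun z _ => wProd_ne_zero haux _).congr fun z _ => rfl

/-- `D t / W` is bounded at cusps where `t` is affine in a ratio of the same order as `W`. -/
private theorem isBounded_act_derivQuot_of_ratio (γ : SL(2, ℤ)) (p q : ℕ × ℕ) (α r : ℂ)
    (hp : Adm m (baseVec m p.1) (baseVec m p.2)) (hq : Adm m (baseVec m q.1) (baseVec m q.2))
    (heq : haupt haux.dvd = fun σ => α * ratio M (embVec haux.dvd (baseVec m p.1))
      (embVec haux.dvd (baseVec m p.2)) (embVec haux.dvd (baseVec m q.1))
      (embVec haux.dvd (baseVec m q.2)) σ + r)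
    (hidx : pairIdx (vmul m (baseVec m p.1) γ) (vmul m (baseVec m p.2) γ) -
      pairIdx (vmul m (baseVec m q.1) γ) (vmul m (baseVec m q.2) γ) =
        wIdx (fun i => vmul m (baseVec m (wIndex m i)) γ)) :
    IsBoundedAtImInfty (act γ (derivQuot haux)) := by
  have := haux.neZero
  obtain ⟨a1, a2, a3⟩ := adm_wVec haux
  rw [act_derivQuot haux]
  have hp' := (adm_embVec haux.dvd hp).mul γ
  have hq' := (adm_embVec haux.dvd hq).mul γ
  have hidx' : pairIdx (vmul M (embVec haux.dvd (baseVec m p.1)) γ)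
      (vmul M (embVec haux.dvd (baseVec m p.2)) γ) -
      pairIdx (vmul M (embVec haux.dvd (baseVec m q.1)) γ)
      (vmul M (embVec haux.dvd (baseVec m q.2)) γ) =
        wIdx (fun i => vmul M (wVec haux.dvd i) γ) := by
    simp only [wIdx, wVec, ← embVec_vmul, pairIdx, leadIdx_embVec, Nat.mul_min_mul_left,
      Nat.cast_mul]
    simp only [wIdx, pairIdx] at hidx
    linear_combination ((M / m : ℕ) : ℤ) * hidx
  have hb := isBounded_deriv_ratio_div (x := fun i => vmul M (wVec haux.dvd i) γ)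
    (a1.mul γ) (a2.mul γ) (a3.mul γ) hp' hq' hidx'
  set R := ratio M (vmul M (embVec haux.dvd (baseVec m p.1)) γ)
    (vmul M (embVec haux.dvd (baseVec m p.2)) γ) (vmul M (embVec haux.dvd (baseVec m q.1)) γ)
    (vmul M (embVec haux.dvd (baseVec m q.2)) γ) with hR
  have hRd : MDiff R := (hasLExp_ratio hp'.left hp'.right hq').mdifferentiable
  have he : act γ (haupt haux.dvd) = α • R + fun _ => r := by
    rw [heq, hR, ← act_ratio]
    funext σ
    simp [act]
  rw [he, Derivative.normalizedDerivOfComplex_add _ _ (hRd.const_smul α) mdifferentiable_const,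
    Derivative.normalizedDerivOfComplex_smul α R hRd,
    Derivative.normalizedDerivOfComplex_const r, add_zero]
  refine (((const_boundedAtFilter _ α).mul hb)).congr_left fun σ => ?_
  simp [mul_div_assoc]

/-- `D t / W` is bounded at the standard cusps. -/
private theorem isBounded_act_cuspRep {l : ℕ} (hl : l ≤ m) :
    IsBoundedAtImInfty (act (cuspRep l) (derivQuot haux)) := by
  have := haux.neZero
  have hm0 : ∀ σ, haupt haux.dvd σ = 1 * ratio M (embVec haux.dvd (baseVec m 2))
      (embVec haux.dvd (baseVec m 1)) (embVec haux.dvd (baseVec m 0))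
      (embVec haux.dvd (baseVec m 2)) σ + 1 := fun σ => by
    rw [one_mul, ← haupt_sub_one haux]; simp
  have hm2 : ∀ σ, haupt haux.dvd σ = 1 * ratio M (embVec haux.dvd (baseVec m 0))
      (embVec haux.dvd (baseVec m 1)) (embVec haux.dvd (baseVec m 0))
      (embVec haux.dvd (baseVec m 2)) σ + 0 := fun σ => by
    rw [one_mul, add_zero]; rfl
  have hadm : ∀ p ∈ [(0, 1), (0, 2), (2, 1)],
      Adm m (baseVec m (p : ℕ × ℕ).1) (baseVec m p.2) := by
    intro p hp
    simp only [List.mem_cons, List.not_mem_nil, or_false] at hp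
    rcases haux.small with rfl | rfl <;> rcases hp with rfl | rfl | rfl <;>
      exact ⟨by decide, by decide, by decide, by decide⟩
  have hl3 : l ≤ 3 := by rcases haux.small with rfl | rfl <;> omega
  match l, hl, hl3 with
  | 0, _, _ =>
    refine isBounded_act_derivQuot_of_ratio haux _ (2, 1) (0, 2) 1 1 (hadm _ (by simp))
      (hadm _ (by simp)) (funext hm0) ?_
    rcases haux.small with rfl | rfl <;> decide
  | 1, _, _ =>
    refine isBounded_act_derivQuot_of_ratio haux _ (0, 1) (0, 2) 1 0 (hadm _ (by simp))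
      (hadm _ (by simp)) (funext hm2) ?_
    rcases haux.small with rfl | rfl <;> decide
  | 2, _, _ =>
    refine isBounded_act_derivQuot_of_ratio haux _ (0, 1) (0, 2) 1 0 (hadm _ (by simp))
      (hadm _ (by simp)) (funext hm2) ?_
    rcases haux.small with rfl | rfl <;> decide
  | 3, h3, _ =>
    obtain rfl : m = 3 := by rcases haux.small with rfl | rfl <;> omega
    obtain ⟨-, -, -, α, hα, hpol⟩ := polFun_three haux rfl (zetaC_goodRoot_top (M := M))
    obtain ⟨hnum, hden⟩ := adm_polNum haux.small 3 le_rfl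
    refine isBounded_act_derivQuot_of_ratio haux _ (polDen 3) (polNum 3) α (hauptRoot haux) hden
      hnum (funext fun σ => ?_) (by decide)
    have hne : polFun haux.dvd 3 σ ≠ 0 :=
      ratio_ne_zero (adm_num haux le_rfl) (adm_den haux le_rfl) σ
    rw [← hpol σ]
    show haupt haux.dvd σ = polFun haux.dvd 3 σ * (haupt haux.dvd σ - hauptRoot haux) *
      ratio M _ _ _ _ σ + hauptRoot haux
    rw [← inv_ratio]
    show _ = polFun haux.dvd 3 σ * (haupt haux.dvd σ - hauptRoot haux) *
      (polFun haux.dvd 3 σ)⁻¹ + hauptRoot haux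
    field_simp
    ring

/-- `D t / W` is bounded at every cusp. -/
private theorem isBounded_act_derivQuot (γ : SL(2, ℤ)) :
    IsBoundedAtImInfty (act γ (derivQuot haux)) := by
  have := haux.neZero
  obtain ⟨δ, hδ, j, hj, k, hγ⟩ := exists_cusp_decomp haux.small γ
  have e : act γ (derivQuot haux) =
      act (δ * (cuspRep j * ModularGroup.T ^ k)) (derivQuot haux) := by
    rcases hγ with h | h
    · rw [← h]
    · rw [← h, show (-γ : SL(2, ℤ)) = -1 * γ by simp, act_mul, act_neg_one]
  rw [e, act_mul, act_derivQuot_of_mem haux hδ, act_mul, act_T_pow]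
  refine (isBounded_act_cuspRep haux hj).comp_tendsto ?_
  simp only [atImInfty, tendsto_comap_iff, Function.comp_def, UpperHalfPlane.vadd_im]
  exact tendsto_comap

/-- `D t / W` is a bounded modular function of level `M`. -/
private theorem derivQuot_mem_BSub : derivQuot haux ∈ BSub M := by
  have := haux.neZero
  have hGm : Gamma M ≤ Gamma m := gamma_le_of_dvd haux.dvd
  refine ⟨fun γ hγ => act_derivQuot_of_mem haux (hGm hγ), fun γ => ?_⟩
  refine ⟨_, HasLExp.of_exp (HasExp.exists_of_bounded (M := M) (f := act γ (derivQuot haux)) ?_ ?_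
    (isBounded_act_derivQuot haux γ))⟩
  · refine Curve.periodic_comp_ofComplex_of_vadd fun τ => ?_
    have hmem : γ * ModularGroup.T ^ M * γ⁻¹ ∈ Gamma m := by
      refine (Gamma_normal m).conj_mem _ (hGm ?_) γ
      rw [Gamma_mem, T_pow_coe]; simp
    have := congrArg (fun f => act γ f) (act_derivQuot_of_mem haux hmem)
    simp only [← act_mul, inv_mul_cancel_right] at this
    rw [act_mul, act_T_pow] at this
    exact congrFun this τ
  · have := mdifferentiable_derivQuot haux
    rw [← slash_zero_eq_act]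
    exact this.slash _ _

/-- The derivative of the Hauptmodul vanishes nowhere. -/
theorem deriv_haupt_ne_zero (τ : ℍ) : deriv (haupt haux.dvd ∘ ofComplex) (τ : ℂ) ≠ 0 := by
  have := haux.neZero
  have hmd : MDiff (haupt haux.dvd) :=
    mdifferentiable_of_mem (polFun_mem_BSub haux 1 (one_le haux))
  obtain ⟨c, hc⟩ := eq_const_of_bounded (derivQuot_mem_BSub haux) (isBounded_act_derivQuot haux)
  have hc0 : c ≠ 0 := by
    rintro rfl
    refine haupt_not_const haux ⟨haupt haux.dvd τ, funext fun σ => ?_⟩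
    have hz : ∀ z : ℂ, 0 < z.im → deriv (haupt haux.dvd ∘ ofComplex) z = 0 := fun z hz => by
      have := congrFun hc ⟨z, hz⟩
      simp only [derivQuot, div_eq_zero_iff, wProd_ne_zero haux, or_false,
        Derivative.normalizedDerivOfComplex, mul_eq_zero] at this
      rcases this with h | h
      · simp [Real.pi_ne_zero, Complex.I_ne_zero] at h
      · exact h
    have hd := UpperHalfPlane.mdifferentiable_iff.mp hmd
    have := IsOpen.is_const_of_deriv_eq_zero isOpen_upperHalfPlaneSet
      (convex_halfSpace_im_gt 0).isPreconnected hd (fun z hz' => hz z hz') σ.im_pos τ.im_pos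
    simpa [ofComplex_apply] using this
  intro h0
  have := congrFun hc τ
  simp [derivQuot, Derivative.normalizedDerivOfComplex, h0] at this
  exact hc0 this.symm

end FermatAgent.ES
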