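import Fermat.Agent.ES.Ring.Expansion
import Mathlib.NumberTheory.ModularForms.CongruenceSubgroups
import Mathlib.NumberTheory.ModularForms.NormTrace
import Mathlib.Algebra.Algebra.Subalgebra.Basic

/-!
# The ring of modular functions of level `M`, holomorphic on `ℍ`

`BSub M` consists of the `Γ(M)`-invariant functions all of whose translates have Laurent
expansions in `qm M`.
-/

set_option autoImplicit false

open Filter Topology UpperHalfPlane CongruenceSubgroup
open scoped MatrixGroups ModularForm Manifold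

noncomputable section

namespace FermatAgent.ES

/-- `Γ(M) ≤ Γ(N)` for `N ∣ M`. -/
theorem gamma_le_of_dvd {N M : ℕ} (h : N ∣ M) : Gamma M ≤ Gamma N := fun γ hγ => by
  rw [Gamma_mem] at hγ ⊢
  have hc : ∀ a b : ℤ, (a : ZMod M) = (b : ZMod M) → (a : ZMod N) = (b : ZMod N) := by
    intro a b hab
    rw [ZMod.intCast_eq_intCast_iff_dvd_sub] at hab ⊢
    exact (Int.natCast_dvd_natCast.mpr h).trans hab
  exact ⟨by simpa using hc _ 1 (by simpa using hγ.1), by simpa using hc _ 0 (by simpa using hγ.2.1),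
    by simpa using hc _ 0 (by simpa using hγ.2.2.1),
    by simpa using hc _ 1 (by simpa using hγ.2.2.2)⟩

/-- Composition with the action of `γ`. -/
def act (γ : SL(2, ℤ)) (f : ℍ → ℂ) : ℍ → ℂ := fun τ => f (γ • τ)

/-- The translate is composition with the action. -/
@[simp] theorem act_apply (γ : SL(2, ℤ)) (f : ℍ → ℂ) (τ : ℍ) : act γ f τ = f (γ • τ) := rfl

/-- The identity translates trivially. -/
theorem act_one (f : ℍ → ℂ) : act 1 f = f := by funext τ; simp

/-- Translation is a right action. -/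
theorem act_mul (γ δ : SL(2, ℤ)) (f : ℍ → ℂ) : act (γ * δ) f = act δ (act γ f) := by
  funext τ; simp [mul_smul]

/-- Translation is additive. -/
theorem act_add (γ : SL(2, ℤ)) (f g : ℍ → ℂ) : act γ (f + g) = act γ f + act γ g := rfl
/-- Translation commutes with differences. -/
theorem act_sub (γ : SL(2, ℤ)) (f g : ℍ → ℂ) : act γ (f - g) = act γ f - act γ g := rfl
/-- Translation commutes with negation. -/
theorem act_neg (γ : SL(2, ℤ)) (f : ℍ → ℂ) : act γ (-f) = -act γ f := rfl
/-- Translation is multiplicative. -/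
theorem act_mulFun (γ : SL(2, ℤ)) (f g : ℍ → ℂ) : act γ (f * g) = act γ f * act γ g := rfl
/-- Translation fixes constants. -/
theorem act_const (γ : SL(2, ℤ)) (a : ℂ) : act γ (fun _ => a) = fun _ => a := rfl
/-- Translation commutes with inverses. -/
theorem act_inv (γ : SL(2, ℤ)) (f : ℍ → ℂ) : act γ f⁻¹ = (act γ f)⁻¹ := rfl

/-- Translation commutes with scalars. -/
theorem act_smulFun (γ : SL(2, ℤ)) (a : ℂ) (f : ℍ → ℂ) : act γ (a • f) = a • act γ f := rfl

/-- Translation commutes with finite sums. -/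
theorem act_sum {ι : Type*} (γ : SL(2, ℤ)) (s : Finset ι) (f : ι → ℍ → ℂ) :
    act γ (∑ i ∈ s, f i) = ∑ i ∈ s, act γ (f i) := by
  funext τ; simp [Finset.sum_apply]

/-- Translation commutes with finite products. -/
theorem act_prod {ι : Type*} (γ : SL(2, ℤ)) (s : Finset ι) (f : ι → ℍ → ℂ) :
    act γ (∏ i ∈ s, f i) = ∏ i ∈ s, act γ (f i) := by
  funext τ; simp [Finset.prod_apply]

/-- The slash of weight zero is translation. -/
theorem slash_zero_eq_act (γ : SL(2, ℤ)) (f : ℍ → ℂ) : f ∣[(0 : ℤ)] γ = act γ f := by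
  funext τ; simp [ModularForm.SL_slash_apply]

/-- `-1` translates trivially. -/
theorem act_neg_one (f : ℍ → ℂ) : act (-1) f = f := by
  funext τ
  refine congrArg f (UpperHalfPlane.ext ?_)
  rw [UpperHalfPlane.coe_specialLinearGroup_apply]
  simp

variable (M : ℕ)

/-- Membership in the ring `BSub M`. -/
def IsMFun (f : ℍ → ℂ) : Prop :=
  (∀ γ ∈ Gamma M, act γ f = f) ∧ ∀ γ : SL(2, ℤ), ∃ s, HasLExp M (act γ f) s

/-- The ring of modular functions of level `M` holomorphic on `ℍ`. -/
def BSub : Subalgebra ℂ (ℍ → ℂ) where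
  carrier := {f | IsMFun M f}
  mul_mem' {f g} hf hg := ⟨fun γ hγ => by rw [act_mulFun, hf.1 γ hγ, hg.1 γ hγ], fun γ => by
    obtain ⟨s, hs⟩ := hf.2 γ
    obtain ⟨t, ht⟩ := hg.2 γ
    exact ⟨s * t, hs.mul ht⟩⟩
  add_mem' {f g} hf hg := ⟨fun γ hγ => by rw [act_add, hf.1 γ hγ, hg.1 γ hγ], fun γ => by
    obtain ⟨s, hs⟩ := hf.2 γ
    obtain ⟨t, ht⟩ := hg.2 γ
    exact ⟨s + t, hs.add ht⟩⟩
  algebraMap_mem' a := ⟨fun γ _ => rfl, fun γ => ⟨_, HasLExp.const a⟩⟩

variable {M}

/-- Membership in the ring of modular functions. -/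
theorem mem_BSub {f : ℍ → ℂ} : f ∈ BSub M ↔ IsMFun M f := Iff.rfl

/-- The ring is stable under translation. -/
theorem act_mem_BSub {f : ℍ → ℂ} (hf : f ∈ BSub M) (γ : SL(2, ℤ)) : act γ f ∈ BSub M := by
  refine ⟨fun δ hδ => ?_, fun δ => ?_⟩
  · rw [← act_mul, show γ * δ = (γ * δ * γ⁻¹) * γ by group, act_mul,
      hf.1 _ ((Gamma_normal M).conj_mem δ hδ γ)]
  · rw [← act_mul]; exact hf.2 _

variable (M) in
open Classical in
/-- The expansion of a function (zero if it has none). -/
noncomputable def lexp0 (g : ℍ → ℂ) : LaurentSeries ℂ :=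
  if h : ∃ s, HasLExp M g s then h.choose else 0

variable (M) in
/-- The expansion of `f ∘ γ` (zero if it has none). -/
noncomputable def lexp (γ : SL(2, ℤ)) (f : ℍ → ℂ) : LaurentSeries ℂ := lexp0 M (act γ f)

/-- The translates of a member have the expansions `lexp`. -/
theorem hasLExp_lexp {f : ℍ → ℂ} (hf : f ∈ BSub M) (γ : SL(2, ℤ)) :
    HasLExp M (act γ f) (lexp M γ f) := by
  rw [lexp, lexp0, dif_pos (hf.2 γ)]
  exact (hf.2 γ).choose_spec

/-- Members of the ring are holomorphic. -/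
theorem mdifferentiable_of_mem {f : ℍ → ℂ} [NeZero M] (hf : f ∈ BSub M) : MDiff f := by
  have := (hasLExp_lexp hf 1).mdifferentiable
  rwa [act_one] at this

/-- A member is determined by one expansion. -/
theorem lexp_injective {f g : ℍ → ℂ} (hf : f ∈ BSub M) (hg : g ∈ BSub M) {γ : SL(2, ℤ)}
    (h : lexp M γ f = lexp M γ g) : f = g := by
  have h1 := hasLExp_lexp hf γ
  rw [h] at h1
  have h2 := congrArg (act γ⁻¹) (h1.eq_of_series (hasLExp_lexp hg γ))
  simpa [← act_mul, act_one] using h2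

/-- The expansion of a translate is the expansion at the product. -/
theorem lexp_act {f : ℍ → ℂ} (γ δ : SL(2, ℤ)) : lexp M δ (act γ f) = lexp M (γ * δ) f := by
  rw [lexp, lexp, act_mul]

/-- Expansions at a cusp are unchanged by `Γ(M)` on the left. -/
theorem lexp_mul_of_mem {f : ℍ → ℂ} (hf : f ∈ BSub M) {δ : SL(2, ℤ)} (hδ : δ ∈ Gamma M)
    (γ : SL(2, ℤ)) : lexp M (δ * γ) f = lexp M γ f := by
  rw [← lexp_act, hf.1 δ hδ]

variable [NeZero M]

/-- The expansion is unique. -/
theorem lexp_eq {γ : SL(2, ℤ)} {f : ℍ → ℂ} {s : LaurentSeries ℂ} (h : HasLExp M (act γ f) s) :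
    lexp M γ f = s := by
  have hex : ∃ s, HasLExp M (act γ f) s := ⟨s, h⟩
  rw [lexp, lexp0, dif_pos hex]
  exact hex.choose_spec.series_unique h

/-- The expansion at `γ∞`, as a ring homomorphism. -/
noncomputable def expHom (γ : SL(2, ℤ)) : BSub M →+* LaurentSeries ℂ where
  toFun f := lexp M γ f.1
  map_one' := lexp_eq HasLExp.one
  map_mul' f g := lexp_eq ((hasLExp_lexp f.2 γ).mul (hasLExp_lexp g.2 γ))
  map_zero' := lexp_eq HasLExp.zero
  map_add' f g := lexp_eq ((hasLExp_lexp f.2 γ).add (hasLExp_lexp g.2 γ))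

/-- The expansion homomorphism is `lexp`. -/
@[simp] theorem expHom_apply (γ : SL(2, ℤ)) (f : BSub M) : expHom γ f = lexp M γ f.1 := rfl

/-- A function in `BSub M` bounded at every cusp is constant. -/
theorem eq_const_of_bounded {f : ℍ → ℂ} (hf : f ∈ BSub M)
    (hb : ∀ γ : SL(2, ℤ), IsBoundedAtImInfty (act γ f)) : ∃ c, f = fun _ => c := by
  let F : ModularForm (Gamma M : Subgroup (GL (Fin 2) ℝ)) 0 :=
    { toFun := f
      holo' := mdifferentiable_of_mem hf
      slash_action_eq' := by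
        rintro _ ⟨γ, hγ, rfl⟩
        show f ∣[(0 : ℤ)] γ = f
        rw [slash_zero_eq_act, hf.1 γ hγ]
      bdd_at_cusps' := fun {c} hc => by
        rw [OnePoint.isBoundedAt_iff_forall_SL2Z
          ((Subgroup.IsArithmetic.isCusp_iff_isCusp_SL2Z _).mp hc)]
        intro γ _
        rw [slash_zero_eq_act]
        exact hb γ }
  obtain ⟨c, hc⟩ := ModularForm.eq_const_of_weight_zero F
  exact ⟨c, hc⟩

end FermatAgent.ES
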