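import Fermat.Agent.ES.Ring.Order

/-!
# Homomorphisms to `ℂ` fixing the constants are points

A homomorphism `χ : BRing M O →+* ℂ` fixing the constants agrees on `polRing` with evaluation at a
point over the value of `t`; a generic combination singles out the point of that fibre.
-/

set_option autoImplicit false

open UpperHalfPlane CongruenceSubgroup Polynomial
open scoped MatrixGroups

noncomputable section

namespace FermatAgent.ES

variable {M m : ℕ} [NeZero M] (haux : AuxLevel M m)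

section Points

variable {O : Subring ℂ} (hA : GoodRoot M O (zetaC M)) (χ : BRing M O →+* ℂ)
  (hχ : ∀ a : O, χ ⟨_, const_mem_BRing a.2⟩ = a)

include haux hA hχ

/-- The value of `t` is not a root of the cusp polynomial. -/
theorem cuspPoly_apply_ne :
    cuspPoly haux (χ ⟨_, polRing_le_BRing haux hA (haupt_mem_polRing haux O)⟩) ≠ 0 := by
  set t : BRing M O := ⟨_, polRing_le_BRing haux hA (haupt_mem_polRing haux O)⟩
  have key : ∀ (w : ℍ → ℂ) (hw : w ∈ BRing M O) (r : ℂ) (hr : r ∈ O),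
      (∀ τ, (haupt haux.dvd τ - r) * w τ = 1) → χ t - r ≠ 0 := by
    intro w hw r hr hmul h0
    have h := congrArg χ (show (t - ⟨_, const_mem_BRing hr⟩) * ⟨w, hw⟩ = 1 from
      Subtype.ext (funext hmul))
    rw [map_mul, map_sub, hχ ⟨r, hr⟩, map_one] at h
    simp only [h0, zero_mul, zero_ne_one] at h
  obtain ⟨hr, -, -⟩ := hauptRoot_spec haux hA
  refine mul_ne_zero (mul_ne_zero ?_ ?_) ?_
  · simpa using key _ (polFun_mem_BRing haux hA (two_le haux)) 0 O.zero_mem fun τ => by
      have := congrFun (polFun_two_mul_haupt haux) τ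
      simp only [Pi.mul_apply, Pi.one_apply] at this
      rw [sub_zero, mul_comm]; exact this
  · exact key _ (polFun_mem_BRing haux hA (j := 0) (Nat.zero_le _)) 1 O.one_mem fun τ => by
      have := congrFun (polFun_zero_mul haux) τ
      simp only [Pi.mul_apply, Pi.one_apply, Pi.sub_apply] at this
      rw [mul_comm]; exact this
  · by_cases hm : m = 3
    · obtain ⟨-, -, -, α, hα, hαe⟩ := polFun_three haux hm hA
      exact key _ (mul_mem (const_mem_BRing hα.2.2)
        (polFun_mem_BRing haux hA (j := 3) (by omega))) _ hr fun τ => by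
          rw [Pi.mul_apply, mul_left_comm, mul_comm (_ - _), hαe τ, inv_mul_cancel₀ hα.1]
    · rw [hauptRoot, if_neg hm, sub_zero]
      simpa using key _ (polFun_mem_BRing haux hA (two_le haux)) 0 O.zero_mem fun τ => by
        have := congrFun (polFun_two_mul_haupt haux) τ
        simp only [Pi.mul_apply, Pi.one_apply] at this
        rw [sub_zero, mul_comm]; exact this

/-- On `polRing` the homomorphism is evaluation at a point over the value of `t`. -/
theorem apply_polRing {τ0 : ℍ}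
    (hτ0 : haupt haux.dvd τ0 = χ ⟨_, polRing_le_BRing haux hA (haupt_mem_polRing haux O)⟩)
    {f : ℍ → ℂ} (hf : f ∈ polRing haux O) :
    χ ⟨f, polRing_le_BRing haux hA hf⟩ = f τ0 := by
  let s : Set (ℍ → ℂ) := {f | ∃ h : f ∈ BRing M O, χ ⟨f, h⟩ = f τ0}
  suffices h : f ∈ s from h.choose_spec
  induction hf using Subring.closure_induction with
  | mem g hg =>
    rcases hg with ⟨a, ha, rfl⟩ | ⟨j, hj, rfl⟩
    · exact ⟨const_mem_BRing ha, hχ ⟨a, ha⟩⟩
    · refine ⟨polFun_mem_BRing haux hA hj, ?_⟩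
      rcases polFun_cases haux hA hj with h | ⟨α, r, hα, hr, h⟩
      · simp only [h]
        exact hτ0.symm
      · have hrO : r ∈ O := by
          rcases hr with rfl | rfl | rfl
          exacts [O.zero_mem, O.one_mem, (hauptRoot_spec haux hA).1]
        have h1 := congrArg χ (show (⟨_, polFun_mem_BRing haux hA hj⟩ : BRing M O) *
          (⟨_, polRing_le_BRing haux hA (haupt_mem_polRing haux O)⟩ - ⟨_, const_mem_BRing hrO⟩) =
            ⟨_, const_mem_BRing hα.2.1⟩ from Subtype.ext (funext h))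
        rw [map_mul, map_sub, hχ ⟨r, hrO⟩, hχ ⟨α, hα.2.1⟩, ← hτ0] at h1
        have h2 := h τ0
        refine mul_right_cancel₀ (b := haupt haux.dvd τ0 - r) (fun h0 => ?_) (h1.trans h2.symm)
        rw [h0, mul_zero] at h2
        exact hα.1 h2.symm
  | zero => exact ⟨zero_mem _, by rw [show (⟨0, _⟩ : BRing M O) = 0 from rfl, map_zero]; rfl⟩
  | one => exact ⟨one_mem _, by rw [show (⟨1, _⟩ : BRing M O) = 1 from rfl, map_one]; rfl⟩
  | add f g _ _ hf hg =>
    obtain ⟨hf, ef⟩ := hf
    obtain ⟨hg, eg⟩ := hg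
    exact ⟨add_mem hf hg, by
      rw [show (⟨f + g, _⟩ : BRing M O) = ⟨f, hf⟩ + ⟨g, hg⟩ from rfl, map_add, ef, eg]; rfl⟩
  | neg f _ hf =>
    obtain ⟨hf, ef⟩ := hf
    exact ⟨neg_mem hf, by rw [show (⟨-f, _⟩ : BRing M O) = -⟨f, hf⟩ from rfl, map_neg, ef]; rfl⟩
  | mul f g _ _ hf hg =>
    obtain ⟨hf, ef⟩ := hf
    obtain ⟨hg, eg⟩ := hg
    exact ⟨mul_mem hf hg, by
      rw [show (⟨f * g, _⟩ : BRing M O) = ⟨f, hf⟩ * ⟨g, hg⟩ from rfl, map_mul, ef, eg]; rfl⟩

omit χ hχ in
/-- **Points.** A homomorphism fixing the constants is evaluation at a point.  The functions may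
have a higher level `N`, if the coefficients of their characteristic polynomials lie in
`polRing`. -/
theorem exists_point_of_charFun {N : ℕ} [NeZero N] {R : Subring (ℍ → ℂ)} (ι : BRing M O →+* R)
    (hι : ∀ x, (ι x : ℍ → ℂ) = x) (hR : ∀ x ∈ R, x ∈ BSub N)
    (hcoef : ∀ x ∈ R, ∀ i, (charFun N m x).coeff i ∈ polRing haux O) (χ : R →+* ℂ)
    (hχ : ∀ a : O, χ (ι ⟨_, const_mem_BRing a.2⟩) = a) :
    ∃ τ, ∀ x : R, χ x = (x : ℍ → ℂ) τ := by
  classical
  obtain ⟨τ0, hτ0⟩ := exists_haupt_eq haux (cuspPoly_apply_ne haux hA (χ.comp ι) hχ)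
  by_contra hno
  push Not at hno
  choose w hw using fun g : GalGrp N m => hno (orbPt N m τ0 g)
  set e := Fintype.equivFin (GalGrp N m)
  set Φ : GalGrp N m → ℂ[X] := fun g => ∑ k : GalGrp N m,
    C (χ (w k) - (w k : ℍ → ℂ) (orbPt N m τ0 g)) * X ^ (e k : ℕ)
  have hΦ : ∀ g, Φ g ≠ 0 := fun g h0 => hw g (by
    have h1 := congrArg (fun P : ℂ[X] => P.coeff (e g : ℕ)) h0
    simp only [Φ, finsetSum_coeff, coeff_C_mul, coeff_X_pow, mul_ite, mul_one, mul_zero,
      coeff_zero] at h1
    rw [Finset.sum_eq_single g (fun k _ hk => if_neg fun h => hk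
      (e.injective (Fin.ext h.symm))) (by simp), if_pos rfl, sub_eq_zero] at h1
    exact h1)
  obtain ⟨c, hc⟩ := Set.Infinite.exists_notMem_finset
    (Set.infinite_range_of_injective (Nat.cast_injective (R := ℂ)))
    (Finset.univ.biUnion fun g => (Φ g).roots.toFinset)
  obtain ⟨⟨i, rfl⟩, hc⟩ := hc
  set z : R := ∑ k : GalGrp N m,
    ι ⟨_, const_mem_BRing (M := M) (O.pow_mem (natCast_mem O i) (e k : ℕ))⟩ * w k
  -- a root of the characteristic polynomial
  obtain ⟨F, hF⟩ := (lifts_iff_coeff_lifts (f := R.subtype.comp ι)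
    (charFun N m (z : ℍ → ℂ))).mpr fun j =>
      ⟨⟨_, polRing_le_BRing haux hA (hcoef _ z.2 j)⟩, hι _⟩
  rw [coe_mapRingHom] at hF
  have hzero : (F.map ι).eval z = 0 := by
    refine Subtype.ext ?_
    rw [← Subring.coe_subtype, ← eval_map_apply, Polynomial.map_map, hF, charFun, eval_prod,
      map_zero]
    refine Finset.prod_eq_zero (Finset.mem_univ (1 : GalGrp N m)) (funext fun τ => ?_)
    rw [eval_sub, eval_X, eval_C]
    exact sub_eq_zero.mpr (apply_orbPt_one (hR _ z.2) τ).symm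
  have hmap : (F.map ι).map χ =
      (charFun N m (z : ℍ → ℂ)).map (Pi.evalRingHom (fun _ : ℍ => ℂ) τ0) := by
    ext j
    rw [coeff_map, coeff_map, coeff_map, ← hF, coeff_map, RingHom.comp_apply, Subring.coe_subtype,
      hι]
    have h := hcoef _ z.2 j
    rw [← hF, coeff_map, RingHom.comp_apply, Subring.coe_subtype, hι] at h
    exact apply_polRing haux hA (χ.comp ι) hχ hτ0 h
  have h := congrArg χ hzero
  rw [← eval_map_apply, map_zero, hmap, charFun, Polynomial.map_prod, eval_prod,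
    Finset.prod_eq_zero_iff] at h
  obtain ⟨g, -, hg⟩ := h
  rw [Polynomial.map_sub, Polynomial.map_X, Polynomial.map_C, eval_sub, eval_X, eval_C,
    sub_eq_zero] at hg
  refine hc (Finset.mem_biUnion.mpr ⟨g, Finset.mem_univ g, ?_⟩)
  rw [Multiset.mem_toFinset, mem_roots (hΦ g), IsRoot.def]
  simp only [Φ, eval_finsetSum, eval_mul, eval_C, eval_pow, eval_X, sub_mul,
    Finset.sum_sub_distrib, sub_eq_zero]
  refine Eq.trans ?_ (hg.trans ?_)
  · simp only [z, map_sum, map_mul]
    exact Finset.sum_congr rfl fun k _ => by rw [hχ ⟨_, O.pow_mem (natCast_mem O i) _⟩, mul_comm]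
  · simp only [z, Pi.evalRingHom_apply, act, orbPt, AddSubmonoidClass.coe_finsetSum,
      Subring.coe_mul, hι, Finset.sum_apply, Pi.mul_apply]
    exact Finset.sum_congr rfl fun k _ => mul_comm _ _

end Points

include haux in
/-- Points at level `M`. -/
theorem exists_point_of_const {O : Subring ℂ} (hA : GoodRoot M O (zetaC M))
    (χ : BRing M O →+* ℂ) (hχ : ∀ a : O, χ ⟨_, const_mem_BRing a.2⟩ = a) :
    ∃ τ, ∀ x : BRing M O, χ x = (x : ℍ → ℂ) τ :=
  exists_point_of_charFun haux hA (RingHom.id _) (fun _ => rfl) (fun _ hx => hx.1)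
    (fun _ hx i => charFun_coeff_mem_polRing haux hA hx i) χ hχ

include haux in
/-- The Hauptmodul takes finitely many values at the zeros of a nonzero function. -/
theorem exists_zero_values {y : ℍ → ℂ} (hy : y ∈ BSub M) (hy0 : y ≠ 0) :
    ∃ V : Finset ℂ, ∀ τ, y τ = 0 → haupt haux.dvd τ ∈ V := by
  classical
  set N := ∏ g : GalGrp M m, act (repG M m g) y
  have hNmem : N ∈ BSub M := prod_mem fun g _ => act_mem_BSub hy _
  have hinv : ∀ δ ∈ Gamma m, act δ N = N := by
    intro δ hδ
    rw [act_prod]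
    refine Fintype.prod_equiv (Equiv.mulRight ((⟨δ, hδ⟩ : Gamma m) : GalGrp M m)) _ _ fun g => ?_
    simp only [Equiv.coe_mulRight]
    obtain ⟨x, rfl⟩ := QuotientGroup.mk_surjective g
    rw [← QuotientGroup.mk_mul, ← act_eq_act_repG hy, ← act_eq_act_repG hy, ← act_mul]
    rfl
  obtain ⟨e, F, hF⟩ := exists_poly_of_mem haux zetaC_goodRoot_top
    (invariant_mem_polRing haux zetaC_goodRoot_top (mem_BRing_top.mpr hNmem) hinv)
  have hne : ∀ g : GalGrp M m, act (repG M m g) y ≠ 0 := fun g h => hy0 (funext fun τ => by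
    simpa [act] using congrFun h ((repG M m g)⁻¹ • τ))
  have hF0 : F.map (⊤ : Subring ℂ).subtype ≠ 0 := fun h => by
    have hN0 : N = 0 := funext fun τ => by
      have h1 := hF τ
      rw [h, Polynomial.eval_zero, mul_eq_zero] at h1
      exact h1.resolve_right (pow_ne_zero _ (cuspPoly_haupt_ne_zero haux τ))
    refine Finset.prod_ne_zero_iff.mpr (fun g _ h => hne g ?_)
      ((lexp_eq (f := N) (γ := 1) (by
        rw [act_one]; exact HasLExp.prod _ fun g _ => hasLExp_lexp hy _)).symm.trans (by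
        rw [hN0]; exact lexp_eq (γ := 1) HasLExp.zero))
    refine lexp_injective (act_mem_BSub hy _) (zero_mem _) (γ := 1) ?_
    rw [lexp_act, mul_one, h, lexp_eq (γ := 1) (f := (0 : ℍ → ℂ)) HasLExp.zero]
  refine ⟨(F.map (⊤ : Subring ℂ).subtype).roots.toFinset, fun τ hτ => ?_⟩
  rw [Multiset.mem_toFinset, Polynomial.mem_roots hF0, Polynomial.IsRoot.def, ← hF τ]
  refine mul_eq_zero_of_left ?_ _
  show (∏ g : GalGrp M m, act (repG M m g) y) τ = 0
  rw [Finset.prod_apply]
  exact Finset.prod_eq_zero (Finset.mem_univ (1 : GalGrp M m))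
    ((apply_orbPt_one hy τ).trans hτ)

end FermatAgent.ES
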