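import Fermat.Agent.ES.Ring.CuspData

/-!
# The invariant ring of level `m` inside `BSub M`

A `Γ(m)`-invariant element of `BSub M` with expansions over `A` is a polynomial over `A` in the
polar functions `polFun`, with control of the coefficients by the principal parts.
-/

set_option autoImplicit false

open Filter Topology UpperHalfPlane CongruenceSubgroup
open scoped MatrixGroups Manifold

noncomputable section

namespace FermatAgent.ES

/-- Multiply the `n`-th coefficient by `c ^ n`. -/
def twistSer (c : ℂ) (s : LaurentSeries ℂ) : LaurentSeries ℂ where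
  coeff n := s.coeff n * c ^ n
  isPWO_support' := s.isPWO_support.mono fun n hn => by
    simp only [Function.mem_support] at hn
    exact left_ne_zero_of_mul hn

/-- The coefficients of a twisted series. -/
@[simp] theorem coeff_twistSer (c : ℂ) (s : LaurentSeries ℂ) (n : ℤ) :
    (twistSer c s).coeff n = s.coeff n * c ^ n := rfl

/-- Twisting fixes one. -/
theorem twistSer_one (c : ℂ) : twistSer c (1 : LaurentSeries ℂ) = 1 := by
  ext n
  rcases eq_or_ne n 0 with rfl | hn <;> simp [*]

/-- No negative exponents. -/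
def NonnegSer (s : LaurentSeries ℂ) : Prop := ∀ n < 0, s.coeff n = 0

/-- All coefficients lie in the additive subgroup `J`. -/
def SerInJ (J : AddSubgroup ℂ) (s : LaurentSeries ℂ) : Prop := ∀ n, s.coeff n ∈ J

variable {M : ℕ}

/-- Translation by an integer multiplies `q ^ (1/M)` by a root of unity. -/
theorem qm_vadd_int (h : ℤ) (τ : ℍ) : qm M ((h : ℝ) +ᵥ τ) = zetaC M ^ h * qm M τ := by
  rw [qm_eq, qm_eq, zetaC, ← Complex.exp_int_mul, ← Complex.exp_add]
  congr 1
  simp only [UpperHalfPlane.coe_vadd, Complex.ofReal_intCast]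
  ring

theorem qm_vadd_nat (k : ℕ) (τ : ℍ) : qm M ((k : ℝ) +ᵥ τ) = zetaC M ^ k * qm M τ := by
  simpa using qm_vadd_int (M := M) k τ

/-- Translating by `T ^ k` is shifting the argument by `k`. -/
theorem act_T_pow (k : ℕ) (f : ℍ → ℂ) : act (ModularGroup.T ^ k) f = fun τ => f ((k : ℝ) +ᵥ τ) := by
  funext τ
  simp only [act_apply]
  rw [← zpow_natCast, modular_T_zpow_smul]
  norm_num

/-- A shift by `k` twists the expansion. -/
theorem hasLExp_act_T_pow {f : ℍ → ℂ} {s : LaurentSeries ℂ} (h : HasLExp M f s) (k : ℕ) :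
    HasLExp M (act (ModularGroup.T ^ k) f) (twistSer (zetaC M ^ k) s) := by
  obtain ⟨r, c, hc, rfl⟩ := h
  set z := zetaC M ^ k with hz
  have hz0 : z ≠ 0 := pow_ne_zero _ (Complex.exp_ne_zero _)
  refine ⟨r, PowerSeries.mk fun e => PowerSeries.coeff e c * z ^ ((e : ℤ) - r), ?_, ?_⟩
  · intro τ
    have h1 := (hc ((k : ℝ) +ᵥ τ)).div_const (z ^ r)
    simp only [qm_vadd_nat, ← hz] at h1
    have e : (z * qm M τ) ^ r * f ((k : ℝ) +ᵥ τ) / z ^ r =
        qm M τ ^ r * act (ModularGroup.T ^ k) f τ := by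
      rw [act_T_pow]; field_simp; ring
    rw [e] at h1
    refine h1.congr_fun fun n => ?_
    rw [PowerSeries.coeff_mk, zpow_sub₀ hz0, zpow_natCast, zpow_natCast, mul_pow]
    field_simp
  · ext n
    simp only [coeff_twistSer, coeff_single_mul_ofPowerSeries, PowerSeries.coeff_mk]
    split_ifs with h
    · congr 2; omega
    · simp

/-- Expansions ignore signs. -/
theorem lexp_neg {f : ℍ → ℂ} (γ : SL(2, ℤ)) : lexp M (-γ) f = lexp M γ f := by
  rw [lexp, lexp, show (-γ : SL(2, ℤ)) = -1 * γ by simp, act_mul, act_neg_one]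

/-- A function with an expansion without polar part is bounded at infinity. -/
theorem isBounded_of_nonneg {f : ℍ → ℂ} {s : LaurentSeries ℂ} [NeZero M] (h : HasLExp M f s)
    (hs : NonnegSer s) : IsBoundedAtImInfty f := by
  obtain ⟨r, c, hc, rfl⟩ := h
  have hd : PowerSeries.X ^ r ∣ c := by
    rw [PowerSeries.X_pow_dvd_iff]
    intro e he
    have := hs ((e : ℤ) - r) (by omega)
    rw [coeff_single_mul_ofPowerSeries, if_pos (by omega)] at this
    simpa [show ((e : ℤ) - r - -(r : ℤ)).toNat = e by omega] using this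
  obtain ⟨d, rfl⟩ := hd
  exact ((hc.div_qm rfl).congr_fun fun τ => by
    rw [mul_div_cancel_left₀ _ (pow_ne_zero _ (qm_ne_zero M τ))]).isBounded

variable [NeZero M]

/-- The expansion at `γ T ^ k` is the twisted expansion at `γ`. -/
theorem lexp_mul_T_pow {f : ℍ → ℂ} (hf : f ∈ BSub M) (γ : SL(2, ℤ)) (k : ℕ) :
    lexp M (γ * ModularGroup.T ^ k) f = twistSer (zetaC M ^ k) (lexp M γ f) := by
  refine lexp_eq ?_
  rw [act_mul]
  exact hasLExp_act_T_pow (hasLExp_lexp hf γ) k

variable {m : ℕ}

/-- The function with a simple pole at cusp `j` and none at the other cusps. -/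
def polFun (h : m ∣ M) (j : ℕ) : ℍ → ℂ :=
  ratio M (embVec h (baseVec m (polNum j).1)) (embVec h (baseVec m (polNum j).2))
    (embVec h (baseVec m (polDen j).1)) (embVec h (baseVec m (polDen j).2))

variable (haux : AuxLevel M m)
include haux

/-- The polar functions are modular functions of level `M`. -/
theorem polFun_mem_BSub (j : ℕ) (hj : j ≤ m) : polFun haux.dvd j ∈ BSub M :=
  have h1 := adm_embVec haux.dvd (adm_polNum haux.small j hj).1
  have h2 := adm_embVec haux.dvd (adm_polNum haux.small j hj).2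
  ratio_mem h1.left h1.right h2

/-- The polar functions are invariant under `Γ(m)`. -/
theorem act_polFun {δ : SL(2, ℤ)} (hδ : δ ∈ Gamma m) (j : ℕ) :
    act δ (polFun haux.dvd j) = polFun haux.dvd j := by
  simp only [polFun, act_ratio, ← embVec_vmul, vmul_of_mem hδ]

/-- The polar functions have unit leading coefficients with the tabulated orders. -/
theorem leadUnit_polFun {A : Subring ℂ} (hA : GoodRoot M A (zetaC M)) (j l : ℕ) (hj : j ≤ m) :
    LeadUnit A (lexp M (cuspRep l) (polFun haux.dvd j)) ((M / m : ℕ) * polOrd m j l) := by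
  have := haux.neZero
  have h := leadUnit_lexp_ratio hA (adm_embVec haux.dvd (adm_polNum haux.small j hj).1)
    (adm_embVec haux.dvd (adm_polNum haux.small j hj).2) (cuspRep l)
  simp only [← embVec_vmul] at h
  convert h using 1
  · rfl
  simp only [polOrd, pairIdx, leadIdx_embVec, Nat.mul_min_mul_left, Nat.cast_mul, mul_sub]

omit [NeZero M] in
theorem width_dvd_iff [NeZero M] (n : ℤ) :
    ((M / m : ℕ) : ℤ) ∣ n ↔ (zetaC M ^ m) ^ n = 1 := by
  rw [← zpow_natCast (zetaC M) m, ← zpow_mul, (zetaC_isPrimitiveRoot M).zpow_eq_one_iff_dvd]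
  have := haux.neZero
  conv_rhs => rw [show (M : ℤ) = (m : ℤ) * ((M / m : ℕ) : ℤ) by
    exact_mod_cast (Nat.mul_div_cancel' haux.dvd).symm]
  rw [mul_dvd_mul_iff_left (by simp [NeZero.ne m])]

/-- Expansions of `Γ(m)`-invariant functions are supported on multiples of `M / m`. -/
theorem coeff_eq_zero_of_not_dvd {f : ℍ → ℂ} (hf : f ∈ BSub M)
    (hinv : ∀ δ ∈ Gamma m, act δ f = f) (γ : SL(2, ℤ)) {n : ℤ}
    (hn : ¬ ((M / m : ℕ) : ℤ) ∣ n) : (lexp M γ f).coeff n = 0 := by
  have hT : ModularGroup.T ^ m ∈ Gamma m := by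
    rw [Gamma_mem, T_pow_coe]
    simp
  have hconj : γ * ModularGroup.T ^ m * γ⁻¹ ∈ Gamma m := (Gamma_normal m).conj_mem _ hT γ
  have h := lexp_mul_T_pow hf γ m
  rw [show γ * ModularGroup.T ^ m = (γ * ModularGroup.T ^ m * γ⁻¹) * γ by group] at h
  rw [← lexp_act, hinv _ hconj] at h
  have h2 := congrArg (fun s => s.coeff n) h
  simp only [coeff_twistSer] at h2
  by_contra h0
  exact hn ((width_dvd_iff haux n).mpr (mul_left_cancel₀ h0 (by rw [← h2, mul_one])))

/-- Functions generated over `A` by the polar functions. -/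
def polRing (A : Subring ℂ) : Subring (ℍ → ℂ) :=
  Subring.closure ((fun a : ℂ => fun _ : ℍ => a) '' (A : Set ℂ) ∪
    (fun j => polFun haux.dvd j) '' {j | j ≤ m})

omit [NeZero M] in
/-- Constants of `A` lie in the ring of the polar functions. -/
theorem const_mem_polRing {A : Subring ℂ} [NeZero M] {a : ℂ} (ha : a ∈ A) :
    (fun _ : ℍ => a) ∈ polRing haux A :=
  Subring.subset_closure (Or.inl ⟨a, ha, rfl⟩)

omit [NeZero M] in
/-- The polar functions lie in their ring. -/
theorem polFun_mem_polRing [NeZero M] (A : Subring ℂ) {j : ℕ} (hj : j ≤ m) :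
    polFun haux.dvd j ∈ polRing haux A :=
  Subring.subset_closure (Or.inr ⟨j, hj, rfl⟩)

/-- Membership in `polRing` together with control by any ideal `J`. -/
def PolControlled (A : Subring ℂ) (f : ℍ → ℂ) : Prop :=
  f ∈ polRing haux A ∧ ∀ J : AddSubgroup ℂ, (∀ a ∈ A, ∀ x ∈ J, a * x ∈ J) →
    (∀ j ≤ m, ∀ n < 0, (lexp M (cuspRep j) f).coeff n ∈ J) → (lexp M 1 f).coeff 0 ∈ J →
      ∀ γ, SerInJ J (lexp M γ f)

/-- A `Γ(m)`-invariant function without principal parts at the cusps `cuspRep j` is a controlled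
constant. -/
theorem polControlled_of_nonnegSer {A : Subring ℂ} {g : ℍ → ℂ} (hg : g ∈ BSub M)
    (hgi : ∀ δ ∈ Gamma m, act δ g = g) (hgs : ∀ j ≤ m, SerIn A (lexp M (cuspRep j) g))
    (hgz : ∀ j ≤ m, NonnegSer (lexp M (cuspRep j) g)) : PolControlled haux A g := by
  have hz : ∀ γ, NonnegSer (lexp M γ g) := by
    intro γ n hn
    obtain ⟨δ, hδ, j, hj, k, hγ⟩ := exists_cusp_decomp haux.small γ
    have e : lexp M γ g = lexp M (δ * (cuspRep j * ModularGroup.T ^ k)) g := by
      rcases hγ with h | h
      · rw [← h]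
      · rw [← h, lexp_neg]
    rw [e, ← lexp_act, hgi δ hδ, lexp_mul_T_pow hg, coeff_twistSer, hgz j hj n hn, zero_mul]
  obtain ⟨c, rfl⟩ := eq_const_of_bounded hg fun γ =>
    isBounded_of_nonneg (hasLExp_lexp hg γ) (hz γ)
  have hc : ∀ γ, lexp M γ (fun _ : ℍ => c) = HahnSeries.C c := fun γ =>
    lexp_eq (HasLExp.const c)
  have hcA : c ∈ A := by simpa [hc] using hgs 0 (Nat.zero_le _) 0
  refine ⟨const_mem_polRing haux hcA, fun J hJ _ h0 γ n => ?_⟩
  rw [hc] at h0 ⊢
  rcases eq_or_ne n 0 with rfl | hn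
  · exact h0
  · simp [HahnSeries.C_apply, HahnSeries.coeff_single_of_ne hn, J.zero_mem]

/-- The expansions after subtracting a multiple of a power of a polar function. -/
theorem lexp_sub_const_mul_pow {g : ℍ → ℂ} (hg : g ∈ BSub M) {l : ℕ} (hl : l ≤ m) (a : ℂ) (k : ℕ)
    (γ : SL(2, ℤ)) : lexp M γ (g - (fun _ : ℍ => a) * polFun haux.dvd l ^ k) =
      lexp M γ g - HahnSeries.C a * lexp M γ (polFun haux.dvd l) ^ k := by
  refine lexp_eq ?_
  rw [act_sub, act_mulFun, act_const]
  refine (hasLExp_lexp hg γ).sub ((HasLExp.const a).mul ?_)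
  exact ((hasLExp_lexp (polFun_mem_BSub haux l hl) γ).pow k).congr_fun fun τ => by simp

/-- If subtracting `a` times a power of a polar function leaves a controlled function, and `a` is
controlled by the principal parts, then the function itself is controlled. -/
theorem polControlled_of_sub {A : Subring ℂ} (hA : GoodRoot M A (zetaC M)) {g : ℍ → ℂ}
    (hg : g ∈ BSub M) {l : ℕ} (hl : l ≤ m) {a : ℂ} (ha : a ∈ A) (k : ℕ)
    (h : PolControlled haux A (g - (fun _ : ℍ => a) * polFun haux.dvd l ^ k))
    (haJ : ∀ J : AddSubgroup ℂ, (∀ x ∈ A, ∀ y ∈ J, x * y ∈ J) →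
      (∀ j ≤ m, ∀ n < 0, (lexp M (cuspRep j) g).coeff n ∈ J) → a ∈ J) :
    PolControlled haux A g := by
  refine ⟨?_, fun J hJ hneg h0 γ => ?_⟩
  · have hmem := add_mem h.1 (mul_mem (const_mem_polRing haux ha)
      (pow_mem (polFun_mem_polRing haux A hl) k))
    rwa [sub_add_cancel] at hmem
  have hmulJ : ∀ s : LaurentSeries ℂ, SerIn A s → SerInJ J (HahnSeries.C a * s) :=
    fun s hs n => by
      rw [HahnSeries.C_apply, HahnSeries.coeff_single_mul, mul_comm]
      exact hJ _ (hs _) _ (haJ J hJ hneg)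
  have hπall : ∀ γ, SerIn A (lexp M γ (polFun haux.dvd l)) := fun γ =>
    (leadUnit_lexp_ratio hA (adm_embVec haux.dvd (adm_polNum haux.small l hl).1)
      (adm_embVec haux.dvd (adm_polNum haux.small l hl).2) γ).serIn
  have hexp := lexp_sub_const_mul_pow haux hg hl a k
  have hJ' : ∀ γ, SerInJ J (lexp M γ (g - (fun _ : ℍ => a) * polFun haux.dvd l ^ k)) := by
    refine h.2 J hJ (fun j hj n hn => ?_) ?_
    · rw [hexp, HahnSeries.coeff_sub]
      exact J.sub_mem (hneg j hj n hn) (hmulJ _ ((hπall _).pow _) n)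
    · rw [hexp, HahnSeries.coeff_sub]
      exact J.sub_mem h0 (hmulJ _ ((hπall _).pow _) 0)
  intro n
  have := J.add_mem (hJ' γ n) (hmulJ _ ((hπall γ).pow k) n)
  rw [hexp, HahnSeries.coeff_sub, sub_add_cancel] at this
  exact this

/-- A `Γ(m)`-invariant function integral at the cusps is a controlled polynomial in the polar
functions. -/
theorem polControlled_of_invariant {A : Subring ℂ} (hA : GoodRoot M A (zetaC M)) {f : ℍ → ℂ}
    (hf : f ∈ BSub M) (hinv : ∀ δ ∈ Gamma m, act δ f = f)
    (hser : ∀ j ≤ m, SerIn A (lexp M (cuspRep j) f)) : PolControlled haux A f := by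
  have := haux.neZero
  set w := M / m with hw
  have hw0 : 0 < w := Nat.div_pos (Nat.le_of_dvd (Nat.pos_of_ne_zero (NeZero.ne M)) haux.dvd)
    (Nat.pos_of_ne_zero (NeZero.ne m))
  -- bound on the poles
  have hbound : ∀ (g : ℍ → ℂ) (j : ℕ), ∃ i : ℕ, ∀ n : ℤ, n < -((i * w : ℕ) : ℤ) →
      (lexp M (cuspRep j) g).coeff n = 0 := by
    intro g j
    set s := lexp M (cuspRep j) g
    refine ⟨(-s.order).toNat, fun n hn => HahnSeries.coeff_eq_zero_of_lt_order ?_⟩
    have : (-s.order).toNat * 1 ≤ (-s.order).toNat * w := Nat.mul_le_mul_left _ hw0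
    omega
  -- the induction: remove the principal parts at the cusps `j < l`
  suffices H : ∀ l ≤ m + 1, ∀ g ∈ BSub M, (∀ δ ∈ Gamma m, act δ g = g) →
      (∀ j ≤ m, SerIn A (lexp M (cuspRep j) g)) →
      (∀ j ≤ m, l ≤ j → ∀ n < 0, (lexp M (cuspRep j) g).coeff n = 0) → PolControlled haux A g from
    H (m + 1) le_rfl f hf hinv hser fun j hj hj' => absurd hj' (by omega)
  intro l
  induction l with
  | zero =>
    intro _ g hg hgi hgs hgz
    exact polControlled_of_nonnegSer haux hg hgi hgs fun j hj => hgz j hj (Nat.zero_le j)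
  | succ l ih =>
    intro hl g hg hgi hgs hgz
    obtain ⟨i, hi⟩ := hbound g l
    revert g
    induction i with
    | zero =>
      intro g hg hgi hgs hgz hi
      refine ih (by omega) g hg hgi hgs fun j hj hlj n hn => ?_
      rcases eq_or_lt_of_le hlj with rfl | h
      · exact hi n (by simpa using hn)
      · exact hgz j hj h n hn
    | succ i ih2 =>
      intro g hg hgi hgs hgz hi
      have hlm : l ≤ m := by omega
      set π := polFun haux.dvd l with hπ
      have hlead := (leadUnit_polFun haux hA l l hlm).pow (i + 1)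
      have hord : polOrd m l l = -1 := (polOrd_table haux.small l hlm l hlm).1 rfl
      rw [hord] at hlead
      set e : ℤ := ((i + 1 : ℕ) : ℤ) * ((w : ℤ) * -1) with he
      set u := (lexp M (cuspRep l) π ^ (i + 1)).coeff e with hu
      set a := (lexp M (cuspRep l) g).coeff e / u with ha
      have huu : UnitIn A u := hlead.unitIn_coeff
      have haA : a ∈ A := by
        rw [ha, div_eq_mul_inv]; exact A.mul_mem (hgs l hlm e) huu.2.2
      set g' := g - (fun _ : ℍ => a) * π ^ (i + 1) with hg'def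
      have hπB : π ∈ BSub M := polFun_mem_BSub haux l hlm
      have haB : (fun _ : ℍ => a) ∈ BSub M := (BSub M).algebraMap_mem a
      have hg' : g' ∈ BSub M := sub_mem hg (mul_mem haB (pow_mem hπB _))
      have hexp : ∀ γ, lexp M γ g' = lexp M γ g - HahnSeries.C a * lexp M γ π ^ (i + 1) :=
        lexp_sub_const_mul_pow haux hg hlm a (i + 1)
      have hg'i : ∀ δ ∈ Gamma m, act δ g' = g' := by
        intro δ hδ
        rw [hg'def, act_sub, act_mulFun, act_const, hgi δ hδ,
          show act δ (π ^ (i + 1)) = (act δ π) ^ (i + 1) from rfl, act_polFun haux hδ l]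
      have hπs : ∀ j, SerIn A (lexp M (cuspRep j) π) :=
        fun j => (leadUnit_polFun haux hA l j hlm).serIn
      have hg's : ∀ j ≤ m, SerIn A (lexp M (cuspRep j) g') := fun j hj => by
        rw [hexp]; exact (hgs j hj).sub ((SerIn.C haA).mul ((hπs j).pow _))
      have hother : ∀ j ≤ m, j ≠ l → ∀ n < 0,
          (lexp M (cuspRep j) g').coeff n = (lexp M (cuspRep j) g).coeff n := by
        intro j hj hne n hn
        have := ((leadUnit_polFun haux hA l j hlm).pow (i + 1)).coeff_of_lt (n := n) (by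
          have := (polOrd_table haux.small l hlm j hj).2 hne
          nlinarith [mul_nonneg (show (0:ℤ) ≤ ((i + 1 : ℕ) : ℤ) by positivity)
            (mul_nonneg (show (0:ℤ) ≤ (w : ℤ) by positivity) this)])
        rw [hexp, HahnSeries.coeff_sub, HahnSeries.C_apply, HahnSeries.coeff_single_mul]
        simp [hπ, this]
      have hkill : (lexp M (cuspRep l) g').coeff e = 0 := by
        rw [hexp, HahnSeries.coeff_sub, HahnSeries.C_apply, HahnSeries.coeff_single_mul, sub_zero,
          ← hu, ha, div_mul_cancel₀ _ huu.1, sub_self]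
      have hbd : ∀ n : ℤ, n < -((i * w : ℕ) : ℤ) → (lexp M (cuspRep l) g').coeff n = 0 := by
        intro n hn
        by_cases hd : ((w : ℕ) : ℤ) ∣ n
        · rcases eq_or_ne n e with rfl | hne
          · exact hkill
          · have hlt : n < e := by
              obtain ⟨q, rfl⟩ := hd
              rw [he] at hne ⊢
              push_cast at hn hne ⊢
              have h1 : q < -(i : ℤ) := by nlinarith
              have h2 : q ≠ -((i : ℤ) + 1) := fun h => hne (by rw [h]; ring)
              have h3 : q < -((i : ℤ) + 1) := by omega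
              nlinarith
            rw [hexp, HahnSeries.coeff_sub, HahnSeries.C_apply, HahnSeries.coeff_single_mul,
              sub_zero, hlead.coeff_of_lt hlt, mul_zero, sub_zero]
            exact hi n (by rw [he] at hlt; push_cast at hlt ⊢; linarith)
        · exact coeff_eq_zero_of_not_dvd haux hg' hg'i _ hd
      have ih' := ih2 g' hg' hg'i hg's
        (fun j hj hlj n hn => by rw [hother j hj (by omega) n hn]; exact hgz j hj hlj n hn) hbd
      refine polControlled_of_sub haux hA hg hlm haA (i + 1) ih' fun J hJ hneg => ?_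
      rw [ha, div_eq_mul_inv, mul_comm]
      refine hJ _ huu.2.2 _ (hneg l hlm e ?_)
      rw [he]; push_cast; nlinarith [Nat.pos_iff_ne_zero.mp hw0, hw0]

end FermatAgent.ES
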