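import Fermat.Agent.Curve.Periodic
import Fermat.Agent.ES.Units.RowSum
import Mathlib.NumberTheory.ModularForms.QExpansion
import Mathlib.RingTheory.LaurentSeries
import Mathlib.RingTheory.PowerSeries.Inverse
import Mathlib.Analysis.Normed.Ring.InfiniteSum

/-!
# Convergent expansions in `q^{1/M}`

`HasExp M f c`: `f τ = ∑ cₑ qm(τ)^e` for all `τ : ℍ`; `HasLExp` is the Laurent version.
-/

set_option autoImplicit false

open Filter Topology UpperHalfPlane Complex
open scoped Manifold

namespace FermatAgent.ES

/-- The parameter `q ^ (1/M)` has period `M`. -/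
theorem qParam_add_period (M : ℕ) [NeZero M] (w : ℂ) :
    Function.Periodic.qParam (M : ℝ) (w + (M : ℝ)) = Function.Periodic.qParam (M : ℝ) w := by
  have hM : (M : ℂ) ≠ 0 := by simp [NeZero.ne M]
  simp only [Function.Periodic.qParam, Complex.ofReal_natCast]
  rw [show 2 * (Real.pi : ℂ) * Complex.I * (w + (M : ℂ)) / M =
    2 * Real.pi * Complex.I * w / M + 2 * Real.pi * Complex.I by field_simp,
    Complex.exp_add, Complex.exp_two_pi_mul_I, mul_one]

/-- `f` is the sum of the power series `c` in `qm M` everywhere on `ℍ`. -/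
def HasExp (M : ℕ) (f : ℍ → ℂ) (c : PowerSeries ℂ) : Prop :=
  ∀ τ : ℍ, HasSum (fun e : ℕ => PowerSeries.coeff e c * qm M τ ^ e) (f τ)

/-- `f` is the sum of the Laurent series `s` in `qm M`. -/
def HasLExp (M : ℕ) (f : ℍ → ℂ) (s : LaurentSeries ℂ) : Prop :=
  ∃ (r : ℕ) (c : PowerSeries ℂ), HasExp M (fun τ => qm M τ ^ r * f τ) c ∧
    s = HahnSeries.single (-(r : ℤ)) 1 * HahnSeries.ofPowerSeries ℤ ℂ c

variable {M : ℕ} {f g : ℍ → ℂ} {c d : PowerSeries ℂ}

namespace HasExp

/-- An expansion transfers along pointwise equality. -/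
theorem congr_fun (h : HasExp M f c) (hfg : ∀ τ, g τ = f τ) : HasExp M g c :=
  fun τ => by rw [hfg τ]; exact h τ

/-- Functions with the same expansion are equal. -/
theorem eq_of_series (h : HasExp M f c) (h' : HasExp M g c) : f = g :=
  funext fun τ => (h τ).unique (h' τ)

/-- The expansion of a constant. -/
theorem const (a : ℂ) : HasExp M (fun _ => a) (PowerSeries.C a) := fun τ => by
  have := hasSum_single (f := fun e : ℕ => PowerSeries.coeff e (PowerSeries.C a) * qm M τ ^ e) 0
    (fun e he => by simp [PowerSeries.coeff_C, he])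
  simpa using this

/-- The expansion of zero. -/
theorem zero : HasExp M (0 : ℍ → ℂ) 0 := fun τ => by simp [hasSum_zero]

/-- The expansion of one. -/
theorem one : HasExp M (1 : ℍ → ℂ) 1 := by simpa using! const (M := M) 1

/-- The expansion of a power of `q ^ (1/M)`. -/
theorem qm_pow (r : ℕ) : HasExp M (fun τ => qm M τ ^ r) (PowerSeries.X ^ r) := fun τ => by
  have := hasSum_single (f := fun e : ℕ => PowerSeries.coeff e (PowerSeries.X ^ r) * qm M τ ^ e) r
    (fun e he => by simp [PowerSeries.coeff_X_pow, he])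
  simpa using this

/-- Expansions add. -/
theorem add (hf : HasExp M f c) (hg : HasExp M g d) : HasExp M (f + g) (c + d) := fun τ => by
  simpa [add_mul] using (hf τ).add (hg τ)

/-- Expansions commute with negation. -/
theorem neg (hf : HasExp M f c) : HasExp M (-f) (-c) := fun τ => by
  simpa using (hf τ).neg

/-- Expansions subtract. -/
theorem sub (hf : HasExp M f c) (hg : HasExp M g d) : HasExp M (f - g) (c - d) := by
  simpa [sub_eq_add_neg] using hf.add hg.neg

/-- Expansions multiply. -/
theorem mul (hf : HasExp M f c) (hg : HasExp M g d) : HasExp M (f * g) (c * d) := fun τ => by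
  have h1 := (hf τ).summable.norm
  have h2 := (hg τ).summable.norm
  have key := hasSum_sum_range_mul_of_summable_norm h1 h2
  rw [(hf τ).tsum_eq, (hg τ).tsum_eq] at key
  refine key.congr_fun fun n => ?_
  rw [PowerSeries.coeff_mul, Finset.Nat.sum_antidiagonal_eq_sum_range_succ
    (fun i j => PowerSeries.coeff i c * PowerSeries.coeff j d) n, Finset.sum_mul]
  refine Finset.sum_congr rfl fun i hi => ?_
  have : qm M τ ^ n = qm M τ ^ i * qm M τ ^ (n - i) := by
    rw [← pow_add]; congr 1; have := Finset.mem_range.mp hi; omega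
  rw [this]; ring

/-- Expansions commute with scalars. -/
theorem smul (a : ℂ) (hf : HasExp M f c) : HasExp M (fun τ => a * f τ) (PowerSeries.C a * c) :=
  (const a).mul hf

/-- Expansions of powers. -/
theorem pow (hf : HasExp M f c) (n : ℕ) : HasExp M (f ^ n) (c ^ n) := by
  induction n with
  | zero => simpa using one
  | succ n ih => simpa [pow_succ] using ih.mul hf

/-- Expansions of finite products. -/
theorem prod {ι : Type*} (s : Finset ι) {F : ι → ℍ → ℂ} {C : ι → PowerSeries ℂ}
    (h : ∀ i ∈ s, HasExp M (F i) (C i)) : HasExp M (∏ i ∈ s, F i) (∏ i ∈ s, C i) := by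
  classical
  induction s using Finset.induction with
  | empty => simpa using one
  | insert a s ha ih =>
    rw [Finset.prod_insert ha, Finset.prod_insert ha]
    exact (h a (by simp)).mul (ih fun i hi => h i (by simp [hi]))

/-- Expansions of finite sums. -/
theorem sum {ι : Type*} (s : Finset ι) {F : ι → ℍ → ℂ} {C : ι → PowerSeries ℂ}
    (h : ∀ i ∈ s, HasExp M (F i) (C i)) : HasExp M (∑ i ∈ s, F i) (∑ i ∈ s, C i) := by
  classical
  induction s using Finset.induction with
  | empty => simpa using zero
  | insert a s ha ih =>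
    rw [Finset.sum_insert ha, Finset.sum_insert ha]
    exact (h a (by simp)).add (ih fun i hi => h i (by simp [hi]))

variable [NeZero M]

/-- The period is positive. -/
private theorem hM (M : ℕ) [NeZero M] : (0 : ℝ) < (M : ℝ) := by
  exact_mod_cast Nat.pos_of_ne_zero (NeZero.ne M)

/-- A function with an expansion has period `M`. -/
theorem periodic (hf : HasExp M f c) : Function.Periodic (f ∘ ofComplex) (M : ℝ) :=
  Curve.periodic_comp_ofComplex_of_vadd fun τ => by
    have h1 := hf ((M : ℝ) +ᵥ τ)
    rw [qm, UpperHalfPlane.coe_vadd, add_comm, qParam_add_period M] at h1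
    exact h1.unique (hf τ)

/-- A function with an expansion is bounded at infinity. -/
theorem isBounded (hf : HasExp M f c) : IsBoundedAtImInfty f :=
  isBoundedAtImInfty_of_hasSum_qExpansion (hM M) (c := fun e => PowerSeries.coeff e c)
    (fun τ => by simpa [qm] using hf τ)

/-- The sum of the series on the disc. -/
noncomputable def discFun (c : PowerSeries ℂ) (q : ℂ) : ℂ := ∑' e : ℕ, PowerSeries.coeff e c * q ^ e

/-- The series converges on the open disc. -/
theorem hasSum_disc (hf : HasExp M f c) {q : ℂ} (hq : ‖q‖ < 1) :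
    HasSum (fun e : ℕ => PowerSeries.coeff e c * q ^ e) (discFun c q) := by
  rcases eq_or_ne q 0 with rfl | h0
  · refine (summable_of_ne_finset_zero (s := {0}) fun e he => ?_).hasSum
    simp [zero_pow (by simpa using he : e ≠ 0)]
  · have him := Function.Periodic.im_invQParam_pos_of_norm_lt_one (hM M) hq h0
    have := hf ⟨Function.Periodic.invQParam (M : ℝ) q, him⟩
    rw [qm, show ((⟨Function.Periodic.invQParam (M : ℝ) q, him⟩ : ℍ) : ℂ) =
      Function.Periodic.invQParam (M : ℝ) q from rfl,
      Function.Periodic.qParam_right_inv (hM M).ne' h0] at this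
    exact this.summable.hasSum

/-- The series is the power series of the sum on the open disc. -/
theorem hasFPowerSeriesOnBall (hf : HasExp M f c) :
    HasFPowerSeriesOnBall (discFun c) (.ofScalars ℂ fun e => PowerSeries.coeff e c) 0 1 := by
  refine ⟨?_, by simp, fun {y} hy => ?_⟩
  · refine le_of_forall_lt_imp_le_of_dense fun r hr => ?_
    lift r to NNReal using hr.ne_top
    apply FormalMultilinearSeries.le_radius_of_summable
    have hr' : ‖((r : ℝ) : ℂ)‖ < 1 := by simpa using hr
    have := (hf.hasSum_disc hr').summable.norm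
    simpa [FormalMultilinearSeries.ofScalars_norm] using this
  · have hy' : ‖y‖ < 1 := by simpa [← ENNReal.coe_one, mem_ball_zero_iff] using hy
    simpa [mul_comm] using hf.hasSum_disc hy'

/-- The function is the sum of the series at `q ^ (1/M)`. -/
theorem eq_discFun (hf : HasExp M f c) (τ : ℍ) : f τ = discFun c (qm M τ) :=
  (hf τ).unique (hf.hasSum_disc (norm_qm_lt_one M τ))

/-- A function with an expansion is holomorphic. -/
theorem mdifferentiable (hf : HasExp M f c) : MDiff f := by
  rw [UpperHalfPlane.mdifferentiable_iff]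
  intro z hz
  have h2 : DifferentiableAt ℂ (discFun c) (Function.Periodic.qParam (M : ℝ) z) := by
    refine (hf.hasFPowerSeriesOnBall.analyticAt_of_mem ?_).differentiableAt
    have : ‖Function.Periodic.qParam (M : ℝ) z‖ < 1 :=
      Function.Periodic.norm_qParam_lt_one (hM M) hz
    simpa [← ENNReal.coe_one, mem_ball_zero_iff] using this
  have h3 : DifferentiableAt ℂ (fun w => discFun c (Function.Periodic.qParam (M : ℝ) w)) z :=
    h2.comp z (Function.Periodic.differentiable_qParam (h := (M : ℝ)) z)
  refine (h3.congr_of_eventuallyEq ?_).differentiableWithinAt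
  filter_upwards [isOpen_upperHalfPlaneSet.mem_nhds hz] with w hw
  simp only [Function.comp_apply, ofComplex_apply_of_im_pos hw]
  exact hf.eq_discFun ⟨w, hw⟩

/-- The expansion is unique. -/
theorem series_unique (hf : HasExp M f c) (hf' : HasExp M f d) : c = d := by
  have hp := hf.periodic
  have h1 : AnalyticAt ℂ (cuspFunction (M : ℝ) f) 0 :=
    analyticAt_cuspFunction_zero (hM M) hp hf.mdifferentiable hf.isBounded
  have e1 := (hasFPowerSeriesOnBall_cuspFunction (hM M) h1
    (c := fun e => PowerSeries.coeff e c) (fun τ => by simpa [qm] using hf τ)).hasFPowerSeriesAt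
  have e2 := (hasFPowerSeriesOnBall_cuspFunction (hM M) h1
    (c := fun e => PowerSeries.coeff e d) (fun τ => by simpa [qm] using hf' τ)).hasFPowerSeriesAt
  have := e1.eq_formalMultilinearSeries e2
  ext e
  exact congrFun (FormalMultilinearSeries.ofScalars_series_injective ℂ ℂ this) e

/-- The value at infinity is the constant term. -/
theorem tendsto_atImInfty (hf : HasExp M f c) :
    Tendsto f atImInfty (𝓝 (PowerSeries.constantCoeff c)) := by
  have h0 : discFun c 0 = PowerSeries.constantCoeff c := by
    rw [discFun, tsum_eq_single 0 fun e he => by simp [zero_pow he],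
      ← PowerSeries.coeff_zero_eq_constantCoeff]
    simp
  have := hf.hasFPowerSeriesOnBall.hasFPowerSeriesAt.continuousAt.tendsto.comp
    (qParam_tendsto_atImInfty (hM M))
  rw [h0] at this
  exact this.congr fun τ => (hf.eq_discFun τ).symm

/-- A periodic holomorphic function bounded at infinity has its `q`-expansion as expansion. -/
theorem exists_of_bounded (hper : Function.Periodic (f ∘ ofComplex) (M : ℝ)) (hhol : MDiff f)
    (hbdd : IsBoundedAtImInfty f) : HasExp M f (qExpansion (M : ℝ) f) := fun τ => by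
  simpa [qm] using hasSum_qExpansion (hM M) hper hhol hbdd τ

omit [NeZero M] in
/-- Dividing by a power of `q ^ (1/M)` shifts the expansion. -/
theorem div_qm (hf : HasExp M f c) {c' : PowerSeries ℂ} {r : ℕ}
    (hc : c = PowerSeries.X ^ r * c') : HasExp M (fun τ => f τ / qm M τ ^ r) c' := fun τ => by
  have h := (hf τ).div_const (qm M τ ^ r)
  have h0 : ∀ e, e ∉ Set.range (fun e : ℕ => e + r) →
      PowerSeries.coeff e c * qm M τ ^ e / qm M τ ^ r = 0 := by
    intro e he
    have : ¬ r ≤ e := fun hle => he ⟨e - r, by simp [Nat.sub_add_cancel hle]⟩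
    simp [hc, PowerSeries.coeff_X_pow_mul', this]
  rw [← (add_left_injective r).hasSum_iff h0] at h
  refine h.congr_fun fun e => ?_
  simp only [Function.comp_apply, hc, PowerSeries.coeff_X_pow_mul]
  rw [pow_add]
  field_simp [qm_ne_zero]

/-- The inverse of a nowhere zero function with nonzero value at infinity has the inverse
expansion. -/
theorem inv (hf : HasExp M f c) (hne : ∀ τ, f τ ≠ 0) (hc : PowerSeries.constantCoeff c ≠ 0) :
    HasExp M (f⁻¹) (c⁻¹) := by
  have hper : Function.Periodic (f⁻¹ ∘ ofComplex) (M : ℝ) := fun w => by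
    simpa using congrArg (·⁻¹) (hf.periodic w)
  have hhol : MDiff f⁻¹ := by
    rw [UpperHalfPlane.mdifferentiable_iff]
    exact (UpperHalfPlane.mdifferentiable_iff.mp hf.mdifferentiable).inv fun z _ => hne _
  have hbdd : IsBoundedAtImInfty f⁻¹ := (hf.tendsto_atImInfty.inv₀ hc).isBigO_one ℝ
  have hd := exists_of_bounded hper hhol hbdd
  have h1 : HasExp M 1 (c * qExpansion (M : ℝ) f⁻¹) :=
    (hf.mul hd).congr_fun fun τ => by simp [hne τ]
  have := h1.series_unique one
  rwa [(PowerSeries.inv_eq_iff_mul_eq_one hc).mpr (by rw [mul_comm]; exact this)]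

end HasExp

/-- `q ^ (1/M)` is invariant under translation by `M`. -/
theorem qm_vadd [NeZero M] (τ : ℍ) : qm M ((M : ℝ) +ᵥ τ) = qm M τ := by
  simp only [qm, UpperHalfPlane.coe_vadd]
  rw [add_comm]
  exact qParam_add_period M (τ : ℂ)

namespace HasLExp

variable {s t : LaurentSeries ℂ}

local notation "ps" => HahnSeries.ofPowerSeries ℤ ℂ

theorem single_neg_mul (r r' : ℕ) (x y : LaurentSeries ℂ) :
    (HahnSeries.single (-(r : ℤ)) 1 * x) * (HahnSeries.single (-(r' : ℤ)) 1 * y) =
      HahnSeries.single (-((r + r' : ℕ) : ℤ)) 1 * (x * y) := by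
  rw [mul_mul_mul_comm, HahnSeries.single_mul_single, one_mul]
  congr 2
  push_cast; ring

/-- A power of `X` cancels against a negative monomial. -/
theorem single_neg_shift (r k : ℕ) (c : PowerSeries ℂ) :
    HahnSeries.single (-((k + r : ℕ) : ℤ)) 1 * ps (PowerSeries.X ^ k * c) =
      HahnSeries.single (-(r : ℤ)) 1 * ps c := by
  rw [map_mul, HahnSeries.ofPowerSeries_X_pow, ← mul_assoc, HahnSeries.single_mul_single, one_mul]
  congr 2
  push_cast; ring

/-- An expansion is a Laurent expansion. -/
theorem of_exp (h : HasExp M f c) : HasLExp M f (ps c) := ⟨0, c, by simpa using h, by simp⟩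

/-- A Laurent expansion transfers along pointwise equality. -/
theorem congr_fun (h : HasLExp M f s) (hfg : ∀ τ, g τ = f τ) : HasLExp M g s := by
  obtain ⟨r, c, hc, hs⟩ := h
  exact ⟨r, c, hc.congr_fun fun τ => by simp [hfg τ], hs⟩

/-- The Laurent expansion of a constant. -/
theorem const (a : ℂ) : HasLExp M (fun _ => a) (HahnSeries.C a) := by
  have := of_exp (HasExp.const (M := M) a)
  simpa using this

/-- The Laurent expansion of zero. -/
theorem zero : HasLExp M (0 : ℍ → ℂ) 0 := by simpa using of_exp (HasExp.zero (M := M))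

/-- The Laurent expansion of one. -/
theorem one : HasLExp M (1 : ℍ → ℂ) 1 := by simpa using of_exp (HasExp.one (M := M))

/-- Laurent expansions multiply. -/
theorem mul (hf : HasLExp M f s) (hg : HasLExp M g t) : HasLExp M (f * g) (s * t) := by
  obtain ⟨r, c, hc, rfl⟩ := hf
  obtain ⟨r', d, hd, rfl⟩ := hg
  refine ⟨r + r', c * d, (hc.mul hd).congr_fun fun τ => ?_, ?_⟩
  · simp only [Pi.mul_apply, pow_add]; ring
  · rw [single_neg_mul, map_mul]

/-- Laurent expansions commute with negation. -/
theorem neg (hf : HasLExp M f s) : HasLExp M (-f) (-s) := by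
  obtain ⟨r, c, hc, rfl⟩ := hf
  exact ⟨r, -c, hc.neg.congr_fun fun τ => by simp,
    by rw [map_neg]; exact eq_of_sub_eq_zero (by ring)⟩

/-- Laurent expansions add. -/
theorem add (hf : HasLExp M f s) (hg : HasLExp M g t) : HasLExp M (f + g) (s + t) := by
  obtain ⟨r, c, hc, rfl⟩ := hf
  obtain ⟨r', d, hd, rfl⟩ := hg
  refine ⟨r' + r, PowerSeries.X ^ r' * c + PowerSeries.X ^ r * d,
    (((HasExp.qm_pow r').mul hc).add ((HasExp.qm_pow r).mul hd)).congr_fun fun τ => ?_, ?_⟩
  · simp only [Pi.add_apply, Pi.mul_apply, pow_add]; ring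
  · rw [map_add, mul_add, single_neg_shift r r' c]
    congr 1
    rw [Nat.add_comm r' r, single_neg_shift r' r d]

/-- Laurent expansions subtract. -/
theorem sub (hf : HasLExp M f s) (hg : HasLExp M g t) : HasLExp M (f - g) (s - t) := by
  simpa [sub_eq_add_neg] using hf.add hg.neg

/-- Laurent expansions of powers. -/
theorem pow (hf : HasLExp M f s) (n : ℕ) : HasLExp M (f ^ n) (s ^ n) := by
  induction n with
  | zero => simpa using one
  | succ n ih => simpa [pow_succ] using ih.mul hf

/-- Laurent expansions of finite products. -/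
theorem prod {ι : Type*} (S : Finset ι) {F : ι → ℍ → ℂ} {C : ι → LaurentSeries ℂ}
    (h : ∀ i ∈ S, HasLExp M (F i) (C i)) : HasLExp M (∏ i ∈ S, F i) (∏ i ∈ S, C i) := by
  classical
  induction S using Finset.induction with
  | empty => simpa using one
  | insert a S ha ih =>
    rw [Finset.prod_insert ha, Finset.prod_insert ha]
    exact (h a (by simp)).mul (ih fun i hi => h i (by simp [hi]))

/-- Laurent expansions of finite sums. -/
theorem sum {ι : Type*} (S : Finset ι) {F : ι → ℍ → ℂ} {C : ι → LaurentSeries ℂ}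
    (h : ∀ i ∈ S, HasLExp M (F i) (C i)) : HasLExp M (∑ i ∈ S, F i) (∑ i ∈ S, C i) := by
  classical
  induction S using Finset.induction with
  | empty => simpa using zero
  | insert a S ha ih =>
    rw [Finset.sum_insert ha, Finset.sum_insert ha]
    exact (h a (by simp)).add (ih fun i hi => h i (by simp [hi]))

variable [NeZero M]

/-- The Laurent expansion is unique. -/
theorem series_unique (hf : HasLExp M f s) (hf' : HasLExp M f t) : s = t := by
  obtain ⟨r, c, hc, rfl⟩ := hf
  obtain ⟨r', d, hd, rfl⟩ := hf'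
  have h1 : HasExp M (fun τ => qm M τ ^ (r' + r) * f τ) (PowerSeries.X ^ r' * c) :=
    ((HasExp.qm_pow r').mul hc).congr_fun fun τ => by simp only [Pi.mul_apply, pow_add]; ring
  have h2 : HasExp M (fun τ => qm M τ ^ (r' + r) * f τ) (PowerSeries.X ^ r * d) :=
    ((HasExp.qm_pow r).mul hd).congr_fun fun τ => by simp only [Pi.mul_apply, pow_add]; ring
  rw [← single_neg_shift r r' c, ← single_neg_shift r' r d, h1.series_unique h2,
    Nat.add_comm r' r]

omit [NeZero M] in
/-- Functions with the same Laurent expansion are equal. -/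
theorem eq_of_series (hf : HasLExp M f s) (hg : HasLExp M g s) : f = g := by
  obtain ⟨r, c, hc, hs⟩ := hf.sub hg
  rw [sub_self] at hs
  have : c = 0 := by
    have h0 : (HahnSeries.single (-(r : ℤ)) (1 : ℂ)) ≠ 0 := by simp
    exact (map_eq_zero_iff _ HahnSeries.ofPowerSeries_injective).mp
      ((mul_eq_zero.mp hs.symm).resolve_left h0)
  subst this
  funext τ
  have := (hc τ).unique (HasExp.zero (M := M) τ)
  simpa [qm_ne_zero, sub_eq_zero] using this

/-- A function with a Laurent expansion has period `M`. -/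
theorem periodic (hf : HasLExp M f s) (τ : ℍ) : f ((M : ℝ) +ᵥ τ) = f τ := by
  obtain ⟨r, c, hc, -⟩ := hf
  have h := hc.periodic (τ : ℂ)
  have him : 0 < ((τ : ℂ) + (M : ℝ)).im := by simpa using τ.im_pos
  simp only [Function.comp_apply, ofComplex_apply_of_im_pos him, ofComplex_apply] at h
  have e : (⟨(τ : ℂ) + (M : ℝ), him⟩ : ℍ) = (M : ℝ) +ᵥ τ := by
    ext; simp [add_comm]
  rw [e, qm_vadd] at h
  exact mul_left_cancel₀ (pow_ne_zero _ (qm_ne_zero M τ)) h

/-- A function with a Laurent expansion is holomorphic. -/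
theorem mdifferentiable (hf : HasLExp M f s) : MDiff f := by
  obtain ⟨r, c, hc, -⟩ := hf
  have h1 := UpperHalfPlane.mdifferentiable_iff.mp hc.mdifferentiable
  have h2 := UpperHalfPlane.mdifferentiable_iff.mp (HasExp.qm_pow (M := M) r).mdifferentiable
  rw [UpperHalfPlane.mdifferentiable_iff]
  refine (h1.div h2 fun z _ => by simp [qm_ne_zero]).congr fun z _ => ?_
  simp [qm_ne_zero]

/-- The inverse of a nowhere zero function has the inverse Laurent expansion. -/
theorem inv (hf : HasLExp M f s) (hne : ∀ τ, f τ ≠ 0) (hs : s ≠ 0) :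
    HasLExp M f⁻¹ s⁻¹ := by
  obtain ⟨r, c, hc, rfl⟩ := hf
  have hc0 : c ≠ 0 := by rintro rfl; simp at hs
  set k := c.order.toNat
  set d := c.divXPowOrder
  have hd : c = PowerSeries.X ^ k * d := PowerSeries.X_pow_order_mul_divXPowOrder.symm
  have hd0 : PowerSeries.constantCoeff d ≠ 0 :=
    fun h0 => hc0 (PowerSeries.constantCoeff_divXPowOrder_eq_zero_iff.mp h0)
  have h1 : HasExp M (fun τ => qm M τ ^ r * f τ / qm M τ ^ k) d := hc.div_qm hd
  have h2 := h1.inv (fun τ => by simp [qm_ne_zero, hne τ]) hd0
  refine ⟨k, PowerSeries.X ^ r * d⁻¹, ((HasExp.qm_pow r).mul h2).congr_fun fun τ => ?_, ?_⟩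
  · simp only [Pi.mul_apply, Pi.inv_apply]
    field_simp [qm_ne_zero, hne τ]
  · refine inv_eq_of_mul_eq_one_right ?_
    rw [single_neg_mul, ← map_mul, hd, show PowerSeries.X ^ k * d * (PowerSeries.X ^ r * d⁻¹) =
      PowerSeries.X ^ (r + k) * (d * d⁻¹) by ring, PowerSeries.mul_inv_cancel d hd0, mul_one,
      HahnSeries.ofPowerSeries_X_pow, HahnSeries.single_mul_single]
    simp

end HasLExp

end FermatAgent.ES
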