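import Fermat.Agent.ES.Ring.Ratio
import Mathlib.NumberTheory.Modular

/-!
# Cusp representatives and polar functions of level `m ∈ {2, 3}`

All statements about `(ℤ/m)²` are finite checks.  `embHom` transports them to level `M`.
-/

set_option autoImplicit false

open CongruenceSubgroup
open scoped MatrixGroups

noncomputable section

namespace FermatAgent.ES

/-- The admissible auxiliary levels. -/
structure AuxLevel (M m : ℕ) : Prop where
  small : m = 2 ∨ m = 3
  dvd : m ∣ M
  three_le : 3 ≤ M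

/-- An auxiliary level is nonzero. -/
theorem AuxLevel.neZero {M m : ℕ} (h : AuxLevel M m) : NeZero m :=
  ⟨by rcases h.small with rfl | rfl <;> decide⟩

/-- `ℤ/m → ℤ/M`, `1 ↦ M/m`. -/
def embHom {M m : ℕ} (h : m ∣ M) : ZMod m →+ ZMod M :=
  ZMod.lift m ⟨zmultiplesHom (ZMod M) ((M / m : ℕ) : ZMod M), by
    simp only [zmultiplesHom_apply, natCast_zsmul, nsmul_eq_mul, ← Nat.cast_mul,
      Nat.mul_div_cancel' h, ZMod.natCast_self]⟩

/-- The inclusion of level-`m` vectors into level `M`. -/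
def embVec {M m : ℕ} (h : m ∣ M) (v : Fin 2 → ZMod m) : Fin 2 → ZMod M := fun i => embHom h (v i)

/-- `ℤ/m → ℤ/M` on integers. -/
theorem embHom_intCast {M m : ℕ} (h : m ∣ M) (a : ℤ) :
    embHom h (a : ZMod m) = (a : ZMod M) * ((M / m : ℕ) : ZMod M) := by
  simp [embHom]

theorem embHom_injective {M m : ℕ} [NeZero M] (h : m ∣ M) : Function.Injective (embHom h) := by
  rw [injective_iff_map_eq_zero]
  intro a ha
  obtain ⟨b, rfl⟩ := ZMod.intCast_surjective a
  rw [embHom_intCast, ← Int.cast_natCast (M / m), ← Int.cast_mul,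
    ZMod.intCast_zmod_eq_zero_iff_dvd] at ha
  rw [ZMod.intCast_zmod_eq_zero_iff_dvd]
  have e : (M : ℤ) = m * ((M / m : ℕ) : ℤ) := by exact_mod_cast (Nat.mul_div_cancel' h).symm
  rw [e] at ha
  refine (mul_dvd_mul_iff_right ?_).mp ha
  intro h0
  rw [h0, mul_zero] at e
  exact NeZero.ne M (by exact_mod_cast e)

/-- The inclusion of vectors commutes with the action of `SL₂(ℤ)`. -/
theorem embVec_vmul {M m : ℕ} (h : m ∣ M) (v : Fin 2 → ZMod m) (γ : SL(2, ℤ)) :
    embVec h (vmul m v γ) = vmul M (embVec h v) γ := by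
  funext j
  simp only [embVec, vmul, Matrix.vecMul, dotProduct, Fin.sum_univ_two, modMat, Matrix.map_apply,
    eq_intCast, map_add]
  congr 1 <;>
    rw [mul_comm, ← zsmul_eq_mul, map_zsmul, zsmul_eq_mul, mul_comm]

/-- The inclusion of vectors commutes with negation. -/
theorem embVec_neg {M m : ℕ} (h : m ∣ M) (v : Fin 2 → ZMod m) : embVec h (-v) = -embVec h v := by
  funext i; simp [embVec]

/-- The inclusion multiplies leading indices by `M / m`. -/
theorem leadIdx_embVec {M m : ℕ} [NeZero M] [NeZero m] (h : m ∣ M) (v : Fin 2 → ZMod m) :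
    leadIdx (embVec h v) = (M / m) * leadIdx v := by
  set k := M / m with hk
  have hM : (M : ℤ) = m * k := by exact_mod_cast (Nat.mul_div_cancel' h).symm
  have hspec : (embHom h (v 0)).valMinAbs = (k : ℤ) * (v 0).valMinAbs := by
    rw [ZMod.valMinAbs_spec]
    refine ⟨?_, ?_⟩
    · conv_lhs => rw [← ZMod.coe_valMinAbs (v 0), embHom_intCast, ← hk]
      push_cast; ring
    · have hb := (v 0).valMinAbs_mem_Ioc
      rw [Set.mem_Ioc] at hb ⊢
      have hk0 : (0 : ℤ) < k := by
        exact_mod_cast Nat.div_pos (Nat.le_of_dvd (Nat.pos_of_ne_zero (NeZero.ne M)) h)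
          (Nat.pos_of_ne_zero (NeZero.ne m))
      rw [hM]
      constructor <;> nlinarith [hb.1, hb.2]
  simp [leadIdx, embVec, hspec, Int.natAbs_mul]

/-- The inclusion preserves admissibility. -/
theorem adm_embVec {M m : ℕ} [NeZero M] (h : m ∣ M) {v w : Fin 2 → ZMod m} (ha : Adm m v w) :
    Adm M (embVec h v) (embVec h w) := by
  have hinj : Function.Injective (embVec (M := M) h) := fun a b hab =>
    funext fun i => embHom_injective h (congrFun hab i)
  have h0 : embVec (M := M) h (0 : Fin 2 → ZMod m) = 0 := funext fun i => map_zero _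
  exact ⟨fun e => ha.left (hinj (e.trans h0.symm)), fun e => ha.right (hinj (e.trans h0.symm)),
    fun e => ha.ne (hinj e), fun e => ha.ne_neg (hinj (e.trans (embVec_neg h w).symm))⟩

/-- Vectors representing the cusps of `Γ(m)`. -/
def baseVec (m : ℕ) : ℕ → Fin 2 → ZMod m
  | 0 => ![0, 1]
  | 1 => ![1, 0]
  | 2 => ![1, 1]
  | _ => ![1, 2]

/-- `γ` with `baseVec j · γ ≡ ±(0,1)`. -/
def cuspRep : ℕ → SL(2, ℤ)
  | 0 => 1
  | 1 => ⟨!![0, -1; 1, 0], by norm_num [Matrix.det_fin_two_of]⟩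
  | 2 => ⟨!![1, 0; -1, 1], by norm_num [Matrix.det_fin_two_of]⟩
  | _ => ⟨!![1, 0; 1, 1], by norm_num [Matrix.det_fin_two_of]⟩

/-- Numerator pair of the function with a simple pole at the cusp `j`. -/
def polNum : ℕ → ℕ × ℕ
  | 0 => (0, 2)
  | 1 => (0, 1)
  | 2 => (0, 2)
  | _ => (0, 3)

/-- Denominator pair of the function with a simple pole at the cusp `j`. -/
def polDen : ℕ → ℕ × ℕ
  | 0 => (2, 1)
  | 1 => (0, 2)
  | 2 => (0, 1)
  | _ => (0, 1)

/-- The exponent of the polar function `j` at the cusp `l`, in units of `1/m`. -/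
def polOrd (m j l : ℕ) : ℤ :=
  pairIdx (vmul m (baseVec m (polNum j).1) (cuspRep l))
      (vmul m (baseVec m (polNum j).2) (cuspRep l)) -
    pairIdx (vmul m (baseVec m (polDen j).1) (cuspRep l))
      (vmul m (baseVec m (polDen j).2) (cuspRep l))

/-- The polar function `j` has a simple pole at the cusp `j` and no other. -/
theorem polOrd_table {m : ℕ} (hm : m = 2 ∨ m = 3) :
    ∀ j ≤ m, ∀ l ≤ m, (l = j → polOrd m j l = -1) ∧ (l ≠ j → 0 ≤ polOrd m j l) := by
  rcases hm with rfl | rfl <;> decide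

/-- The pairs defining the polar functions are admissible. -/
theorem adm_polNum {m : ℕ} (hm : m = 2 ∨ m = 3) (j : ℕ) (hj : j ≤ m) :
    Adm m (baseVec m (polNum j).1) (baseVec m (polNum j).2) ∧
      Adm m (baseVec m (polDen j).1) (baseVec m (polDen j).2) := by
  have key : ∀ i ≤ m, (baseVec m (polNum i).1 ≠ 0 ∧ baseVec m (polNum i).2 ≠ 0 ∧
      baseVec m (polNum i).1 ≠ baseVec m (polNum i).2 ∧
      baseVec m (polNum i).1 ≠ -baseVec m (polNum i).2) ∧
      (baseVec m (polDen i).1 ≠ 0 ∧ baseVec m (polDen i).2 ≠ 0 ∧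
      baseVec m (polDen i).1 ≠ baseVec m (polDen i).2 ∧
      baseVec m (polDen i).1 ≠ -baseVec m (polDen i).2) := by
    rcases hm with rfl | rfl <;> decide
  obtain ⟨⟨a, b, c, d⟩, ⟨a', b', c', d'⟩⟩ := key j hj
  exact ⟨⟨a, b, c, d⟩, ⟨a', b', c', d'⟩⟩

theorem exists_cusp_decomp_mat {m : ℕ} [NeZero m] (hm : m = 2 ∨ m = 3) :
    ∀ g : Fin 2 → Fin 2 → ZMod m, g 0 0 * g 1 1 - g 0 1 * g 1 0 = 1 →
      ∃ j < m + 1, ∃ k < m, ∃ e : Bool,
        ∀ a b, (bif e then (1 : ZMod m) else -1) * g a b =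
          (modMat m (cuspRep j) * !![1, (k : ZMod m); 0, 1]) a b := by
  rcases hm with rfl | rfl <;> decide

/-- The matrix of `T ^ k`. -/
theorem T_pow_coe (k : ℕ) : (((ModularGroup.T ^ k : SL(2, ℤ))) : Matrix (Fin 2) (Fin 2) ℤ) =
    !![1, (k : ℤ); 0, 1] := by
  rw [← zpow_natCast, ModularGroup.coe_T_zpow]

/-- Every `γ` is `±Γ(m) · cuspRep j · T^k`. -/
theorem exists_cusp_decomp {m : ℕ} (hm : m = 2 ∨ m = 3) (γ : SL(2, ℤ)) :
    ∃ δ ∈ Gamma m, ∃ j ≤ m, ∃ k : ℕ,
      γ = δ * (cuspRep j * ModularGroup.T ^ k) ∨ -γ = δ * (cuspRep j * ModularGroup.T ^ k) := by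
  have : NeZero m := ⟨by rcases hm with rfl | rfl <;> decide⟩
  have hdet : (modMat m γ 0 0) * (modMat m γ 1 1) - (modMat m γ 0 1) * (modMat m γ 1 0) = 1 := by
    have h := congrArg (Int.cast : ℤ → ZMod m) (Matrix.SpecialLinearGroup.det_coe γ)
    rw [Matrix.det_fin_two] at h
    push_cast at h
    simpa [modMat] using h
  obtain ⟨j, hj, k, -, e, he⟩ := exists_cusp_decomp_mat hm (modMat m γ) hdet
  set δ' : SL(2, ℤ) := cuspRep j * ModularGroup.T ^ k with hδ'
  have hmat : modMat m δ' = modMat m (cuspRep j) * !![1, (k : ZMod m); 0, 1] := by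
    rw [hδ', modMat_mul]
    congr 1
    rw [modMat, T_pow_coe]
    ext a b; fin_cases a <;> fin_cases b <;> simp
  have hmem : ∀ x : SL(2, ℤ), modMat m x = 1 → x ∈ Gamma m := by
    intro x hx
    rw [Gamma_mem]
    have h00 := congrFun (congrFun hx 0) 0
    have h01 := congrFun (congrFun hx 0) 1
    have h10 := congrFun (congrFun hx 1) 0
    have h11 := congrFun (congrFun hx 1) 1
    simp [modMat] at h00 h01 h10 h11
    exact ⟨h00, h01, h10, h11⟩
  have hinv : modMat m δ' * modMat m δ'⁻¹ = 1 := by rw [← modMat_mul, mul_inv_cancel, modMat_one]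
  cases e with
  | true =>
    refine ⟨γ * δ'⁻¹, hmem _ ?_, j, by omega, k, Or.inl (by rw [inv_mul_cancel_right])⟩
    have : modMat m γ = modMat m δ' := by ext a b; rw [hmat, ← he a b]; simp
    rw [modMat_mul, this, hinv]
  | false =>
    refine ⟨-γ * δ'⁻¹, hmem _ ?_, j, by omega, k, Or.inr (by rw [inv_mul_cancel_right])⟩
    have : modMat m (-γ) = modMat m δ' := by
      ext a b; rw [hmat, ← he a b]; simp [modMat]
    rw [modMat_mul, this, hinv]

end FermatAgent.ES
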