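import Fermat.Agent.ES.Ring.Haupt

/-!
# Fibres of the Hauptmodul on `BRing M A`

Let `t` be the Hauptmodul and `τ0` a point whose fibre is good over `A` (`GoodPoint`; automatic for
a good value over an integrally closed ring, `GoodPoint.of_integrallyClosed`). Every element of
`BRing M A` is a combination of the interpolating functions `fibIdem` with its values on the fibre,
up to a multiple of `t - t(τ0)` (`exists_fibre_decomp`, by traces to `polRing`). So it is divisible
by `t - t(τ0)` if it vanishes on the fibre (`exists_eq_mul_of_fibre_zero`), and a homomorphism to a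
field which kills `t - t(τ0)` factors through evaluation at a point of the fibre
(`exists_point_of_hom`).
-/

set_option autoImplicit false

open Filter Topology UpperHalfPlane CongruenceSubgroup Polynomial
open scoped MatrixGroups Manifold

noncomputable section

namespace FermatAgent.ES

/-- Composition with `γ` as a ring homomorphism. -/
def actHom (γ : SL(2, ℤ)) : (ℍ → ℂ) →+* (ℍ → ℂ) where
  toFun := act γ
  map_one' := rfl
  map_mul' _ _ := rfl
  map_zero' := rfl
  map_add' _ _ := rfl

@[simp] theorem actHom_apply (γ : SL(2, ℤ)) (f : ℍ → ℂ) : actHom γ f = act γ f := rfl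

/-- Translates of zero are zero. -/
theorem act_zeroFun (γ : SL(2, ℤ)) : act γ (0 : ℍ → ℂ) = 0 := rfl

/-- Translates of one are one. -/
theorem act_oneFun (γ : SL(2, ℤ)) : act γ (1 : ℍ → ℂ) = 1 := rfl

variable {M m : ℕ} [NeZero M]

/-- The monic polynomial with roots the conjugates of `x`. -/
def charFun (M m : ℕ) [NeZero M] (x : ℍ → ℂ) : (ℍ → ℂ)[X] :=
  ∏ g : GalGrp M m, (X - C (act (repG M m g) x))

theorem charFun_monic (x : ℍ → ℂ) : (charFun M m x).Monic :=
  monic_prod_of_monic _ _ fun _ _ => monic_X_sub_C _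

/-- The coefficients of the characteristic polynomial lie in the ring. -/
theorem charFun_coeff_mem {A : Subring ℂ} {x : ℍ → ℂ} (hx : x ∈ BRing M A) (i : ℕ) :
    (charFun M m x).coeff i ∈ BRing M A := by
  let y : GalGrp M m → BRing M A := fun g => ⟨act (repG M m g) x, act_mem_BRing hx _⟩
  have e : charFun M m x = (∏ g : GalGrp M m, (X - C (y g))).map (BRing M A).subtype := by
    rw [charFun, Polynomial.map_prod]
    refine Finset.prod_congr rfl fun g _ => ?_
    rw [Polynomial.map_sub, Polynomial.map_X, Polynomial.map_C]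
    rfl
  rw [e, coeff_map]
  exact SetLike.coe_mem _

/-- The coefficients of the characteristic polynomial are invariant under level `m`. -/
theorem charFun_coeff_invariant {x : ℍ → ℂ} (hx : x ∈ BSub M) (i : ℕ) {δ : SL(2, ℤ)}
    (hδ : δ ∈ Gamma m) : act δ ((charFun M m x).coeff i) = (charFun M m x).coeff i := by
  have e : (charFun M m x).map (actHom δ) = charFun M m x := by
    rw [charFun, Polynomial.map_prod]
    refine Fintype.prod_equiv (Equiv.mulRight ((⟨δ, hδ⟩ : Gamma m) : GalGrp M m)) _ _ fun g => ?_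
    rw [Polynomial.map_sub, Polynomial.map_X, Polynomial.map_C, actHom_apply, ← act_mul]
    simp only [Equiv.coe_mulRight]
    obtain ⟨y, rfl⟩ := QuotientGroup.mk_surjective g
    rw [← QuotientGroup.mk_mul, ← act_eq_act_repG hx, act_mul, ← act_eq_act_repG hx, ← act_mul]
    rfl
  conv_rhs => rw [← e, coeff_map, actHom_apply]

variable (haux : AuxLevel M m)
include haux

/-- The coefficients of the characteristic polynomial are polynomials in the polar functions. -/
theorem charFun_coeff_mem_polRing {A : Subring ℂ} (hA : GoodRoot M A (zetaC M)) {x : ℍ → ℂ}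
    (hx : x ∈ BRing M A) (i : ℕ) : (charFun M m x).coeff i ∈ polRing haux A :=
  invariant_mem_polRing haux hA (charFun_coeff_mem hx i)
    fun _ hδ => charFun_coeff_invariant hx.1 i hδ

/-- A value of `t` away from the cusps, also modulo non-units of `A`. -/
structure GoodVal (A : Subring ℂ) (a : ℂ) : Prop where
  unit : UnitIn A a
  unit_one : UnitIn A (a - 1)
  unit_root : UnitIn A (a - hauptRoot haux)

/-- A good value lies in the ring. -/
theorem GoodVal.mem {A : Subring ℂ} {a : ℂ} (h : GoodVal haux A a) : a ∈ A := h.unit.2.1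

theorem GoodVal.cuspPoly_ne {A : Subring ℂ} {a : ℂ} (h : GoodVal haux A a) :
    cuspPoly haux a ≠ 0 := mul_ne_zero (mul_ne_zero h.unit.1 h.unit_one.1) h.unit_root.1

/-- A good value is taken by the Hauptmodul. -/
theorem GoodVal.exists_point {A : Subring ℂ} {a : ℂ} (h : GoodVal haux A a) :
    ∃ τ, haupt haux.dvd τ = a := exists_haupt_eq haux h.cuspPoly_ne

/-- Division by `t - a` in `polRing`. -/
theorem polRing_sub_const {A : Subring ℂ} (hA : GoodRoot M A (zetaC M)) {P : ℍ → ℂ}
    (hP : P ∈ polRing haux A) {τ0 : ℍ} (ha : GoodVal haux A (haupt haux.dvd τ0)) :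
    P τ0 ∈ A ∧ ∃ Q ∈ polRing haux A,
      ∀ τ, P τ - P τ0 = (haupt haux.dvd τ - haupt haux.dvd τ0) * Q τ := by
  induction hP using Subring.closure_induction with
  | mem f hf =>
    rcases hf with ⟨b, hb, rfl⟩ | ⟨j, hj, rfl⟩
    · exact ⟨hb, 0, zero_mem _, fun τ => by simp⟩
    · rcases polFun_cases haux hA hj with h | ⟨α, r, hα, hr, h⟩
      · simp only [h]
        exact ⟨ha.mem, 1, one_mem _, fun τ => by simp⟩
      · have hu : UnitIn A (haupt haux.dvd τ0 - r) := by
          rcases hr with rfl | rfl | rfl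
          · simpa using ha.unit
          · exact ha.unit_one
          · exact ha.unit_root
        have h0 : polFun haux.dvd j τ0 = α * (haupt haux.dvd τ0 - r)⁻¹ := by
          rw [← h τ0, mul_inv_cancel_right₀ hu.1]
        refine ⟨show polFun haux.dvd j τ0 ∈ A by rw [h0]; exact A.mul_mem hα.2.1 hu.2.2,
          (fun _ => -(haupt haux.dvd τ0 - r)⁻¹) * polFun haux.dvd j,
          mul_mem (const_mem_polRing haux (A.neg_mem hu.2.2)) (polFun_mem_polRing haux A hj),
          fun τ => ?_⟩
        have hne := hu.1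
        show polFun haux.dvd j τ - polFun haux.dvd j τ0 = _
        rw [Pi.mul_apply, h0, ← h τ]
        field_simp
        ring
  | zero => exact ⟨A.zero_mem, 0, zero_mem _, fun τ => by simp⟩
  | one => exact ⟨A.one_mem, 0, zero_mem _, fun τ => by simp⟩
  | add f g _ _ hf hg =>
    obtain ⟨hf0, Q, hQ, hfQ⟩ := hf
    obtain ⟨hg0, R, hR, hgR⟩ := hg
    exact ⟨A.add_mem hf0 hg0, Q + R, add_mem hQ hR, fun τ => by
      simp only [Pi.add_apply]; linear_combination hfQ τ + hgR τ⟩
  | neg f _ hf =>
    obtain ⟨hf0, Q, hQ, hfQ⟩ := hf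
    exact ⟨A.neg_mem hf0, -Q, neg_mem hQ, fun τ => by
      simp only [Pi.neg_apply]; linear_combination -hfQ τ⟩
  | mul f g hfm _ hf hg =>
    obtain ⟨hf0, Q, hQ, hfQ⟩ := hf
    obtain ⟨hg0, R, hR, hgR⟩ := hg
    exact ⟨A.mul_mem hf0 hg0, Q * g + (fun _ => f τ0) * R,
      add_mem (mul_mem hQ (by assumption)) (mul_mem (const_mem_polRing haux hf0) hR), fun τ => by
      simp only [Pi.mul_apply, Pi.add_apply]; linear_combination g τ * hfQ τ + f τ0 * hgR τ⟩

omit haux in
variable (M m) in
/-- The points of the fibre of `τ0`. -/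
def orbPt (τ0 : ℍ) (g : GalGrp M m) : ℍ := repG M m g • τ0

/-- The points of the fibre have the same value of the Hauptmodul. -/
theorem haupt_orbPt (τ0 : ℍ) (g : GalGrp M m) :
    haupt haux.dvd (orbPt M m τ0 g) = haupt haux.dvd τ0 :=
  congrFun (act_polFun haux (repG_mem g) 1) τ0

/-- A fibre all whose separating values lie in `A`. -/
structure GoodPoint (A : Subring ℂ) (τ0 : ℍ) : Prop where
  val : GoodVal haux A (haupt haux.dvd τ0)
  sepA_mem : ∀ S g, sepA haux S (orbPt M m τ0 g) ∈ A
  sepB_mem : ∀ S g, sepB haux S (orbPt M m τ0 g) ∈ A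

theorem exists_monic_root_orbPt {A : Subring ℂ} (hA : GoodRoot M A (zetaC M)) {x : ℍ → ℂ}
    (hx : x ∈ BRing M A) {τ0 : ℍ} (ha : GoodVal haux A (haupt haux.dvd τ0)) (g : GalGrp M m) :
    ∃ F : A[X], F.Monic ∧ (F.map A.subtype).eval (x (orbPt M m τ0 g)) = 0 := by
  set e := Pi.evalRingHom (fun _ : ℍ => ℂ) τ0 with he
  have hmem : (charFun M m x).map e ∈ lifts A.subtype := by
    rw [lifts_iff_coeff_lifts]
    intro i
    rw [coeff_map]
    exact ⟨⟨_, (polRing_sub_const haux hA (charFun_coeff_mem_polRing haux hA hx i) ha).1⟩, rfl⟩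
  obtain ⟨F, hF, -, hmon⟩ := lifts_and_degree_eq_and_monic hmem ((charFun_monic x).map e)
  refine ⟨F, hmon, ?_⟩
  rw [hF, charFun, Polynomial.map_prod, eval_prod]
  refine Finset.prod_eq_zero (Finset.mem_univ g) ?_
  simp [he, orbPt, act]

/-- Over an integrally closed ring the fibre over a good value is good. -/
theorem GoodPoint.of_integrallyClosed {A : Subring ℂ} (hA : GoodRoot M A (zetaC M))
    (hint : ∀ x : ℂ, (∃ F : A[X], F.Monic ∧ (F.map A.subtype).eval x = 0) → x ∈ A) {τ0 : ℍ}
    (ha : GoodVal haux A (haupt haux.dvd τ0)) : GoodPoint haux A τ0 where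
  val := ha
  sepA_mem S g := hint _ (exists_monic_root_orbPt haux hA (FermatAgent.ES.sepA_mem haux hA S) ha g)
  sepB_mem S g := hint _ (exists_monic_root_orbPt haux hA (FermatAgent.ES.sepB_mem haux hA S) ha g)

/-- The interpolating function of the point `g` of the fibre. -/
def fibIdem (τ0 : ℍ) (g : GalGrp M m) : ℍ → ℂ :=
  ∑ S ∈ (Finset.univ.erase (1 : GalGrp M m)).powerset,
    sepA haux S * fun _ => sepB haux S (orbPt M m τ0 g)

/-- The interpolating functions of a good fibre lie in the ring. -/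
theorem fibIdem_mem {A : Subring ℂ} (hA : GoodRoot M A (zetaC M)) {τ0 : ℍ}
    (h : GoodPoint haux A τ0) (g : GalGrp M m) : fibIdem haux τ0 g ∈ BRing M A :=
  sum_mem fun S _ => mul_mem (FermatAgent.ES.sepA_mem haux hA S)
    (const_mem_BRing (h.sepB_mem S g))

open Classical in
/-- The interpolating functions are `1` at their point and `0` at the others. -/
theorem fibIdem_orbPt (τ0 : ℍ) (g k : GalGrp M m) :
    fibIdem haux τ0 g (orbPt M m τ0 k) = if g = k then 1 else 0 := by
  have h := congrFun (sum_sepA_mul_act_sepB haux (g * k⁻¹)) (orbPt M m τ0 k)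
  have e : ∀ S, act (repG M m (g * k⁻¹)) (sepB haux S) (orbPt M m τ0 k) =
      sepB haux S (orbPt M m τ0 g) := by
    intro S
    have hB := (FermatAgent.ES.sepB_mem haux zetaC_goodRoot_top S).1
    have h1 := congrFun (act_eq_act_repG hB
      ((Quotient.out (g * k⁻¹) : Gamma m) * (Quotient.out k : Gamma m))) τ0
    rw [QuotientGroup.mk_mul, QuotientGroup.out_eq', QuotientGroup.out_eq', inv_mul_cancel_right,
      Subgroup.coe_mul, act_apply, act_apply, mul_smul] at h1
    exact h1
  simp only [fibIdem, Finset.sum_apply, Pi.mul_apply] at h ⊢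
  simp only [e] at h
  rw [h]
  by_cases hgk : g = k
  · subst hgk; simp
  · rw [if_neg hgk, if_neg]
    · simp
    · rwa [mul_inv_eq_one]

/-- Decomposition of an element along a fibre. -/
theorem exists_fibre_decomp {A : Subring ℂ} (hA : GoodRoot M A (zetaC M)) {τ0 : ℍ}
    (h : GoodPoint haux A τ0) {x : ℍ → ℂ} (hx : x ∈ BRing M A) :
    (∀ g, x (orbPt M m τ0 g) ∈ A) ∧ ∃ x1 ∈ BRing M A,
      x = (haupt haux.dvd - fun _ => haupt haux.dvd τ0) * x1 +
        ∑ g : GalGrp M m, (fun _ => x (orbPt M m τ0 g)) * fibIdem haux τ0 g := by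
  set P : Finset (GalGrp M m) → ℍ → ℂ := fun S => trG M m (sepB haux S * x) with hPdef
  have hPmem : ∀ S, P S ∈ polRing haux A := fun S =>
    invariant_mem_polRing haux hA (trG_mem (mul_mem (FermatAgent.ES.sepB_mem haux hA S) hx))
      fun δ hδ => trG_invariant (mul_mem (FermatAgent.ES.sepB_mem haux hA S) hx).1 hδ
  have hdiv := fun S => polRing_sub_const haux hA (hPmem S) h.val
  have hsum : x = ∑ S ∈ (Finset.univ.erase (1 : GalGrp M m)).powerset, sepA haux S * P S :=
    eq_sum_sepA_mul_trG haux hx.1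
  refine ⟨fun g => ?_, ?_⟩
  · have hg := congrFun hsum (orbPt M m τ0 g)
    rw [hg, Finset.sum_apply]
    refine sum_mem fun S _ => A.mul_mem (h.sepA_mem S g) ?_
    have hinv := congrFun (trG_invariant (M := M) (m := m)
      (mul_mem (FermatAgent.ES.sepB_mem haux hA S) hx).1 (repG_mem g)) τ0
    show P S (orbPt M m τ0 g) ∈ A
    rw [show P S (orbPt M m τ0 g) = P S τ0 from hinv]
    exact (hdiv S).1
  · choose h0 Q hQ hQeq using hdiv
    refine ⟨∑ S ∈ (Finset.univ.erase (1 : GalGrp M m)).powerset, sepA haux S * Q S,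
      sum_mem fun S _ => mul_mem (FermatAgent.ES.sepA_mem haux hA S) ?_, ?_⟩
    · exact (Subring.closure_le.mpr (by
        rintro f (⟨b, hb, rfl⟩ | ⟨j, hj, rfl⟩)
        · exact const_mem_BRing hb
        · exact polFun_mem_BRing haux hA hj) : polRing haux A ≤ BRing M A) (hQ S)
    · funext τ
      simp only [fibIdem, Pi.add_apply, Pi.mul_apply, Pi.sub_apply, Finset.sum_apply,
        Finset.mul_sum]
      rw [Finset.sum_comm (s := (Finset.univ : Finset (GalGrp M m))), ← Finset.sum_add_distrib]
      conv_lhs => rw [hsum, Finset.sum_apply]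
      refine Finset.sum_congr rfl fun S _ => ?_
      have hP0 : P S τ0 = ∑ g : GalGrp M m,
          sepB haux S (orbPt M m τ0 g) * x (orbPt M m τ0 g) := by
        simp [hPdef, trG, orbPt, act]
      rw [Pi.mul_apply]
      have : ∑ g : GalGrp M m, x (orbPt M m τ0 g) * (sepA haux S τ * sepB haux S (orbPt M m τ0 g)) =
          sepA haux S τ * P S τ0 := by
        rw [hP0, Finset.mul_sum]
        exact Finset.sum_congr rfl fun g _ => by ring
      rw [this]
      linear_combination sepA haux S τ * hQeq S τ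

/-- Polynomials in the polar functions lie in `BRing`. -/
theorem polRing_le_BRing {A : Subring ℂ} (hA : GoodRoot M A (zetaC M)) :
    polRing haux A ≤ BRing M A := by
  refine Subring.closure_le.mpr ?_
  rintro f (⟨b, hb, rfl⟩ | ⟨j, hj, rfl⟩)
  · exact const_mem_BRing hb
  · exact polFun_mem_BRing haux hA hj

/-- An element vanishing on the fibre is divisible by `t - a`. -/
theorem exists_eq_mul_of_fibre_zero {A : Subring ℂ} (hA : GoodRoot M A (zetaC M)) {τ0 : ℍ}
    (h : GoodPoint haux A τ0) {x : ℍ → ℂ} (hx : x ∈ BRing M A)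
    (hzero : ∀ g, x (orbPt M m τ0 g) = 0) :
    ∃ x1 ∈ BRing M A, x = (haupt haux.dvd - fun _ => haupt haux.dvd τ0) * x1 := by
  obtain ⟨-, x1, hx1, e⟩ := exists_fibre_decomp haux hA h hx
  refine ⟨x1, hx1, e.trans ?_⟩
  funext τ
  simp [hzero]

/-- A ring homomorphism sending `t` to `a` is evaluation at a point of the fibre. -/
theorem exists_point_of_hom {A : Subring ℂ} (hA : GoodRoot M A (zetaC M)) {τ0 : ℍ}
    (h : GoodPoint haux A τ0) {k : Type*} [Field k] (ψ : BRing M A →+* k)
    (hψ : ψ ⟨haupt haux.dvd, polRing_le_BRing haux hA (haupt_mem_polRing haux A)⟩ =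
      ψ ⟨_, const_mem_BRing h.val.mem⟩) :
    ∃ g, ∀ x : BRing M A,
      ψ x = ψ ⟨fun _ => (x : ℍ → ℂ) (orbPt M m τ0 g),
        const_mem_BRing ((exists_fibre_decomp haux hA h x.2).1 g)⟩ := by
  classical
  set e : GalGrp M m → BRing M A := fun g => ⟨fibIdem haux τ0 g, fibIdem_mem haux hA h g⟩
  set c : BRing M A → GalGrp M m → BRing M A := fun x g =>
    ⟨fun _ => (x : ℍ → ℂ) (orbPt M m τ0 g),
      const_mem_BRing ((exists_fibre_decomp haux hA h x.2).1 g)⟩
  set d : BRing M A := ⟨haupt haux.dvd, polRing_le_BRing haux hA (haupt_mem_polRing haux A)⟩ -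
    ⟨_, const_mem_BRing h.val.mem⟩ with hd
  have hd0 : ψ d = 0 := by rw [hd, map_sub, hψ, sub_self]
  have key : ∀ x : BRing M A, ψ x = ∑ g, ψ (c x g) * ψ (e g) := by
    intro x
    obtain ⟨-, x1, hx1, hx⟩ := exists_fibre_decomp haux hA h x.2
    have hx' : x = d * ⟨x1, hx1⟩ + ∑ g, c x g * e g := Subtype.ext (by
      simpa [hd, c, e, AddSubmonoidClass.coe_finsetSum] using hx)
    conv_lhs => rw [hx']
    rw [map_add, map_mul, hd0, zero_mul, zero_add, map_sum]
    simp only [map_mul]
  have horth : ∀ g k, g ≠ k → ψ (e g) * ψ (e k) = 0 := by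
    intro g k hgk
    rw [← map_mul, key]
    refine Finset.sum_eq_zero fun l _ => ?_
    have : c (e g * e k) l = 0 := Subtype.ext (funext fun τ => by
      show (fibIdem haux τ0 g * fibIdem haux τ0 k) (orbPt M m τ0 l) = 0
      rw [Pi.mul_apply, fibIdem_orbPt haux, fibIdem_orbPt haux]
      split_ifs with h1 h2
      · exact absurd (h1.trans h2.symm) hgk
      all_goals simp)
    rw [this, map_zero, zero_mul]
  have hone : ∑ g, ψ (e g) = 1 := by
    have h1 := key 1
    rw [map_one] at h1
    conv_rhs => rw [h1]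
    refine Finset.sum_congr rfl fun g _ => ?_
    rw [show c 1 g = 1 from rfl, map_one, one_mul]
  obtain ⟨g, hg⟩ : ∃ g, ψ (e g) ≠ 0 := by
    by_contra hall
    push Not at hall
    simp [hall] at hone
  have hother : ∀ k, k ≠ g → ψ (e k) = 0 := fun k hk =>
    (mul_eq_zero.mp (horth k g hk)).resolve_right hg
  have hg1 : ψ (e g) = 1 := by
    rwa [Finset.sum_eq_single g (fun k _ hk => hother k hk) (by simp)] at hone
  refine ⟨g, fun x => ?_⟩
  rw [key x, Finset.sum_eq_single g (fun k _ hk => by rw [hother k hk, mul_zero]) (by simp),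
    hg1, mul_one]

end FermatAgent.ES
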