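import Fermat.Agent.ES.Ring.Cusps

/-!
# `BSub M` is a Galois extension of its `Γ(m)`-invariants

Explicit elements `sepA S`, `sepB S` with `∑ S, sepA S · (sepB S ∘ h) = [h = 1]`.
-/

set_option autoImplicit false

open Filter Topology UpperHalfPlane CongruenceSubgroup
open scoped MatrixGroups Manifold

noncomputable section

namespace FermatAgent.ES

variable (M : ℕ) [NeZero M]

/-- The functions of `BSub M` all of whose expansions have coefficients in `A`. -/
def BRing (A : Subring ℂ) : Subring (ℍ → ℂ) where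
  carrier := {f | f ∈ BSub M ∧ ∀ γ, SerIn A (lexp M γ f)}
  one_mem' := ⟨one_mem _, fun γ => by
    rw [lexp_eq (M := M) (γ := γ) (s := 1) HasLExp.one]; exact SerIn.one⟩
  zero_mem' := ⟨zero_mem _, fun γ => by
    rw [lexp_eq (M := M) (γ := γ) (s := 0) HasLExp.zero]; exact SerIn.zero⟩
  mul_mem' {f g} hf hg := ⟨mul_mem hf.1 hg.1, fun γ => by
    rw [lexp_eq (s := lexp M γ f * lexp M γ g) ((hasLExp_lexp hf.1 γ).mul (hasLExp_lexp hg.1 γ))]
    exact (hf.2 γ).mul (hg.2 γ)⟩
  add_mem' {f g} hf hg := ⟨add_mem hf.1 hg.1, fun γ => by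
    rw [lexp_eq (s := lexp M γ f + lexp M γ g) ((hasLExp_lexp hf.1 γ).add (hasLExp_lexp hg.1 γ))]
    exact (hf.2 γ).add (hg.2 γ)⟩
  neg_mem' {f} hf := ⟨neg_mem hf.1, fun γ => by
    rw [lexp_eq (s := -lexp M γ f) (hasLExp_lexp hf.1 γ).neg]
    exact (hf.2 γ).neg⟩

variable {M}

/-- `BRing` is stable under translation. -/
theorem act_mem_BRing {A : Subring ℂ} {f : ℍ → ℂ} (hf : f ∈ BRing M A) (γ : SL(2, ℤ)) :
    act γ f ∈ BRing M A :=
  ⟨act_mem_BSub hf.1 γ, fun δ => by rw [lexp_act]; exact hf.2 _⟩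

/-- Constants of `A` lie in `BRing M A`. -/
theorem const_mem_BRing {A : Subring ℂ} {a : ℂ} (ha : a ∈ A) : (fun _ : ℍ => a) ∈ BRing M A :=
  ⟨(BSub M).algebraMap_mem a, fun γ => by
    rw [lexp_eq (s := HahnSeries.C a) (HasLExp.const a)]; exact SerIn.C ha⟩

/-- Over all of `ℂ` the ring `BRing` is `BSub`. -/
theorem mem_BRing_top {f : ℍ → ℂ} : f ∈ BRing M ⊤ ↔ f ∈ BSub M :=
  ⟨fun h => h.1, fun h => ⟨h, fun _ _ => trivial⟩⟩

theorem serIn_difLaurent {A : Subring ℂ} (hA : GoodRoot M A (zetaC M)) {v w : Fin 2 → ZMod M}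
    (hv : v ≠ 0) (hw : w ≠ 0) : SerIn A (difLaurent M (zetaC M) v w) := fun n => by
  rcases le_or_gt 0 n with h0 | h0
  · lift n to ℕ using h0
    rw [difLaurent, HahnSeries.ofPowerSeries_apply_coeff]
    simpa [difSeries] using A.sub_mem (divCoeff_mem hA hv n) (divCoeff_mem hA hw n)
  · rw [difLaurent, HahnSeries.ofPowerSeries_apply, HahnSeries.embDomain_of_notMem_range]
    · exact A.zero_mem
    · rintro ⟨k, hk⟩; simp at hk; omega

/-- Ratios of differences lie in `BRing M A` for a good root. -/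
theorem ratio_mem_BRing {A : Subring ℂ} (hA : GoodRoot M A (zetaC M)) {v w v' w' : Fin 2 → ZMod M}
    (hv : v ≠ 0) (hw : w ≠ 0) (h' : Adm M v' w') : ratio M v w v' w' ∈ BRing M A := by
  refine ⟨ratio_mem hv hw h', fun γ => ?_⟩
  rw [lexp_ratio hv hw h' γ, ratioSeries, div_eq_mul_inv]
  refine (serIn_difLaurent hA (fun h0 => hv ?_) (fun h0 => hw ?_)).mul ?_
  · exact vmul_injective γ (by simpa [vmul_zero] using h0)
  · exact vmul_injective γ (by simpa [vmul_zero] using h0)
  · exact (leadUnit_difLaurent hA (h'.mul γ).left (h'.mul γ).right (h'.mul γ).ne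
      (h'.mul γ).ne_neg).inv.serIn

variable (M) (m : ℕ)

/-- Elements of `Γ(m)` acting trivially on level `M`. -/
def kerAct : Subgroup (Gamma m) where
  carrier := {γ | modMat M (γ : SL(2, ℤ)) = 1 ∨ modMat M (γ : SL(2, ℤ)) = -1}
  one_mem' := Or.inl (by simp [modMat_one])
  mul_mem' {x y} hx hy := by
    simp only [Set.mem_ofPred_eq, Subgroup.coe_mul, modMat_mul] at hx hy ⊢
    rcases hx with h | h <;> rcases hy with h' | h' <;> simp [h, h']
  inv_mem' {x} hx := by
    have h : modMat M ((x⁻¹ : Gamma m) : SL(2, ℤ)) * modMat M (x : SL(2, ℤ)) = 1 := by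
      rw [Subgroup.coe_inv, ← modMat_mul, inv_mul_cancel, modMat_one]
    rcases hx with h' | h'
    · left; simpa [h'] using h
    · right; simp [h'] at h; exact neg_eq_iff_eq_neg.mp h

instance kerAct_normal : (kerAct M m).Normal := ⟨fun x hx g => by
  have h : modMat M (g : SL(2, ℤ)) * modMat M ((g : SL(2, ℤ))⁻¹) = 1 := by
    rw [← modMat_mul, mul_inv_cancel, modMat_one]
  show modMat M ((g * x * g⁻¹ : Gamma m) : SL(2, ℤ)) = 1 ∨ _
  simp only [Subgroup.coe_mul, Subgroup.coe_inv, modMat_mul]
  rcases hx with h' | h'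
  · left; simp [h', h]
  · right; simp [h', h]⟩

/-- The group acting on `BSub M` over the invariants of level `m`. -/
abbrev GalGrp : Type := Gamma m ⧸ kerAct M m

instance : Finite (GalGrp M m) := by
  let F : GalGrp M m → Matrix (Fin 2) (Fin 2) (ZMod M) :=
    fun g => modMat M ((Quotient.out g : Gamma m) : SL(2, ℤ))
  refine Finite.of_injective F fun g g' h => ?_
  rw [← QuotientGroup.out_eq' g, ← QuotientGroup.out_eq' g', QuotientGroup.eq]
  left
  simp only [Subgroup.coe_mul, modMat_mul]
  rw [show modMat M ((Quotient.out g' : Gamma m) : SL(2, ℤ)) =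
    modMat M ((Quotient.out g : Gamma m) : SL(2, ℤ)) from h.symm]
  rw [← modMat_mul, Subgroup.coe_inv, inv_mul_cancel, modMat_one]

instance : Fintype (GalGrp M m) := Fintype.ofFinite _

instance : DecidableEq (GalGrp M m) := Classical.decEq _

/-- A representative in `SL(2,ℤ)`. -/
def repG (g : GalGrp M m) : SL(2, ℤ) := ((Quotient.out g : Gamma m) : SL(2, ℤ))

variable {M m}

section

omit [NeZero M]

/-- The representatives lie in `Γ(m)`. -/
theorem repG_mem (g : GalGrp M m) : repG M m g ∈ Gamma m := (Quotient.out g : Gamma m).2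

/-- A matrix congruent to `1` lies in `Γ(M)`. -/
theorem mem_Gamma_of_modMat {γ : SL(2, ℤ)} (h : modMat M γ = 1) : γ ∈ Gamma M := by
  rw [Gamma_mem]
  have h00 := congrFun (congrFun h 0) 0
  have h01 := congrFun (congrFun h 0) 1
  have h10 := congrFun (congrFun h 1) 0
  have h11 := congrFun (congrFun h 1) 1
  simp [modMat] at h00 h01 h10 h11
  exact ⟨h00, h01, h10, h11⟩

/-- The elements acting trivially fix modular functions. -/
theorem act_of_kerAct {f : ℍ → ℂ} (hf : f ∈ BSub M) {x : Gamma m} (hx : x ∈ kerAct M m) :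
    act (x : SL(2, ℤ)) f = f := by
  rcases hx with h | h
  · exact hf.1 _ (mem_Gamma_of_modMat h)
  · have h' : modMat M (-(x : SL(2, ℤ))) = 1 := by
      rw [show modMat M (-(x : SL(2, ℤ))) = -modMat M (x : SL(2, ℤ)) by
        ext a b; simp [modMat], h, neg_neg]
    have := hf.1 _ (mem_Gamma_of_modMat h')
    rwa [show (-(x : SL(2, ℤ))) = -1 * (x : SL(2, ℤ)) by simp, act_mul, act_neg_one] at this

/-- The translate depends only on the class in the Galois group. -/
theorem act_eq_act_repG {f : ℍ → ℂ} (hf : f ∈ BSub M) (x : Gamma m) :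
    act (x : SL(2, ℤ)) f = act (repG M m (x : GalGrp M m)) f := by
  obtain ⟨k, hk⟩ := QuotientGroup.mk_out_eq_mul (kerAct M m) x
  have hk' : repG M m (x : GalGrp M m) = (x : SL(2, ℤ)) * ((k : Gamma m) : SL(2, ℤ)) := by
    rw [repG, hk]; rfl
  rw [hk', act_mul, act_of_kerAct (act_mem_BSub hf _) k.2]

end

variable (M m)

/-- The trace to the invariants of level `m`. -/
def trG (f : ℍ → ℂ) : ℍ → ℂ := ∑ g : GalGrp M m, act (repG M m g) f

variable {M m}

omit [NeZero M] in
/-- The trace is invariant under level `m`. -/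
theorem trG_invariant [NeZero M] {f : ℍ → ℂ} (hf : f ∈ BSub M) {δ : SL(2, ℤ)} (hδ : δ ∈ Gamma m) :
    act δ (trG M m f) = trG M m f := by
  rw [trG, act_sum]
  refine Fintype.sum_equiv (Equiv.mulRight ((⟨δ, hδ⟩ : Gamma m) : GalGrp M m)) _ _ fun g => ?_
  simp only [Equiv.coe_mulRight]
  obtain ⟨x, rfl⟩ := QuotientGroup.mk_surjective g
  rw [← QuotientGroup.mk_mul, ← act_eq_act_repG hf, ← act_eq_act_repG hf, ← act_mul]
  rfl

/-- The trace preserves `BRing`. -/
theorem trG_mem {A : Subring ℂ} {f : ℍ → ℂ} (hf : f ∈ BRing M A) : trG M m f ∈ BRing M A :=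
  sum_mem fun _ _ => act_mem_BRing hf _

variable (haux : AuxLevel M m)
include haux

omit [NeZero M] in
theorem exists_moved_vec {g : GalGrp M m} (hg : g ≠ 1) :
    ∃ v : Fin 2 → ZMod M, v ≠ 0 ∧ vmul M v (repG M m g) ≠ v ∧ vmul M v (repG M m g) ≠ -v := by
  by_contra hno
  have hall : ∀ v : Fin 2 → ZMod M, vmul M v (repG M m g) = v ∨ vmul M v (repG M m g) = -v := by
    intro v
    by_contra h
    rw [not_or] at h
    refine hno ⟨v, fun h0 => h.1 ?_, h.1, h.2⟩
    rw [h0, vmul_zero]
  refine hg ?_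
  rw [← QuotientGroup.out_eq' g, QuotientGroup.eq_one_iff]
  set X := modMat M (repG M m g) with hX
  have htwo : (2 : ZMod M) ≠ 0 := by
    intro h2
    have := (ZMod.natCast_eq_zero_iff 2 M).mp (by exact_mod_cast h2)
    have := Nat.le_of_dvd (by norm_num) this
    have := haux.three_le
    omega
  have key : ∀ (v : Fin 2 → ZMod M) j, (vmul M v (repG M m g)) j = v 0 * X 0 j + v 1 * X 1 j := by
    intro v j
    simp [vmul, Matrix.vecMul, dotProduct, Fin.sum_univ_two, ← hX]
  have h0 := hall ![1, 0]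
  have h1 := hall ![0, 1]
  have h2 := hall ![1, 1]
  simp only [funext_iff, Fin.forall_fin_two, key, Pi.neg_apply, Matrix.cons_val_zero,
    Matrix.cons_val_one, one_mul, zero_mul, add_zero, zero_add, neg_zero] at h0 h1 h2
  show X = 1 ∨ X = -1
  rcases h0 with ⟨a0, b0⟩ | ⟨a0, b0⟩ <;> rcases h1 with ⟨a1, b1⟩ | ⟨a1, b1⟩
  · left; ext a b; fin_cases a <;> fin_cases b <;> simp [a0, b0, a1, b1]
  · exfalso
    rcases h2 with ⟨-, e⟩ | ⟨e, -⟩
    · rw [b0, b1] at e; exact htwo (by linear_combination -e)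
    · rw [a0, a1] at e; exact htwo (by linear_combination e)
  · exfalso
    rcases h2 with ⟨e, -⟩ | ⟨-, e⟩
    · rw [a0, a1] at e; exact htwo (by linear_combination -e)
    · rw [b0, b1] at e; exact htwo (by linear_combination e)
  · right; ext a b; fin_cases a <;> fin_cases b <;> simp [a0, b0, a1, b1]

omit haux in
/-- `emb (0,1)`. -/
def refA (h : m ∣ M) : Fin 2 → ZMod M := embVec h (baseVec m 0)

omit haux in
/-- `emb (1,0)`. -/
def refB (h : m ∣ M) : Fin 2 → ZMod M := embVec h (baseVec m 1)

/-- The reference pair is admissible. -/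
theorem adm_ref : Adm M (refB (M := M) haux.dvd) (refA (M := M) haux.dvd) := by
  refine adm_embVec haux.dvd ?_
  rcases haux.small with rfl | rfl <;> exact ⟨by decide, by decide, by decide, by decide⟩

open Classical in
/-- A vector moved by `g` (arbitrary for `g = 1`). -/
def movedVec (g : GalGrp M m) : Fin 2 → ZMod M :=
  if hg : g = 1 then refB (M := M) haux.dvd else (exists_moved_vec haux hg).choose

/-- The separating function attached to `g`. -/
def sepFun (g : GalGrp M m) : ℍ → ℂ :=
  ratio M (movedVec haux g) (refA haux.dvd) (refB haux.dvd) (refA haux.dvd)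

omit [NeZero M] in
theorem movedVec_spec {g : GalGrp M m} (hg : g ≠ 1) :
    movedVec haux g ≠ 0 ∧ vmul M (movedVec haux g) (repG M m g) ≠ movedVec haux g ∧
      vmul M (movedVec haux g) (repG M m g) ≠ -movedVec haux g := by
  rw [movedVec, dif_neg hg]
  exact (exists_moved_vec haux hg).choose_spec

/-- The moved vector is nonzero. -/
theorem movedVec_ne_zero (g : GalGrp M m) : movedVec haux g ≠ 0 := by
  rcases eq_or_ne g 1 with rfl | hg
  · rw [movedVec, dif_pos rfl]; exact (adm_ref haux).left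
  · exact (movedVec_spec haux hg).1

/-- The separating functions lie in `BRing`. -/
theorem sepFun_mem {A : Subring ℂ} (hA : GoodRoot M A (zetaC M)) (g : GalGrp M m) :
    sepFun haux g ∈ BRing M A :=
  ratio_mem_BRing hA (movedVec_ne_zero haux g) (adm_ref haux).right (adm_ref haux)

/-- The difference `θ_g - θ_g ∘ g`. -/
def sepDen (g : GalGrp M m) : ℍ → ℂ :=
  ratio M (movedVec haux g) (vmul M (movedVec haux g) (repG M m g)) (refB haux.dvd) (refA haux.dvd)

theorem sepDen_eq (g : GalGrp M m) :
    sepFun haux g - act (repG M m g) (sepFun haux g) = sepDen haux g := by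
  have hfix : ∀ u : Fin 2 → ZMod m, vmul M (embVec haux.dvd u) (repG M m g) =
      embVec haux.dvd u := fun u => by rw [← embVec_vmul, vmul_of_mem (repG_mem g)]
  funext τ
  simp only [sepFun, sepDen, refA, refB, act_ratio, hfix, Pi.sub_apply, ratio, ← sub_div]
  rw [← congrFun (dif_add_dif M (movedVec haux g) (vmul M (movedVec haux g) (repG M m g))
    (embVec haux.dvd (baseVec m 0))) τ]
  simp

/-- The coefficient functions. -/
def sepA (S : Finset (GalGrp M m)) : ℍ → ℂ :=
  (∏ g ∈ Finset.univ.erase 1 \ S, -act (repG M m g) (sepFun haux g)) *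
    ∏ g ∈ Finset.univ.erase 1,
      ratio M (refB haux.dvd) (refA haux.dvd) (movedVec haux g)
        (vmul M (movedVec haux g) (repG M m g))

/-- The dual functions. -/
def sepB (S : Finset (GalGrp M m)) : ℍ → ℂ := ∏ g ∈ S, sepFun haux g

/-- The dual functions lie in `BRing`. -/
theorem sepB_mem {A : Subring ℂ} (hA : GoodRoot M A (zetaC M)) (S : Finset (GalGrp M m)) :
    sepB haux S ∈ BRing M A := prod_mem fun g _ => sepFun_mem haux hA g

omit [NeZero M] in
/-- A moved vector and its image form an admissible pair. -/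
theorem adm_moved {g : GalGrp M m} (hg : g ≠ 1) :
    Adm M (movedVec haux g) (vmul M (movedVec haux g) (repG M m g)) := by
  obtain ⟨h0, h1, h2⟩ := movedVec_spec haux hg
  refine ⟨h0, fun h => h0 (vmul_injective (repG M m g) (by simpa [vmul_zero] using h)),
    fun h => h1 h.symm, fun h => h2 ?_⟩
  rw [eq_neg_iff_add_eq_zero] at h ⊢
  rw [add_comm]; exact h

/-- The coefficient functions lie in `BRing`. -/
theorem sepA_mem {A : Subring ℂ} (hA : GoodRoot M A (zetaC M)) (S : Finset (GalGrp M m)) :
    sepA haux S ∈ BRing M A := by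
  refine mul_mem (prod_mem fun g _ => neg_mem (act_mem_BRing (sepFun_mem haux hA g) _))
    (prod_mem fun g hg => ?_)
  exact ratio_mem_BRing hA (adm_ref haux).left (adm_ref haux).right
    (adm_moved haux (Finset.ne_of_mem_erase hg))

open Classical in
/-- The separability identity. -/
theorem sum_sepA_mul_act_sepB (h : GalGrp M m) :
    ∑ S ∈ (Finset.univ.erase (1 : GalGrp M m)).powerset,
      sepA haux S * act (repG M m h) (sepB haux S) = if h = 1 then 1 else 0 := by
  have e : ∑ S ∈ (Finset.univ.erase (1 : GalGrp M m)).powerset,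
      sepA haux S * act (repG M m h) (sepB haux S) =
      ∏ g ∈ Finset.univ.erase (1 : GalGrp M m),
        ((act (repG M m h) (sepFun haux g) + -act (repG M m g) (sepFun haux g)) *
          ratio M (refB haux.dvd) (refA haux.dvd) (movedVec haux g)
            (vmul M (movedVec haux g) (repG M m g))) := by
    rw [Finset.prod_mul_distrib, Finset.prod_add, Finset.sum_mul]
    refine Finset.sum_congr rfl fun S _ => ?_
    simp only [sepA, sepB, act_prod]
    ring
  rw [e]
  split_ifs with hh
  · subst hh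
    refine Finset.prod_eq_one fun g hg => ?_
    have h1 : act (repG M m (1 : GalGrp M m)) (sepFun haux g) = sepFun haux g := by
      have := act_eq_act_repG (sepFun_mem haux zetaC_goodRoot_top g).1 (1 : Gamma m)
      rw [Subgroup.coe_one, act_one, QuotientGroup.mk_one] at this
      exact this.symm
    rw [h1, ← sub_eq_add_neg, sepDen_eq, sepDen,
      ratio_mul_ratio _ _ (adm_ref haux) _ _]
    funext τ
    simp [ratio, (adm_moved haux (Finset.ne_of_mem_erase hg)).dif_ne_zero τ]
  · exact Finset.prod_eq_zero (Finset.mem_erase.mpr ⟨hh, Finset.mem_univ h⟩) (by simp)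

open Classical in
/-- The dual basis formula. -/
theorem eq_sum_sepA_mul_trG {f : ℍ → ℂ} (hf : f ∈ BSub M) :
    f = ∑ S ∈ (Finset.univ.erase (1 : GalGrp M m)).powerset,
      sepA haux S * trG M m (sepB haux S * f) := by
  have h1 : act (repG M m (1 : GalGrp M m)) f = f := by
    have := act_eq_act_repG hf (1 : Gamma m)
    rw [Subgroup.coe_one, act_one, QuotientGroup.mk_one] at this
    exact this.symm
  simp only [trG, act_mulFun, Finset.mul_sum, ← mul_assoc]
  rw [Finset.sum_comm]
  simp only [← Finset.sum_mul, sum_sepA_mul_act_sepB haux, ite_mul, one_mul, zero_mul]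
  rw [Finset.sum_ite_eq']
  simp [h1]

omit haux in
/-- Constants in `A` and ratios of differences. -/
def ratioGens (M : ℕ) [NeZero M] (A : Subring ℂ) : Set (ℍ → ℂ) :=
  (fun a : ℂ => fun _ : ℍ => a) '' (A : Set ℂ) ∪
    {f | ∃ v w v' w', v ≠ 0 ∧ w ≠ 0 ∧ Adm M v' w' ∧ f = ratio M v w v' w'}

omit haux in
theorem ratio_mem_closure {A : Subring ℂ} {v w v' w' : Fin 2 → ZMod M} (hv : v ≠ 0) (hw : w ≠ 0)
    (h' : Adm M v' w') : ratio M v w v' w' ∈ Subring.closure (ratioGens M A) :=
  Subring.subset_closure (Or.inr ⟨v, w, v', w', hv, hw, h', rfl⟩)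

theorem polRing_le_closure (A : Subring ℂ) : polRing haux A ≤ Subring.closure (ratioGens M A) := by
  refine Subring.closure_le.mpr ?_
  rintro f (⟨a, ha, rfl⟩ | ⟨j, hj, rfl⟩)
  · exact Subring.subset_closure (Or.inl ⟨a, ha, rfl⟩)
  · have h1 := adm_embVec haux.dvd (adm_polNum haux.small j hj).1
    have h2 := adm_embVec haux.dvd (adm_polNum haux.small j hj).2
    exact ratio_mem_closure h1.left h1.right h2

/-- Invariant members of `BRing` are polynomials in the polar functions. -/
theorem invariant_mem_polRing {A : Subring ℂ} (hA : GoodRoot M A (zetaC M)) {f : ℍ → ℂ}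
    (hf : f ∈ BRing M A) (hinv : ∀ δ ∈ Gamma m, act δ f = f) : f ∈ polRing haux A :=
  (polControlled_of_invariant haux hA hf.1 hinv fun _ _ => hf.2 _).1

/-- `BRing M A` is generated by constants and ratios. -/
theorem BRing_le_closure {A : Subring ℂ} (hA : GoodRoot M A (zetaC M)) :
    BRing M A ≤ Subring.closure (ratioGens M A) := by
  intro f hf
  rw [eq_sum_sepA_mul_trG haux hf.1]
  refine sum_mem fun S _ => mul_mem ?_ (polRing_le_closure haux A ?_)
  · refine mul_mem (prod_mem fun g _ => neg_mem ?_) (prod_mem fun g hg => ?_)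
    · rw [sepFun, act_ratio]
      refine ratio_mem_closure ?_ ?_ ((adm_ref haux).mul _)
      · exact fun h0 => movedVec_ne_zero haux g
          (vmul_injective (repG M m g) (by simpa [vmul_zero] using h0))
      · exact fun h0 => (adm_ref haux).right
          (vmul_injective (repG M m g) (by simpa [vmul_zero] using h0))
    · exact ratio_mem_closure (adm_ref haux).left (adm_ref haux).right
        (adm_moved haux (Finset.ne_of_mem_erase hg))
  · have hmem : sepB haux S * f ∈ BRing M A := mul_mem (sepB_mem haux hA S) hf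
    exact invariant_mem_polRing haux hA (trG_mem hmem) fun δ hδ => trG_invariant hmem.1 hδ

end FermatAgent.ES
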