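import Fermat.Agent.ES.Ring.Galois

/-!
# The Hauptmodul of level `m` and the shape of `polRing`

For `m = 2, 3` the polar functions are the Hauptmodul `t = haupt` or of the shape `α / (t - r)` with
`α` a unit and `r ∈ {0, 1, hauptRoot}` (`polFun_cases`, from the expansions at the cusps), and
`hauptRoot` is zero or a unit and `hauptRoot - 1` a unit (`hauptRoot_spec`). So a power of
`cuspPoly` times an element of `polRing` is a polynomial in `t` with coefficients in the ground ring
(`exists_poly_of_mem`), and `t` takes every value outside the roots of `cuspPoly`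
(`exists_haupt_eq`).
-/

set_option autoImplicit false

open Filter Topology UpperHalfPlane CongruenceSubgroup
open scoped MatrixGroups Manifold

noncomputable section

namespace FermatAgent.ES

/-- The Hauptmodul of level `m`, seen at level `M`. -/
def haupt {M m : ℕ} [NeZero M] (h : m ∣ M) : ℍ → ℂ := polFun h 1

variable {M m : ℕ} [NeZero M] (haux : AuxLevel M m)
include haux

/-- The value at the fourth cusp (zero for `m = 2`). -/
def hauptRoot : ℂ := if m = 3 then (lexp M (cuspRep 3) (haupt haux.dvd)).coeff 0 else 0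

omit [NeZero M] in
/-- `1 ≤ m`. -/
theorem one_le : 1 ≤ m := by rcases haux.small with rfl | rfl <;> norm_num

omit [NeZero M] in
/-- `2 ≤ m`. -/
theorem two_le : 2 ≤ m := by rcases haux.small with rfl | rfl <;> norm_num

/-- The Hauptmodul is a polynomial in the polar functions. -/
theorem haupt_mem_polRing (A : Subring ℂ) : haupt haux.dvd ∈ polRing haux A :=
  polFun_mem_polRing haux A (one_le haux)

/-- The numerators of the polar functions are admissible. -/
theorem adm_num {j : ℕ} (hj : j ≤ m) :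
    Adm M (embVec haux.dvd (baseVec m (polNum j).1)) (embVec haux.dvd (baseVec m (polNum j).2)) :=
  adm_embVec haux.dvd (adm_polNum haux.small j hj).1

/-- The denominators of the polar functions are admissible. -/
theorem adm_den {j : ℕ} (hj : j ≤ m) :
    Adm M (embVec haux.dvd (baseVec m (polDen j).1)) (embVec haux.dvd (baseVec m (polDen j).2)) :=
  adm_embVec haux.dvd (adm_polNum haux.small j hj).2

/-- The polar functions lie in `BRing M A`. -/
theorem polFun_mem_BRing {A : Subring ℂ} (hA : GoodRoot M A (zetaC M)) {j : ℕ} (hj : j ≤ m) :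
    polFun haux.dvd j ∈ BRing M A :=
  ratio_mem_BRing hA (adm_num haux hj).left (adm_num haux hj).right (adm_den haux hj)

/-- The second polar function is the inverse of the Hauptmodul. -/
theorem polFun_two_mul_haupt : polFun haux.dvd 2 * haupt haux.dvd = 1 := by
  funext τ
  have h1 := (adm_num haux (two_le haux)).dif_ne_zero τ
  have h2 := (adm_den haux (two_le haux)).dif_ne_zero τ
  simp only [haupt, polFun, Pi.mul_apply, Pi.one_apply, ratio, polNum, polDen] at h1 h2 ⊢
  field_simp

/-- `t - 1` is a ratio of differences. -/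
theorem haupt_sub_one : haupt haux.dvd - 1 =
    ratio M (embVec haux.dvd (baseVec m 2)) (embVec haux.dvd (baseVec m 1))
      (embVec haux.dvd (baseVec m 0)) (embVec haux.dvd (baseVec m 2)) := by
  have h := ratio_sub_ratio (M := M) (embVec haux.dvd (baseVec m 0)) (embVec haux.dvd (baseVec m 2))
    (embVec haux.dvd (baseVec m 1)) (embVec haux.dvd (baseVec m 0)) (embVec haux.dvd (baseVec m 2))
  rw [← h]
  congr 1
  funext τ
  have h2 := (adm_num haux (two_le haux)).dif_ne_zero τ
  simp only [polNum] at h2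
  simp [ratio, h2]

/-- The polar function `0` is the inverse of `t - 1`. -/
theorem polFun_zero_mul : polFun haux.dvd 0 * (haupt haux.dvd - 1) = 1 := by
  funext τ
  have h1 := (adm_num haux (j := 0) (Nat.zero_le _)).dif_ne_zero τ
  have h2 := (adm_den haux (j := 0) (Nat.zero_le _)).dif_ne_zero τ
  rw [haupt_sub_one haux]
  simp only [polFun, Pi.mul_apply, Pi.one_apply, ratio, polNum, polDen] at h1 h2 ⊢
  field_simp

omit haux in
/-- The expansion of an inverse. -/
private lemma lexp_eq_inv_of_mul {f g : ℍ → ℂ} (hf : f ∈ BSub M) (hg : g ∈ BSub M) (h : f * g = 1)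
    (γ : SL(2, ℤ)) : lexp M γ f = (lexp M γ g)⁻¹ := by
  refine eq_inv_of_mul_eq_one_left ?_
  have hl := (expHom (M := M) γ).map_mul ⟨f, hf⟩ ⟨g, hg⟩
  simp only [expHom_apply] at hl
  rw [← hl]
  show lexp M γ (f * g) = 1
  rw [h]
  exact lexp_eq HasLExp.one

section Three

omit haux
variable (h3 : AuxLevel M 3) {A : Subring ℂ} (hA : GoodRoot M A (zetaC M))
include h3 hA

/-- The inverse of the third function is regular. -/
private lemma inv_polFun_three_mem : (polFun h3.dvd 3)⁻¹ ∈ BRing M A := by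
  rw [polFun, inv_ratio]
  exact ratio_mem_BRing hA (adm_den h3 le_rfl).left (adm_den h3 le_rfl).right (adm_num h3 le_rfl)

/-- The leading terms of the inverse of the third function. -/
private lemma leadUnit_inv_polFun_three (l : ℕ) :
    LeadUnit A (lexp M (cuspRep l) (polFun h3.dvd 3)⁻¹) (((M / 3 : ℕ) : ℤ) * -polOrd 3 3 l) := by
  have h1 : (polFun h3.dvd 3)⁻¹ * polFun h3.dvd 3 = 1 := by
    funext τ
    rw [Pi.mul_apply, Pi.inv_apply, Pi.one_apply, inv_mul_cancel₀]
    exact ratio_ne_zero (adm_num h3 le_rfl) (adm_den h3 le_rfl) τ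
  rw [lexp_eq_inv_of_mul (inv_polFun_three_mem h3 hA).1 (polFun_mem_BSub h3 3 le_rfl) h1, mul_neg]
  exact (leadUnit_polFun h3 hA 3 l le_rfl).inv

/-- The inverse of the third function is affine in the Hauptmodul. -/
private lemma exists_affine_polFun_three : ∃ α β : ℂ, UnitIn A α ∧
    (polFun h3.dvd 3)⁻¹ = (fun _ => α) * haupt h3.dvd + fun _ => β := by
  have := h3.neZero
  set w : ℤ := ((M / 3 : ℕ) : ℤ) with hw
  have hw0 : 0 < w := by
    rw [hw]
    exact_mod_cast Nat.div_pos (Nat.le_of_dvd (Nat.pos_of_ne_zero (NeZero.ne M)) h3.dvd)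
      (by norm_num)
  set t := haupt h3.dvd with ht
  set u := (polFun h3.dvd 3)⁻¹ with hu
  have huB : u ∈ BRing M A := inv_polFun_three_mem h3 hA
  have htB : t ∈ BRing M A := polFun_mem_BRing h3 hA (by norm_num)
  have hlead_u : ∀ l, LeadUnit A (lexp M (cuspRep l) u) (w * -polOrd 3 3 l) :=
    leadUnit_inv_polFun_three h3 hA
  have hlead_t : ∀ l, LeadUnit A (lexp M (cuspRep l) t) (w * polOrd 3 1 l) := fun l =>
    leadUnit_polFun h3 hA 1 l (by norm_num)
  have hord : (polOrd 3 3 1 = 1 ∧ polOrd 3 1 1 = -1) ∧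
      ∀ l ≤ 3, l ≠ 1 → polOrd 3 3 l ≤ 0 ∧ 0 ≤ polOrd 3 1 l := by decide
  obtain ⟨⟨o1, o2⟩, ho⟩ := hord
  set α := (lexp M (cuspRep 1) u).coeff (-w) / (lexp M (cuspRep 1) t).coeff (-w) with hα
  have hu1 := hlead_u 1
  have ht1 := hlead_t 1
  rw [o1, mul_neg, mul_one] at hu1
  rw [o2, mul_neg, mul_one] at ht1
  have hαu : UnitIn A α := by
    rw [hα, div_eq_mul_inv]
    exact hu1.unitIn_coeff.mul ht1.unitIn_coeff.inv
  set β := (lexp M (cuspRep 0) (u - (fun _ => α) * t)).coeff 0 with hβ
  have hfB : u - (fun _ => α) * t ∈ BRing M A :=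
    sub_mem huB (mul_mem (const_mem_BRing hαu.2.1) htB)
  have hgB : u - (fun _ => α) * t - (fun _ => β) ∈ BRing M A :=
    sub_mem hfB (const_mem_BRing (hfB.2 _ 0))
  have hexp : ∀ γ, lexp M γ (u - (fun _ => α) * t - (fun _ => β)) =
      lexp M γ u - HahnSeries.C α * lexp M γ t - HahnSeries.C β := fun γ => by
    refine lexp_eq ?_
    rw [act_sub, act_sub, act_mulFun, act_const, act_const]
    exact ((hasLExp_lexp huB.1 γ).sub ((HasLExp.const α).mul (hasLExp_lexp htB.1 γ))).sub
      (HasLExp.const β)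
  have hexp0 : lexp M (cuspRep 0) (u - (fun _ => α) * t) =
      lexp M (cuspRep 0) u - HahnSeries.C α * lexp M (cuspRep 0) t := by
    refine lexp_eq ?_
    rw [act_sub, act_mulFun, act_const]
    exact (hasLExp_lexp huB.1 _).sub ((HasLExp.const α).mul (hasLExp_lexp htB.1 _))
  have hinv : ∀ δ ∈ Gamma 3, act δ (u - (fun _ => α) * t - (fun _ => β)) =
      u - (fun _ => α) * t - (fun _ => β) := by
    intro δ hδ
    rw [act_sub, act_sub, act_mulFun, act_const, act_const, hu, act_inv, ht, haupt,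
      act_polFun h3 hδ, act_polFun h3 hδ]
  refine ⟨α, β, hαu, ?_⟩
  rw [← sub_eq_zero, ← sub_sub]
  refine lexp_injective hgB.1 (zero_mem _) (γ := 1) ?_
  rw [lexp_eq (s := 0) (γ := 1) (f := (0 : ℍ → ℂ)) HasLExp.zero]
  ext n
  refine AddSubgroup.mem_bot.mp ((polControlled_of_invariant h3 hA hgB.1 hinv
    fun j _ => hgB.2 _).2 ⊥ (fun a _ x hx => by simp_all) (fun j hj k hk => ?_) ?_ 1 n)
  · rw [AddSubgroup.mem_bot, hexp]
    simp only [HahnSeries.coeff_sub, HahnSeries.C_apply, HahnSeries.coeff_single_mul, sub_zero,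
      HahnSeries.coeff_single_of_ne (ne_of_lt hk)]
    by_cases hj1 : j = 1
    · subst hj1
      rcases lt_trichotomy k (-w) with hlt | heq | hgt
      · rw [hu1.coeff_of_lt hlt, ht1.coeff_of_lt hlt, mul_zero, sub_zero]
      · rw [heq, hα, div_mul_cancel₀ _ ht1.unitIn_coeff.1, sub_self]
      · have hk' : ¬ ((M / 3 : ℕ) : ℤ) ∣ k := by
          rintro ⟨q, rfl⟩
          rw [← hw] at hgt hk
          have h1 : q < 0 := by nlinarith
          have h2 : -1 < q := by nlinarith
          omega
        rw [coeff_eq_zero_of_not_dvd h3 huB.1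
            (fun δ hδ => by rw [hu, act_inv, act_polFun h3 hδ]) _ hk',
          coeff_eq_zero_of_not_dvd h3 htB.1 (fun δ hδ => act_polFun h3 hδ 1) _ hk',
          mul_zero, sub_zero]
    · obtain ⟨h1, h2⟩ := ho j hj hj1
      rw [(hlead_u j).coeff_of_lt (n := k) (by nlinarith),
        (hlead_t j).coeff_of_lt (n := k) (by nlinarith), mul_zero, sub_zero]
  · have e : β = (lexp M (cuspRep 0) u).coeff 0 - α * (lexp M (cuspRep 0) t).coeff 0 := by
      rw [hβ, hexp0, HahnSeries.coeff_sub, HahnSeries.C_apply, HahnSeries.coeff_single_mul,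
        sub_zero]
    rw [AddSubgroup.mem_bot, hexp, show (1 : SL(2, ℤ)) = cuspRep 0 from rfl]
    simp [HahnSeries.C_apply, e]

/-- The value at the fourth cusp minus one is a unit. -/
private lemma unitIn_hauptRoot_sub_one : UnitIn A (hauptRoot h3 - 1) := by
  have h := (leadUnit_polFun h3 hA 0 3 (by norm_num)).inv
  rw [show polOrd 3 0 3 = 0 by decide, mul_zero, neg_zero] at h
  have hc : hauptRoot h3 = (lexp M (cuspRep 3) (haupt h3.dvd)).coeff 0 := if_pos rfl
  have htB : haupt h3.dvd ∈ BRing M A := polFun_mem_BRing h3 hA (by norm_num)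
  have e : lexp M (cuspRep 3) (haupt h3.dvd - 1) =
      (lexp M (cuspRep 3) (polFun h3.dvd 0))⁻¹ :=
    lexp_eq_inv_of_mul (sub_mem htB.1 (one_mem _)) (polFun_mem_BSub h3 0 (Nat.zero_le _))
      (by rw [mul_comm, polFun_zero_mul h3]) _
  have e' : lexp M (cuspRep 3) (haupt h3.dvd - 1) = lexp M (cuspRep 3) (haupt h3.dvd) - 1 := by
    refine lexp_eq ?_
    rw [act_sub]
    exact (hasLExp_lexp htB.1 _).sub HasLExp.one
  rw [← e, e'] at h
  simpa [← hc] using h.unitIn_coeff

end Three

/-- For `m = 3` the third polar function is a unit over `t - c`, with `c` and `c - 1` units. -/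
theorem polFun_three (hm : m = 3) {A : Subring ℂ} (hA : GoodRoot M A (zetaC M)) :
    hauptRoot haux ∈ A ∧ UnitIn A (hauptRoot haux) ∧ UnitIn A (hauptRoot haux - 1) ∧
      ∃ α, UnitIn A α ∧ ∀ τ, polFun haux.dvd 3 τ * (haupt haux.dvd τ - hauptRoot haux) = α := by
  subst hm
  obtain ⟨α, β, hαu, hu⟩ := exists_affine_polFun_three haux hA
  have htB : haupt haux.dvd ∈ BRing M A := polFun_mem_BRing haux hA (by norm_num)
  have hc : hauptRoot haux = (lexp M (cuspRep 3) (haupt haux.dvd)).coeff 0 := if_pos rfl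
  -- identify `β`
  have hexp : lexp M (cuspRep 3) (polFun haux.dvd 3)⁻¹ =
      HahnSeries.C α * lexp M (cuspRep 3) (haupt haux.dvd) + HahnSeries.C β := by
    rw [hu]
    refine lexp_eq ?_
    rw [act_add, act_mulFun, act_const, act_const]
    exact ((HasLExp.const α).mul (hasLExp_lexp htB.1 _)).add (HasLExp.const β)
  have hu3 := leadUnit_inv_polFun_three haux hA 3
  rw [show polOrd 3 3 3 = -1 by decide, neg_neg, mul_one] at hu3
  have hw0 : (0 : ℤ) < ((M / 3 : ℕ) : ℤ) := by
    exact_mod_cast Nat.div_pos (Nat.le_of_dvd (Nat.pos_of_ne_zero (NeZero.ne M)) haux.dvd)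
      (by norm_num)
  have hβ : β = -(α * hauptRoot haux) := by
    have h := congrArg (fun s : LaurentSeries ℂ => s.coeff 0) hexp
    simp [HahnSeries.C_apply, hu3.coeff_of_lt hw0, ← hc] at h
    linear_combination -h
  have ht3 := leadUnit_polFun haux hA 1 3 (by norm_num)
  rw [show polOrd 3 1 3 = 0 by decide, mul_zero] at ht3
  have hcu : UnitIn A (hauptRoot haux) := hc ▸ ht3.unitIn_coeff
  refine ⟨hcu.2.1, hcu, unitIn_hauptRoot_sub_one haux hA, α⁻¹, hαu.inv, fun τ => ?_⟩
  have hne : polFun haux.dvd 3 τ ≠ 0 :=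
    ratio_ne_zero (adm_num haux le_rfl) (adm_den haux le_rfl) τ
  have h := congrFun hu τ
  rw [Pi.inv_apply, Pi.add_apply, Pi.mul_apply, hβ] at h
  have hα0 := hαu.1
  field_simp at h ⊢
  linear_combination -h

/-- The value at the fourth cusp lies in `A`, is zero or a unit, and is a unit after subtracting
one. -/
theorem hauptRoot_spec {A : Subring ℂ} (hA : GoodRoot M A (zetaC M)) :
    hauptRoot haux ∈ A ∧ (hauptRoot haux = 0 ∨ UnitIn A (hauptRoot haux)) ∧
      UnitIn A (hauptRoot haux - 1) := by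
  by_cases hm : m = 3
  · obtain ⟨h1, h2, h3, -⟩ := polFun_three haux hm hA
    exact ⟨h1, Or.inr h2, h3⟩
  · rw [hauptRoot, if_neg hm]
    exact ⟨A.zero_mem, Or.inl rfl, by rw [zero_sub]; exact UnitIn.one.neg⟩

/-- Every polar function is `t` or has the shape `α/(t - r)`, `r ∈ {0, 1, hauptRoot}`. -/
theorem polFun_cases {A : Subring ℂ} (hA : GoodRoot M A (zetaC M)) {j : ℕ} (hj : j ≤ m) :
    polFun haux.dvd j = haupt haux.dvd ∨ ∃ α r, UnitIn A α ∧
      (r = 0 ∨ r = 1 ∨ r = hauptRoot haux) ∧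
      ∀ τ, polFun haux.dvd j τ * (haupt haux.dvd τ - r) = α := by
  have hj' : j ≤ 3 := by rcases haux.small with rfl | rfl <;> omega
  match j, hj, hj' with
  | 0, _, _ => exact Or.inr ⟨1, 1, UnitIn.one, Or.inr (Or.inl rfl),
      fun τ => congrFun (polFun_zero_mul haux) τ⟩
  | 1, _, _ => exact Or.inl rfl
  | 2, _, _ => exact Or.inr ⟨1, 0, UnitIn.one, Or.inl rfl,
      fun τ => by rw [sub_zero]; exact congrFun (polFun_two_mul_haupt haux) τ⟩
  | 3, h3, _ =>
    obtain ⟨-, -, -, α, hα, h⟩ :=
      polFun_three haux (by rcases haux.small with rfl | rfl <;> omega) hA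
    exact Or.inr ⟨α, _, hα, Or.inr (Or.inr rfl), h⟩

/-- The polynomial `t (t - 1) (t - c)`. -/
def cuspPoly (x : ℂ) : ℂ := x * (x - 1) * (x - hauptRoot haux)

/-- The Hauptmodul avoids the roots of the cusp polynomial. -/
theorem cuspPoly_haupt_ne_zero (τ : ℍ) : cuspPoly haux (haupt haux.dvd τ) ≠ 0 := by
  have h0 : haupt haux.dvd τ ≠ 0 := by
    intro h
    have := congrFun (polFun_two_mul_haupt haux) τ
    rw [Pi.mul_apply, h, mul_zero] at this
    exact zero_ne_one this
  have h1 : haupt haux.dvd τ - 1 ≠ 0 := by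
    intro h
    have := congrFun (polFun_zero_mul haux) τ
    rw [Pi.mul_apply, Pi.sub_apply, Pi.one_apply, h, mul_zero] at this
    exact zero_ne_one this
  refine mul_ne_zero (mul_ne_zero h0 h1) ?_
  by_cases hm : m = 3
  · obtain ⟨-, -, -, α, hα, h⟩ := polFun_three haux hm (A := ⊤) zetaC_goodRoot_top
    intro h2
    have := h τ
    rw [h2, mul_zero] at this
    exact hα.1 this.symm
  · simpa [hauptRoot, hm] using h0

/-- The Hauptmodul is not constant. -/
theorem haupt_not_const : ¬ ∃ c, haupt haux.dvd = fun _ => c := by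
  rintro ⟨c, hc⟩
  have := haux.neZero
  have h := leadUnit_polFun haux (zetaC_goodRoot_top (M := M)) 1 1 (one_le haux)
  rw [(polOrd_table haux.small 1 (one_le haux) 1 (one_le haux)).1 rfl] at h
  have he : lexp M (cuspRep 1) (haupt haux.dvd) = HahnSeries.C c := by
    rw [hc]; exact lexp_eq (HasLExp.const c)
  refine h.unitIn_coeff.1 ?_
  show (lexp M (cuspRep 1) (haupt haux.dvd)).coeff _ = 0
  rw [he, HahnSeries.C_apply, HahnSeries.coeff_single_of_ne]
  have : 0 < M / m := Nat.div_pos (Nat.le_of_dvd (Nat.pos_of_ne_zero (NeZero.ne M)) haux.dvd)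
    (one_le haux)
  omega

theorem continuous_haupt : Continuous (haupt haux.dvd) :=
  (mdifferentiable_of_mem (polFun_mem_BSub haux 1 (one_le haux))).continuous

/-- `t` is transcendental. -/
theorem eq_zero_of_eval_haupt {F : Polynomial ℂ} (h : ∀ τ, F.eval (haupt haux.dvd τ) = 0) :
    F = 0 := by
  by_contra hF
  refine haupt_not_const haux ?_
  have hfin : (Set.range (haupt haux.dvd)).Finite :=
    (Polynomial.finite_setOfPred_isRoot hF).subset (by rintro _ ⟨τ, rfl⟩; exact h τ)
  have hconn : IsPreconnected (Set.range (haupt haux.dvd)) :=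
    (isPreconnected_range (continuous_haupt haux))
  have hsub : (Set.range (haupt haux.dvd)).Subsingleton :=
    hconn.isDiscrete_iff_subsingleton.mp hfin.isDiscrete
  exact ⟨haupt haux.dvd UpperHalfPlane.I,
    funext fun τ => hsub ⟨τ, rfl⟩ ⟨UpperHalfPlane.I, rfl⟩⟩

/-- Elements of `polRing` are polynomials in `t` over a power of `t (t - 1) (t - c)`. -/
theorem exists_poly_of_mem {A : Subring ℂ} (hA : GoodRoot M A (zetaC M)) {P : ℍ → ℂ}
    (hP : P ∈ polRing haux A) : ∃ (e : ℕ) (F : Polynomial A),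
      ∀ τ, P τ * cuspPoly haux (haupt haux.dvd τ) ^ e =
        (F.map A.subtype).eval (haupt haux.dvd τ) := by
  obtain ⟨hcA, -, -⟩ := hauptRoot_spec haux hA
  set c : A := ⟨hauptRoot haux, hcA⟩
  set s : Polynomial A :=
    Polynomial.X * (Polynomial.X - 1) * (Polynomial.X - Polynomial.C c) with hs
  have hsev : ∀ x, (s.map A.subtype).eval x = cuspPoly haux x := fun x => by
    simp [hs, cuspPoly, c]
  induction hP using Subring.closure_induction with
  | mem f hf =>
    rcases hf with ⟨a, ha, rfl⟩ | ⟨j, hj, rfl⟩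
    · exact ⟨0, Polynomial.C ⟨a, ha⟩, fun τ => by simp⟩
    · rcases polFun_cases haux hA hj with h | ⟨α, r, hα, hr, h⟩
      · exact ⟨0, Polynomial.X, fun τ => by simp [h]⟩
      · rcases hr with rfl | rfl | rfl
        · refine ⟨1, Polynomial.C ⟨α, hα.2.1⟩ * (Polynomial.X - 1) *
            (Polynomial.X - Polynomial.C c), fun τ => ?_⟩
          simp [cuspPoly, c, ← h τ]; ring
        · refine ⟨1, Polynomial.C ⟨α, hα.2.1⟩ * Polynomial.X *
            (Polynomial.X - Polynomial.C c), fun τ => ?_⟩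
          simp [cuspPoly, c, ← h τ]; ring
        · refine ⟨1, Polynomial.C ⟨α, hα.2.1⟩ * Polynomial.X * (Polynomial.X - 1), fun τ => ?_⟩
          simp [cuspPoly, ← h τ]; ring
  | zero => exact ⟨0, 0, fun τ => by simp⟩
  | one => exact ⟨0, 1, fun τ => by simp⟩
  | add f g _ _ hf hg =>
    obtain ⟨e, F, hF⟩ := hf
    obtain ⟨e', G, hG⟩ := hg
    refine ⟨e + e', F * s ^ e' + G * s ^ e, fun τ => ?_⟩
    simp only [Pi.add_apply, Polynomial.map_add, Polynomial.map_mul, Polynomial.map_pow,
      Polynomial.eval_add, Polynomial.eval_mul, Polynomial.eval_pow, hsev, ← hF, ← hG]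
    ring
  | neg f _ hf =>
    obtain ⟨e, F, hF⟩ := hf
    exact ⟨e, -F, fun τ => by simp [← hF]⟩
  | mul f g _ _ hf hg =>
    obtain ⟨e, F, hF⟩ := hf
    obtain ⟨e', G, hG⟩ := hg
    refine ⟨e + e', F * G, fun τ => ?_⟩
    simp only [Pi.mul_apply, Polynomial.map_mul, Polynomial.eval_mul, ← hF, ← hG]
    ring

/-- Every value outside `{0, 1, c}` is taken by `t`. -/
theorem exists_haupt_eq {a : ℂ} (ha : cuspPoly haux a ≠ 0) : ∃ τ, haupt haux.dvd τ = a := by
  by_contra hne
  push Not at hne
  have hA : GoodRoot M (⊤ : Subring ℂ) (zetaC M) := zetaC_goodRoot_top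
  have htB : haupt haux.dvd - (fun _ => a) ∈ BSub M :=
    sub_mem (polFun_mem_BSub haux 1 (one_le haux)) ((BSub M).algebraMap_mem a)
  have hser : ∀ γ, lexp M γ (haupt haux.dvd - fun _ => a) ≠ 0 := by
    intro γ h0
    have h := lexp_injective htB (zero_mem _) (γ := γ)
      (h0.trans (lexp_eq (γ := γ) (f := (0 : ℍ → ℂ)) HasLExp.zero).symm)
    exact haupt_not_const haux ⟨a, funext fun τ => sub_eq_zero.mp (congrFun h τ)⟩
  set g : ℍ → ℂ := (haupt haux.dvd - fun _ => a)⁻¹ with hg
  have hinv : ∀ δ ∈ Gamma m, act δ g = g := fun δ hδ => by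
    rw [hg, act_inv, act_sub, act_const, haupt, act_polFun haux hδ]
  have hgB : g ∈ BSub M := by
    refine ⟨fun γ hγ => ?_, fun γ => ?_⟩
    · rw [hg, act_inv, htB.1 γ hγ]
    · rw [hg, act_inv]
      refine ⟨_, ((hasLExp_lexp htB γ).inv (fun τ => ?_) (hser γ)).congr_fun fun τ => by simp⟩
      exact sub_ne_zero.mpr (hne (γ • τ))
  have hgR : g ∈ BRing M (⊤ : Subring ℂ) := mem_BRing_top.mpr hgB
  obtain ⟨e, F, hF⟩ := exists_poly_of_mem haux hA (invariant_mem_polRing haux hA hgR hinv)
  set s : Polynomial ℂ := Polynomial.X * (Polynomial.X - 1) *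
    (Polynomial.X - Polynomial.C (hauptRoot haux))
  have key : F.map (Subring.subtype ⊤) * (Polynomial.X - Polynomial.C a) - s ^ e = 0 := by
    refine eq_zero_of_eval_haupt haux fun τ => ?_
    simp only [Polynomial.eval_sub, Polynomial.eval_mul, Polynomial.eval_X, Polynomial.eval_C,
      Polynomial.eval_pow, Polynomial.eval_one, s, ← hF]
    have := sub_ne_zero.mpr (hne τ)
    simp only [hg, Pi.inv_apply, Pi.sub_apply, cuspPoly]
    field_simp
    ring
  have := congrArg (Polynomial.eval a) key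
  simp [s] at this
  exact ha (by simpa [cuspPoly] using this.1)

end FermatAgent.ES
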