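import Fermat.Agent.ES.Units.Leading
import Mathlib.RingTheory.PowerSeries.Inverse

/-!
# Laurent series with unit leading coefficient over a subring
-/

set_option autoImplicit false

namespace FermatAgent.ES

variable {K : Type*} [Field K]

/-- All coefficients lie in `A`. -/
def SerIn (A : Subring K) (s : LaurentSeries K) : Prop := ∀ k, s.coeff k ∈ A

/-- `s = x^k · u` with `u` an invertible power series over `A`. -/
def LeadUnit (A : Subring K) (s : LaurentSeries K) (k : ℤ) : Prop :=
  ∃ u : PowerSeries A, IsUnit u ∧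
    s = HahnSeries.single k 1 * HahnSeries.ofPowerSeries ℤ K (u.map A.subtype)

variable {A : Subring K} {s t : LaurentSeries K} {k l : ℤ}

/-- The coefficients of a monomial times a power series. -/
theorem coeff_single_mul_ofPowerSeries (k n : ℤ) (c : PowerSeries K) :
    (HahnSeries.single k 1 * HahnSeries.ofPowerSeries ℤ K c).coeff n =
      if k ≤ n then PowerSeries.coeff (n - k).toNat c else 0 := by
  rw [HahnSeries.coeff_single_mul, one_mul]
  split_ifs with h
  · rw [show n - k = ((n - k).toNat : ℤ) by omega, HahnSeries.ofPowerSeries_apply_coeff,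
      Int.toNat_natCast]
  · exact HahnSeries.embDomain_of_notMem_range (by rintro ⟨m, hm⟩; simp at hm; omega)

namespace SerIn

/-- The series of a power series over `A` lies over `A`. -/
theorem ofPowerSeries (c : PowerSeries A) :
    SerIn A (HahnSeries.ofPowerSeries ℤ K (c.map A.subtype)) := fun n => by
  rw [← one_mul (HahnSeries.ofPowerSeries ℤ K _), ← HahnSeries.single_zero_one,
    coeff_single_mul_ofPowerSeries]
  split_ifs
  · exact SetLike.coe_mem _
  · exact zero_mem _

/-- Series over `A` are closed under sums. -/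
theorem add (hs : SerIn A s) (ht : SerIn A t) : SerIn A (s + t) := fun k => by
  simpa using A.add_mem (hs k) (ht k)

/-- Series over `A` are closed under negation. -/
theorem neg (hs : SerIn A s) : SerIn A (-s) := fun k => by simpa using A.neg_mem (hs k)

/-- Series over `A` are closed under differences. -/
theorem sub (hs : SerIn A s) (ht : SerIn A t) : SerIn A (s - t) := fun k => by
  simpa using A.sub_mem (hs k) (ht k)

/-- Zero is a series over `A`. -/
theorem zero : SerIn A (0 : LaurentSeries K) := fun k => by simp [A.zero_mem]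

/-- Constants of `A` are series over `A`. -/
theorem C {a : K} (ha : a ∈ A) : SerIn A (HahnSeries.C a) := fun k => by
  rcases eq_or_ne k 0 with rfl | h
  · simpa using ha
  · simp [HahnSeries.C_apply, HahnSeries.coeff_single_of_ne h, A.zero_mem]

/-- Series over `A` are closed under products. -/
theorem mul (hs : SerIn A s) (ht : SerIn A t) : SerIn A (s * t) := fun k => by
  rw [HahnSeries.coeff_mul]
  exact sum_mem fun p _ => A.mul_mem (hs p.1) (ht p.2)

/-- One is a series over `A`. -/
theorem one : SerIn A (1 : LaurentSeries K) := fun k => by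
  rw [HahnSeries.coeff_one]
  split_ifs
  · exact A.one_mem
  · exact A.zero_mem

/-- Series over `A` are closed under finite sums. -/
theorem sum {ι : Type*} (S : Finset ι) {f : ι → LaurentSeries K} (h : ∀ i ∈ S, SerIn A (f i)) :
    SerIn A (∑ i ∈ S, f i) := by
  classical
  induction S using Finset.induction with
  | empty => simpa using zero
  | insert a S ha ih =>
    rw [Finset.sum_insert ha]
    exact (h a (by simp)).add (ih fun i hi => h i (by simp [hi]))

/-- Series over `A` are closed under powers. -/
theorem pow (hs : SerIn A s) (n : ℕ) : SerIn A (s ^ n) := by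
  induction n with
  | zero => simpa using one
  | succ n ih => rw [pow_succ]; exact ih.mul hs

end SerIn

namespace LeadUnit

/-- A series with unit leading coefficient lies over `A`. -/
theorem serIn (h : LeadUnit A s k) : SerIn A s := by
  obtain ⟨u, -, rfl⟩ := h
  intro n
  rw [coeff_single_mul_ofPowerSeries]
  split_ifs
  · rw [PowerSeries.coeff_map]; exact (PowerSeries.coeff _ u).2
  · exact A.zero_mem

/-- The coefficients below the leading one vanish. -/
theorem coeff_of_lt (h : LeadUnit A s k) {n : ℤ} (hn : n < k) : s.coeff n = 0 := by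
  obtain ⟨u, -, rfl⟩ := h
  rw [coeff_single_mul_ofPowerSeries, if_neg (by omega)]

/-- The leading coefficient is a unit. -/
theorem unitIn_coeff (h : LeadUnit A s k) : UnitIn A (s.coeff k) := by
  obtain ⟨u, hu, rfl⟩ := h
  rw [coeff_single_mul_ofPowerSeries, if_pos le_rfl]
  obtain ⟨v, hv⟩ := PowerSeries.isUnit_iff_constantCoeff.mp hu
  simp only [sub_self, Int.toNat_zero, PowerSeries.coeff_map,
    PowerSeries.coeff_zero_eq_constantCoeff, ← hv]
  have h1 : ((v : A) : K) * ((v⁻¹ : Aˣ) : A) = 1 := by
    rw [← Subring.coe_mul, Units.mul_inv, Subring.coe_one]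
  refine ⟨left_ne_zero_of_mul_eq_one h1, (v : A).2, ?_⟩
  rw [Subring.coe_subtype, inv_eq_of_mul_eq_one_right h1]
  exact ((v⁻¹ : Aˣ) : A).2

/-- A series with unit leading coefficient is nonzero. -/
theorem ne_zero (h : LeadUnit A s k) : s ≠ 0 := fun h0 => h.unitIn_coeff.1 (by simp [h0])

/-- Leading units multiply. -/
theorem mul (hs : LeadUnit A s k) (ht : LeadUnit A t l) : LeadUnit A (s * t) (k + l) := by
  obtain ⟨u, hu, rfl⟩ := hs
  obtain ⟨v, hv, rfl⟩ := ht
  refine ⟨u * v, hu.mul hv, ?_⟩
  rw [map_mul, map_mul, mul_mul_mul_comm, HahnSeries.single_mul_single, one_mul]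

/-- Leading units invert. -/
theorem inv (hs : LeadUnit A s k) : LeadUnit A s⁻¹ (-k) := by
  obtain ⟨u, ⟨w, rfl⟩, rfl⟩ := hs
  refine ⟨((w⁻¹ : (PowerSeries A)ˣ) : PowerSeries A), w⁻¹.isUnit, inv_eq_of_mul_eq_one_right ?_⟩
  rw [mul_mul_mul_comm, HahnSeries.single_mul_single, ← map_mul, ← map_mul, Units.mul_inv]
  simp

/-- Leading units divide. -/
theorem div (hs : LeadUnit A s k) (ht : LeadUnit A t l) : LeadUnit A (s / t) (k - l) := by
  rw [div_eq_mul_inv, sub_eq_add_neg]; exact hs.mul ht.inv

/-- One has unit leading coefficient. -/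
theorem one : LeadUnit A (1 : LaurentSeries K) 0 := ⟨1, isUnit_one, by simp⟩

/-- Leading units of powers. -/
theorem pow (hs : LeadUnit A s k) (n : ℕ) : LeadUnit A (s ^ n) (n * k) := by
  induction n with
  | zero => simpa using one
  | succ n ih =>
    rw [pow_succ, show ((n + 1 : ℕ) : ℤ) * k = (n : ℤ) * k + k by push_cast; ring]
    exact ih.mul hs

/-- A criterion on the coefficients for a unit leading coefficient. -/
theorem of_coeff (hin : SerIn A s) (hlt : ∀ n < k, s.coeff n = 0) (hu : UnitIn A (s.coeff k)) :
    LeadUnit A s k := by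
  refine ⟨PowerSeries.mk fun e : ℕ => (⟨s.coeff (k + e), hin _⟩ : A), ?_, ?_⟩
  · refine PowerSeries.isUnit_iff_constantCoeff.mpr ?_
    simp only [← PowerSeries.coeff_zero_eq_constantCoeff, PowerSeries.coeff_mk]
    exact ⟨⟨⟨s.coeff (k + (0 : ℕ)), hin _⟩, ⟨(s.coeff k)⁻¹, hu.2.2⟩,
      Subtype.ext (by simp [hu.1]), Subtype.ext (by simp [hu.1])⟩, rfl⟩
  · ext n
    rw [coeff_single_mul_ofPowerSeries]
    split_ifs with h
    · simp only [PowerSeries.coeff_map, PowerSeries.coeff_mk, Subring.coe_subtype]
      rw [show k + ((n - k).toNat : ℤ) = n by omega]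
    · exact hlt n (by omega)

end LeadUnit

/-- The Laurent series of the difference series. -/
noncomputable def difLaurent {K : Type*} [Field K] (M : ℕ) (ζ : K) (v w : Fin 2 → ZMod M) :
    LaurentSeries K :=
  HahnSeries.ofPowerSeries ℤ K (difSeries M ζ v w)

/-- The series of an admissible difference has unit leading coefficient at the smaller leading
index. -/
theorem leadUnit_difLaurent {M : ℕ} [NeZero M] {ζ : K} (h : GoodRoot M A ζ)
    {v w : Fin 2 → ZMod M} (hv : v ≠ 0) (hw : w ≠ 0) (h1 : v ≠ w) (h2 : v ≠ -w) :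
    LeadUnit A (difLaurent M ζ v w) ((min (leadIdx v) (leadIdx w) : ℕ) : ℤ) := by
  obtain ⟨hm, hz, hu⟩ := difSeries_lead h hv hw h1 h2
  refine LeadUnit.of_coeff (fun n => ?_) (fun n hn => ?_) ?_
  · rcases le_or_gt 0 n with h0 | h0
    · lift n to ℕ using h0
      rw [difLaurent, HahnSeries.ofPowerSeries_apply_coeff]; exact hm n
    · rw [difLaurent, HahnSeries.ofPowerSeries_apply, HahnSeries.embDomain_of_notMem_range]
      · exact A.zero_mem
      · rintro ⟨m, hm'⟩; simp at hm'; omega
  · rcases le_or_gt 0 n with h0 | h0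
    · lift n to ℕ using h0
      rw [difLaurent, HahnSeries.ofPowerSeries_apply_coeff]; exact hz n (by exact_mod_cast hn)
    · rw [difLaurent, HahnSeries.ofPowerSeries_apply, HahnSeries.embDomain_of_notMem_range]
      rintro ⟨m, hm'⟩; simp at hm'; omega
  · rw [difLaurent, HahnSeries.ofPowerSeries_apply_coeff]; exact hu

end FermatAgent.ES
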