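import Fermat.Agent.ES.Ring.Fibre
import Fermat.Agent.ES.Ring.Deriv
import Mathlib.Analysis.Analytic.Order
import Mathlib.Analysis.Complex.CauchyIntegral
import Mathlib.Analysis.Analytic.Uniqueness

/-!
# Vanishing orders of modular functions and their algebraic normal form
-/

set_option autoImplicit false

open Filter Topology UpperHalfPlane CongruenceSubgroup
open scoped MatrixGroups Manifold

noncomputable section

namespace FermatAgent.ES

/-- The vanishing order at `τ` of a function on `ℍ`. -/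
def vanishOrd (f : ℍ → ℂ) (τ : ℍ) : ℕ∞ := analyticOrderAt (f ∘ ofComplex) (τ : ℂ)

/-- A holomorphic function is analytic at each point. -/
theorem analyticAt_of_mdiff {f : ℍ → ℂ} (hf : MDiff f) (τ : ℍ) :
    AnalyticAt ℂ (f ∘ ofComplex) (τ : ℂ) :=
  (UpperHalfPlane.mdifferentiable_iff.mp hf).analyticAt
    (isOpen_upperHalfPlaneSet.mem_nhds τ.im_pos)

/-- The order is zero exactly where the function is nonzero. -/
theorem vanishOrd_eq_zero {f : ℍ → ℂ} (hf : MDiff f) {τ : ℍ} :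
    vanishOrd f τ = 0 ↔ f τ ≠ 0 := by
  rw [vanishOrd, analyticOrderAt_eq_zero]
  simp [analyticAt_of_mdiff hf τ, ofComplex_apply]

/-- Orders add under multiplication. -/
theorem vanishOrd_mul {f g : ℍ → ℂ} (hf : MDiff f) (hg : MDiff g) (τ : ℍ) :
    vanishOrd (f * g) τ = vanishOrd f τ + vanishOrd g τ := by
  rw [vanishOrd, show (f * g) ∘ ofComplex = (f ∘ ofComplex) * (g ∘ ofComplex) from rfl,
    analyticOrderAt_mul (analyticAt_of_mdiff hf τ) (analyticAt_of_mdiff hg τ)]
  rfl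

/-- Orders of powers. -/
theorem vanishOrd_pow {f : ℍ → ℂ} (hf : MDiff f) (n : ℕ) (τ : ℍ) :
    vanishOrd (f ^ n) τ = n • vanishOrd f τ := by
  rw [vanishOrd, show (f ^ n) ∘ ofComplex = (f ∘ ofComplex) ^ n from rfl,
    analyticOrderAt_pow (analyticAt_of_mdiff hf τ)]
  rfl

/-- A nonzero holomorphic function has finite order everywhere. -/
theorem vanishOrd_ne_top {f : ℍ → ℂ} (hf : MDiff f) (h : f ≠ 0) (τ : ℍ) : vanishOrd f τ ≠ ⊤ := by
  intro htop
  refine h (funext fun σ => ?_)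
  have hev := analyticOrderAt_eq_top.mp htop
  have han : AnalyticOnNhd ℂ (f ∘ ofComplex) {z : ℂ | 0 < z.im} :=
    (UpperHalfPlane.mdifferentiable_iff.mp hf).analyticOnNhd isOpen_upperHalfPlaneSet
  have := han.eqOn_zero_of_preconnected_of_eventuallyEq_zero
    (convex_halfSpace_im_gt 0).isPreconnected τ.im_pos hev σ.im_pos
  simpa [ofComplex_apply] using this

/-- Repeated division by a uniformiser. -/
theorem exists_normal_form {Bs : Subring (ℍ → ℂ)} {τ : ℍ} {P e : ℍ → ℂ}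
    (hmd : ∀ x ∈ Bs, MDiff x) (hP : MDiff P) (hP1 : vanishOrd P τ = 1) (he : e ∈ Bs)
    (he0 : e τ ≠ 0) (hdvd : ∀ x ∈ Bs, x τ = 0 → ∃ x1 ∈ Bs, e * x = P * x1) {y : ℍ → ℂ}
    (hy : y ∈ Bs) (hy0 : y ≠ 0) :
    ∃ j : ℕ, ∃ x ∈ Bs, x τ ≠ 0 ∧ e ^ j * y = P ^ j * x ∧ vanishOrd y τ = j := by
  obtain ⟨n, hn⟩ := ENat.ne_top_iff_exists.mp (vanishOrd_ne_top (hmd y hy) hy0 τ)
  induction n using Nat.strong_induction_on generalizing y with
  | _ n ih =>
  by_cases hyτ : y τ = 0
  · obtain ⟨x1, hx1, heq⟩ := hdvd y hy hyτ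
    have hx10 : x1 ≠ 0 := by
      rintro rfl
      rw [mul_zero] at heq
      have h := congrArg (fun f => vanishOrd f τ) heq
      simp only [vanishOrd_mul (hmd e he) (hmd y hy), (vanishOrd_eq_zero (hmd e he)).mpr he0,
        zero_add] at h
      rw [← hn] at h
      have : vanishOrd (0 : ℍ → ℂ) τ = ⊤ := by
        rw [vanishOrd, analyticOrderAt_eq_top]
        exact Eventually.of_forall fun z => rfl
      rw [this] at h
      exact ENat.natCast_ne_top n h
    have h := congrArg (fun f => vanishOrd f τ) heq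
    simp only [vanishOrd_mul (hmd e he) (hmd y hy), vanishOrd_mul hP (hmd x1 hx1),
      (vanishOrd_eq_zero (hmd e he)).mpr he0, zero_add, hP1, ← hn] at h
    obtain ⟨n1, hn1⟩ := ENat.ne_top_iff_exists.mp (vanishOrd_ne_top (hmd x1 hx1) hx10 τ)
    rw [← hn1] at h
    have hlt : n1 < n := by norm_cast at h; omega
    obtain ⟨j, x, hx, hx0, hjeq, hjord⟩ := ih n1 hlt hx1 hx10 hn1
    refine ⟨j + 1, x, hx, hx0, ?_, ?_⟩
    · rw [pow_succ, mul_assoc, heq, pow_succ,
        show e ^ j * (P * x1) = P * (e ^ j * x1) by ring, hjeq]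
      ring
    · rw [← hn, h, hn1, hjord]
      push_cast
      ring
  · exact ⟨0, y, hy, hyτ, by simp, (vanishOrd_eq_zero (hmd y hy)).mpr hyτ⟩

variable {M m : ℕ} [NeZero M] (haux : AuxLevel M m)
include haux

/-- `t - a`. -/
def hauptSub (a : ℂ) : ℍ → ℂ := haupt haux.dvd - fun _ => a

/-- `t - t(τ)` has a simple zero at `τ`. -/
theorem vanishOrd_hauptSub (τ : ℍ) : vanishOrd (hauptSub haux (haupt haux.dvd τ)) τ = 1 := by
  have hmd : MDiff (haupt haux.dvd) :=
    mdifferentiable_of_mem (polFun_mem_BSub haux 1 (one_le haux))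
  have h := (analyticAt_of_mdiff hmd τ).analyticOrderAt_sub_eq_one_of_deriv_ne_zero
    (deriv_haupt_ne_zero haux τ)
  simp only [Function.comp_apply, ofComplex_apply] at h
  exact h

omit [NeZero M] haux in
/-- The point of the fibre for `1` is the point itself, for modular functions. -/
theorem apply_orbPt_one {f : ℍ → ℂ} (hf : f ∈ BSub M) (τ : ℍ) :
    f (orbPt M m τ 1) = f τ := by
  have h := congrFun (act_eq_act_repG hf (1 : Gamma m)) τ
  rw [Subgroup.coe_one, act_one, QuotientGroup.mk_one] at h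
  exact h.symm

theorem goodVal_top {a : ℂ} (ha : cuspPoly haux a ≠ 0) : GoodVal haux (⊤ : Subring ℂ) a := by
  obtain ⟨h, h3⟩ := mul_ne_zero_iff.mp ha
  obtain ⟨h1, h2⟩ := mul_ne_zero_iff.mp h
  exact ⟨⟨h1, trivial, trivial⟩, ⟨h2, trivial, trivial⟩, ⟨h3, trivial, trivial⟩⟩

/-- Over `ℂ` every fibre is good. -/
theorem goodPoint_top (τ : ℍ) : GoodPoint haux (⊤ : Subring ℂ) τ :=
  ⟨goodVal_top haux (cuspPoly_haupt_ne_zero haux τ), fun _ _ => trivial, fun _ _ => trivial⟩

/-- The normal form of a nonzero element of `BSub M` at a point. -/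
theorem exists_local_form {y : ℍ → ℂ} (hy : y ∈ BSub M) (hy0 : y ≠ 0) (τ : ℍ) :
    ∃ (j : ℕ) (e x : ℍ → ℂ), e ∈ BSub M ∧ x ∈ BSub M ∧ e τ ≠ 0 ∧ x τ ≠ 0 ∧
      e ^ j * y = hauptSub haux (haupt haux.dvd τ) ^ j * x ∧ vanishOrd y τ = j := by
  have hA : GoodRoot M (⊤ : Subring ℂ) (zetaC M) := zetaC_goodRoot_top
  have hg := goodPoint_top haux τ
  have hB : ∀ {f : ℍ → ℂ}, f ∈ BSub M → f ∈ BRing M (⊤ : Subring ℂ) := mem_BRing_top.mpr
  set e := fibIdem haux τ 1 with he
  have heB : e ∈ BRing M (⊤ : Subring ℂ) := fibIdem_mem haux hA hg 1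
  have he1 : e τ = 1 := by
    rw [← apply_orbPt_one heB.1 τ, he, fibIdem_orbPt haux, if_pos rfl]
  obtain ⟨j, x, hx, hx0, heq, hord⟩ := exists_normal_form (Bs := (BSub M).toSubring)
    (fun f hf => mdifferentiable_of_mem hf) (P := hauptSub haux (haupt haux.dvd τ))
    (mdifferentiable_of_mem (sub_mem (polFun_mem_BSub haux 1 (one_le haux))
      ((BSub M).algebraMap_mem _)))
    (vanishOrd_hauptSub haux τ) heB.1 (by rw [he1]; exact one_ne_zero)
    (fun f hf hfτ => by
      obtain ⟨x1, hx1, h⟩ := exists_eq_mul_of_fibre_zero haux hA hg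
        (mul_mem heB (hB hf)) (fun g => by
          rw [Pi.mul_apply]
          by_cases hg1 : (1 : GalGrp M m) = g
          · subst hg1
            rw [apply_orbPt_one hf τ, hfτ, mul_zero]
          · rw [he, fibIdem_orbPt haux, if_neg hg1, zero_mul])
      exact ⟨x1, hx1.1, h⟩) hy hy0
  exact ⟨j, e, x, heB.1, hx, by rw [he1]; exact one_ne_zero, hx0, heq, hord⟩

end FermatAgent.ES
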