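import Fermat.Agent.ES.Ring.Basic
import Fermat.Agent.ES.Ring.LeadUnit
import Mathlib.Analysis.Complex.Basic

/-!
# Ratios of `℘`-differences: the units of `BSub M`
-/

set_option autoImplicit false

open Filter Topology UpperHalfPlane CongruenceSubgroup
open scoped MatrixGroups ModularForm Manifold

noncomputable section

namespace FermatAgent.ES

variable (M : ℕ)

/-- An admissible pair: the difference is nowhere zero. -/
structure Adm (v w : Fin 2 → ZMod M) : Prop where
  left : v ≠ 0
  right : w ≠ 0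
  ne : v ≠ w
  ne_neg : v ≠ -w

/-- `dif(v,w)/dif(v',w')`. -/
def ratio (v w v' w' : Fin 2 → ZMod M) : ℍ → ℂ := fun τ => dif M v w τ / dif M v' w' τ

/-- The expansion of `ratio`. -/
def ratioSeries {K : Type*} [Field K] (ζ : K) (v w v' w' : Fin 2 → ZMod M) : LaurentSeries K :=
  difLaurent M ζ v w / difLaurent M ζ v' w'

/-- Right multiplication of a vector by `γ` mod `M`. -/
def vmul (v : Fin 2 → ZMod M) (γ : SL(2, ℤ)) : Fin 2 → ZMod M := Matrix.vecMul v (modMat M γ)

variable {M}

/-- The identity fixes vectors. -/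
theorem vmul_one (v : Fin 2 → ZMod M) : vmul M v 1 = v := by simp [vmul, modMat_one]

/-- Multiplication of vectors is a right action. -/
theorem vmul_mul (v : Fin 2 → ZMod M) (γ δ : SL(2, ℤ)) :
    vmul M v (γ * δ) = vmul M (vmul M v γ) δ := by
  simp [vmul, modMat_mul, Matrix.vecMul_vecMul]

/-- Multiplication commutes with negation. -/
theorem vmul_neg (v : Fin 2 → ZMod M) (γ : SL(2, ℤ)) : vmul M (-v) γ = -vmul M v γ := by
  simp [vmul, Matrix.neg_vecMul]

/-- The zero vector is fixed. -/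
theorem vmul_zero (γ : SL(2, ℤ)) : vmul M (0 : Fin 2 → ZMod M) γ = 0 := by simp [vmul]

/-- Multiplication by a matrix is injective. -/
theorem vmul_injective (γ : SL(2, ℤ)) : Function.Injective (fun v => vmul M v γ) := fun v w h => by
  have := congrArg (fun u => vmul M u γ⁻¹) h
  simpa [← vmul_mul, vmul_one] using this

/-- Elements of `Γ(M)` are `1` modulo `M`. -/
theorem modMat_eq_one_of_mem {γ : SL(2, ℤ)} (hγ : γ ∈ Gamma M) : modMat M γ = 1 := by
  rw [Gamma_mem] at hγ
  ext i j
  fin_cases i <;> fin_cases j <;> simp [modMat, hγ.1, hγ.2.1, hγ.2.2.1, hγ.2.2.2]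

/-- `Γ(M)` fixes vectors modulo `M`. -/
theorem vmul_of_mem {γ : SL(2, ℤ)} (hγ : γ ∈ Gamma M) (v : Fin 2 → ZMod M) : vmul M v γ = v := by
  simp [vmul, modMat_eq_one_of_mem hγ]

/-- Translation preserves admissibility. -/
theorem Adm.mul {v w : Fin 2 → ZMod M} (h : Adm M v w) (γ : SL(2, ℤ)) :
    Adm M (vmul M v γ) (vmul M w γ) where
  left := fun h0 => h.left (vmul_injective γ (by simpa [vmul_zero] using h0))
  right := fun h0 => h.right (vmul_injective γ (by simpa [vmul_zero] using h0))
  ne := fun h0 => h.ne (vmul_injective γ h0)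
  ne_neg := fun h0 => h.ne_neg (vmul_injective γ (by simpa [vmul_neg] using h0))

/-- The inverse of a ratio is the reversed ratio. -/
theorem inv_ratio (v w v' w' : Fin 2 → ZMod M) :
    (ratio M v w v' w')⁻¹ = ratio M v' w' v w := by
  funext τ; simp [ratio]

/-- Ratios with a common denominator subtract. -/
theorem ratio_sub_ratio (u v w v' w' : Fin 2 → ZMod M) :
    ratio M u w v' w' - ratio M u v v' w' = ratio M v w v' w' := by
  funext τ
  simp only [Pi.sub_apply, ratio, ← sub_div]
  rw [← congrFun (dif_add_dif M u v w) τ]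
  simp

variable [NeZero M]

/-- An admissible difference has no zeros. -/
theorem Adm.dif_ne_zero {v w : Fin 2 → ZMod M} (h : Adm M v w) (τ : ℍ) : dif M v w τ ≠ 0 :=
  FermatAgent.ES.dif_ne_zero M h.left h.right h.ne h.ne_neg τ

/-- Differences transform with weight two. -/
theorem dif_smul (v w : Fin 2 → ZMod M) (γ : SL(2, ℤ)) (τ : ℍ) :
    dif M v w (γ • τ) = UpperHalfPlane.denom γ τ ^ 2 * dif M (vmul M v γ) (vmul M w γ) τ := by
  have h := congrFun (dif_slash M v w γ) τ
  rw [ModularForm.SL_slash_apply] at h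
  rw [← show (dif M v w (γ • τ)) * UpperHalfPlane.denom γ τ ^ (-2 : ℤ) =
    dif M (vmul M v γ) (vmul M w γ) τ from h, zpow_neg, zpow_two]
  have := UpperHalfPlane.denom_ne_zero (γ : GL (Fin 2) ℝ) τ
  field_simp

/-- The translate of a ratio is the ratio of the translated vectors. -/
theorem act_ratio (γ : SL(2, ℤ)) (v w v' w' : Fin 2 → ZMod M) :
    act γ (ratio M v w v' w') = ratio M (vmul M v γ) (vmul M w γ) (vmul M v' γ) (vmul M w' γ) := by
  funext τ
  simp only [act_apply, ratio, dif_smul]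
  rw [mul_div_mul_left _ _ (pow_ne_zero 2 (UpperHalfPlane.denom_ne_zero (γ : GL (Fin 2) ℝ) τ))]

/-- The standard root of unity is good over `ℂ`. -/
theorem zetaC_goodRoot_top : GoodRoot M (⊤ : Subring ℂ) (zetaC M) where
  prim := zetaC_isPrimitiveRoot M
  mem := trivial
  unit_one_sub i hi := ⟨sub_ne_zero.mpr fun h =>
    hi ((zetaC_isPrimitiveRoot M).dvd_of_pow_eq_one i h.symm), trivial, trivial⟩

/-- The Laurent expansion of a difference. -/
theorem hasLExp_dif {v w : Fin 2 → ZMod M} (hv : v ≠ 0) (hw : w ≠ 0) :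
    HasLExp M (dif M v w) (difLaurent M (zetaC M) v w) :=
  HasLExp.of_exp (hasExp_dif M hv hw)

/-- The Laurent expansion of a ratio. -/
theorem hasLExp_ratio {v w v' w' : Fin 2 → ZMod M} (hv : v ≠ 0) (hw : w ≠ 0) (h' : Adm M v' w') :
    HasLExp M (ratio M v w v' w') (ratioSeries M (zetaC M) v w v' w') := by
  have h2 := (hasLExp_dif (M := M) h'.left h'.right).inv h'.dif_ne_zero
    (leadUnit_difLaurent zetaC_goodRoot_top h'.left h'.right h'.ne h'.ne_neg).ne_zero
  rw [ratioSeries, div_eq_mul_inv]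
  exact ((hasLExp_dif hv hw).mul h2).congr_fun fun τ => by simp [ratio, div_eq_mul_inv]

/-- A ratio is a modular function of level `M`. -/
theorem ratio_mem {v w v' w' : Fin 2 → ZMod M} (hv : v ≠ 0) (hw : w ≠ 0) (h' : Adm M v' w') :
    ratio M v w v' w' ∈ BSub M := by
  refine ⟨fun γ hγ => ?_, fun γ => ?_⟩
  · simp only [act_ratio, vmul_of_mem hγ]
  · refine ⟨_, (act_ratio γ v w v' w') ▸ hasLExp_ratio ?_ ?_ (h'.mul γ)⟩
    · exact fun h0 => hv (vmul_injective γ (by simpa [vmul_zero] using h0))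
    · exact fun h0 => hw (vmul_injective γ (by simpa [vmul_zero] using h0))

/-- The expansion of a ratio at a cusp. -/
theorem lexp_ratio {v w v' w' : Fin 2 → ZMod M} (hv : v ≠ 0) (hw : w ≠ 0) (h' : Adm M v' w')
    (γ : SL(2, ℤ)) : lexp M γ (ratio M v w v' w') =
      ratioSeries M (zetaC M) (vmul M v γ) (vmul M w γ) (vmul M v' γ) (vmul M w' γ) := by
  refine lexp_eq ?_
  rw [act_ratio]
  exact hasLExp_ratio (fun h0 => hv (vmul_injective γ (by simpa [vmul_zero] using h0)))
    (fun h0 => hw (vmul_injective γ (by simpa [vmul_zero] using h0))) (h'.mul γ)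

/-- The exponent of the leading term of `dif M v w`. -/
def pairIdx (v w : Fin 2 → ZMod M) : ℤ := ((min (leadIdx v) (leadIdx w) : ℕ) : ℤ)

/-- The series of a ratio of admissible pairs has unit leading coefficient. -/
theorem leadUnit_ratioSeries {K : Type*} [Field K] {A : Subring K} {ζ : K} (hζ : GoodRoot M A ζ)
    {v w v' w' : Fin 2 → ZMod M} (h : Adm M v w) (h' : Adm M v' w') :
    LeadUnit A (ratioSeries M ζ v w v' w') (pairIdx v w - pairIdx v' w') :=
  (leadUnit_difLaurent hζ h.left h.right h.ne h.ne_neg).div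
    (leadUnit_difLaurent hζ h'.left h'.right h'.ne h'.ne_neg)

/-- A ratio has unit leading coefficients at all cusps. -/
theorem leadUnit_lexp_ratio {A : Subring ℂ} (hζ : GoodRoot M A (zetaC M))
    {v w v' w' : Fin 2 → ZMod M} (h : Adm M v w) (h' : Adm M v' w') (γ : SL(2, ℤ)) :
    LeadUnit A (lexp M γ (ratio M v w v' w'))
      (pairIdx (vmul M v γ) (vmul M w γ) - pairIdx (vmul M v' γ) (vmul M w' γ)) := by
  rw [lexp_ratio h.left h.right h' γ]
  exact leadUnit_ratioSeries hζ (h.mul γ) (h'.mul γ)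

/-- A ratio of admissible pairs has no zeros. -/
theorem ratio_ne_zero {v w v' w' : Fin 2 → ZMod M} (h : Adm M v w) (h' : Adm M v' w') (τ : ℍ) :
    ratio M v w v' w' τ ≠ 0 := div_ne_zero (h.dif_ne_zero τ) (h'.dif_ne_zero τ)

/-- Ratios compose. -/
theorem ratio_mul_ratio (v w : Fin 2 → ZMod M) {a b : Fin 2 → ZMod M} (hab : Adm M a b)
    (v' w' : Fin 2 → ZMod M) : ratio M v w a b * ratio M a b v' w' = ratio M v w v' w' := by
  funext τ
  simp only [Pi.mul_apply, ratio]
  field_simp [hab.dif_ne_zero τ]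

end FermatAgent.ES
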